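import Fermat.Agent.Mod2.RT.Dihedral

/-!
# Modularity at a set of auxiliary primes killing the Selmer group

In characteristic two a deformation at such a set is dihedral, so the theta series gives it at
level `2 m` (`exists_hom_empty`) and hence at the quotient new at all the primes
(`exists_hom_charTwo`). The fibre algebra lifts this through the regular element `2`
(`modularAt_of_selTrivial`).
-/

set_option autoImplicit false

noncomputable section

namespace FLTAgent.Mod2

open Matrix IsLocalRing Polynomial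

section Finite

variable {B : Type} [CommRing B] [Algebra ℤ_[2] B] [Module.Finite ℤ_[2] B]

theorem finite_of_two_eq_zero (h2 : (2 : B) = 0) : Finite B := by
  obtain ⟨n, s, hs⟩ := Module.Finite.exists_fin (R := ℤ_[2]) (M := B)
  refine Finite.of_surjective (fun c : Fin n → ZMod 2 => ∑ i, ((c i).val : B) * s i) fun x => ?_
  have hx : x ∈ Submodule.span ℤ_[2] (Set.range s) := hs ▸ Submodule.mem_top
  rw [Submodule.mem_span_range_iff_exists_fun] at hx
  obtain ⟨c, rfl⟩ := hx
  refine ⟨fun i => PadicInt.toZMod (c i), Finset.sum_congr rfl fun i _ => ?_⟩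
  rw [Algebra.smul_def]
  congr 1
  have h0 : PadicInt.toZMod (c i - ((PadicInt.toZMod (c i)).val : ℤ_[2])) = 0 := by
    rw [map_sub, map_natCast, ZMod.natCast_zmod_val, sub_self]
  rw [← RingHom.mem_ker, PadicInt.ker_toZMod, PadicInt.maximalIdeal_eq_span_p,
    Ideal.mem_span_singleton] at h0
  obtain ⟨d, hd⟩ := h0
  rw [← sub_eq_zero, ← neg_eq_zero, neg_sub]
  have := congrArg (algebraMap ℤ_[2] B) hd
  rw [map_sub, map_natCast, map_mul, map_natCast, Nat.cast_ofNat, h2, zero_mul] at this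
  exact this

end Finite

/-- A ring with a cube root of unity adjoined. -/
abbrev AdjW (B : Type) [CommRing B] : Type := AdjoinRoot (Quad.poly (1 : B) 1)

section AdjW

variable {B : Type} [CommRing B] [IsLocalRing B] [CharP B 2]

theorem adjW_root : (AdjoinRoot.root (Quad.poly (1 : B) 1)) ^ 2 + AdjoinRoot.root _ + 1 = 0 := by
  have h := Quad.root_sq (t := (1 : B)) (c := 1)
  have h2 : (2 : AdjW B) = 0 := by
    rw [← map_ofNat (AdjoinRoot.of (Quad.poly (1 : B) 1)), CharTwo.two_eq_zero, map_zero]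
  rw [map_one] at h
  linear_combination h + AdjoinRoot.root (Quad.poly (1 : B) 1) * h2

theorem adjW_isUnit (red : B →+* ZMod 2) {a b : B} (h : red a = 1 ∨ red b = 1) :
    IsUnit (AdjoinRoot.of (Quad.poly (1 : B) 1) a + AdjoinRoot.of _ b * AdjoinRoot.root _) := by
  have hN : IsUnit (a * a + a * b + b * b) := by
    rw [isUnit_iff_red red]
    simp only [map_add, map_mul]
    have h1 : ∀ x y : ZMod 2, (x = 1 ∨ y = 1) → x * x + x * y + y * y = 1 := by decide
    exact h1 _ _ h
  have h2 : (2 : AdjW B) = 0 := by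
    rw [← map_ofNat (AdjoinRoot.of (Quad.poly (1 : B) 1)), CharTwo.two_eq_zero, map_zero]
  refine isUnit_of_mul_isUnit_left (y := AdjoinRoot.of (Quad.poly (1 : B) 1) (a + b) +
    AdjoinRoot.of _ b * AdjoinRoot.root _) ?_
  have e : (AdjoinRoot.of (Quad.poly (1 : B) 1) a + AdjoinRoot.of _ b * AdjoinRoot.root _) *
      (AdjoinRoot.of (Quad.poly (1 : B) 1) (a + b) + AdjoinRoot.of _ b * AdjoinRoot.root _) =
      AdjoinRoot.of (Quad.poly (1 : B) 1) (a * a + a * b + b * b) := by
    simp only [map_add, map_mul]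
    linear_combination (AdjoinRoot.of (Quad.poly (1 : B) 1) b) ^ 2 * adjW_root (B := B) +
      (AdjoinRoot.of (Quad.poly (1 : B) 1) a * AdjoinRoot.of (Quad.poly (1 : B) 1) b *
        AdjoinRoot.root _ - (AdjoinRoot.of (Quad.poly (1 : B) 1) b) ^ 2) * h2
  rw [e]
  exact hN.map _

theorem adjW_isLocalRing (red : B →+* ZMod 2) : IsLocalRing (AdjW B) := by
  have : Nontrivial (AdjW B) := by
    refine ⟨⟨AdjoinRoot.of _ 1, 0, fun h => ?_⟩⟩
    obtain ⟨h1, -⟩ := Quad.eq_zero (t := (1 : B)) (c := 1) (a := (1 : B)) (b := 0)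
      (by rw [h, map_zero, zero_mul, add_zero])
    exact one_ne_zero h1
  refine IsLocalRing.of_nonunits_add fun {x y} hx hy hxy => ?_
  obtain ⟨a, b, rfl⟩ := Quad.exists_eq x
  obtain ⟨a', b', rfl⟩ := Quad.exists_eq y
  have h1 : ∀ z : ZMod 2, z ≠ 1 → z = 0 := by decide
  have ha := h1 _ fun h => hx (adjW_isUnit red (.inl h))
  have hb := h1 _ fun h => hx (adjW_isUnit red (.inr h))
  have ha' := h1 _ fun h => hy (adjW_isUnit red (.inl h))
  have hb' := h1 _ fun h => hy (adjW_isUnit red (.inr h))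
  let f : AdjW B →+* AdjoinRoot (Quad.poly (1 : ZMod 2) 1) :=
    AdjoinRoot.lift ((AdjoinRoot.of _).comp red) (AdjoinRoot.root _) (by
      have := AdjoinRoot.eval₂_root (Quad.poly (1 : ZMod 2) 1)
      simpa [Quad.poly] using this)
  have hu := hxy.map f
  simp only [f, map_add, map_mul, AdjoinRoot.lift_of, AdjoinRoot.lift_root, RingHom.comp_apply,
    ha, hb, ha', hb', map_zero, zero_mul, add_zero] at hu
  have : Nontrivial (AdjoinRoot (Quad.poly (1 : ZMod 2) 1)) :=
    AdjoinRoot.nontrivial _ (by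
      rw [degree_eq_natDegree (Quad.poly_monic _ _).ne_zero, Quad.poly_natDegree]
      intro h; simp at h)
  exact not_isUnit_zero hu

omit [IsLocalRing B] [CharP B 2] in
theorem adjW_finite [Finite B] : Finite (AdjW B) :=
  haveI : Module.Finite B (AdjW B) := (Quad.poly_monic (1 : B) 1).finite_adjoinRoot
  Module.finite_of_finite B

end AdjW

namespace Tower

variable {D : Setup} {W : Tower D}

open Classical in
/-- The values at level `G` of a system that is special at `S ⊇ G`, in characteristic `2`. -/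
def baseVal {B : Type} [CommRing B] (S G : Finset D.Aux) (u : ℕ → B) (r : Gal2 →* Mat2 B)
    (l : ℕ) : B :=
  if D.IsSpecial G l then u l else if D.IsSpecial S l then 0 else frobTrace r l

variable (hθ : D.ThetaProp) {S : Finset D.Aux} (hS : D.SelTrivial S)

include hθ hS in
/-- The theta series gives the eigensystem at level `2 m`. -/
theorem exists_hom_empty {B : Type} [CommRing B] [IsLocalRing B] [Algebra ℤ_[2] B]
    [Module.Finite ℤ_[2] B] [CharP B 2] (red : B →+* ZMod 2) {u : ℕ → B} {r : Gal2 →* Mat2 B}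
    (hr : D.IsDef S u r) :
    ∃ g : W.T ∅ →ₐ[ℤ_[2]] B, ∀ l : ℕ, l.Prime → g (W.t ∅ l) = baseVal S ∅ u r l := by
  classical
  have : Finite B := finite_of_two_eq_zero CharTwo.two_eq_zero
  have := adjW_isLocalRing (B := B) red
  have : Finite (AdjW B) := adjW_finite
  have hinj : Function.Injective (AdjoinRoot.of (Quad.poly (1 : B) 1)) := fun a b hab =>
    (Quad.coord_eq (t := (1 : B)) (c := 1) (a := a) (b := 0) (a' := b) (b' := 0)
      (by rw [hab])).1
  have : CharP (AdjW B) 2 := CharTwo.of_one_ne_zero_of_two_eq_zero one_ne_zero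
    (by rw [← map_ofNat (AdjoinRoot.of (Quad.poly (1 : B) 1)), CharTwo.two_eq_zero, map_zero])
  have : IsLocalHom (AdjoinRoot.of (Quad.poly (1 : B) 1)) := ⟨fun a ha => by
    by_contra hu
    obtain ⟨n, hn⟩ := IsArtinianRing.isNilpotent_jacobson_bot (R := B)
    rw [jacobson_eq_maximalIdeal ⊥ bot_ne_top] at hn
    have h0 : a ^ n = 0 := by
      have h1 := Ideal.pow_mem_pow (show a ∈ maximalIdeal B from hu) n
      rwa [hn] at h1
    have := ha.pow n
    rw [← map_pow, h0, map_zero] at this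
    exact not_isUnit_zero this⟩
  set ι := AdjoinRoot.of (Quad.poly (1 : B) 1)
  have hmod := hr.isModTwo red ι
  have hnil : IsNilpotent (maximalIdeal (AdjW B)) := by
    have := IsArtinianRing.isNilpotent_jacobson_bot (R := AdjW B)
    rwa [jacobson_eq_maximalIdeal ⊥ bot_ne_top] at this
  obtain ⟨P, hP, hur, hfr, hunit⟩ := exists_dihedral hmod hS (adjW_root (B := B)) hnil
  set rd := conjRep P (mapRep ι r)
  obtain ⟨L, hL, hLt⟩ := hmod.cont
  obtain ⟨F, hFT, hFU⟩ := hθ (AdjW B) CharTwo.two_eq_zero rd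
    ⟨L, hL, fun σ hσ => by rw [conjRep_apply, hLt σ hσ, mul_one, Units.inv_mul]⟩ hP
    (fun σ => by rw [det_conjRep]; exact hmod.det σ) hur hunit
    (fun σ => by
      rw [trace_conjRep]
      have h0 := hmod.res σ 0 0
      have h1 := hmod.res σ 1 1
      have e : ∀ z : ZMod 2, castTwo (AdjW B) z = (z.val : AdjW B) := fun z => by
        conv_lhs => rw [← ZMod.natCast_zmod_val z]
        rw [map_natCast]
      rw [Matrix.trace_fin_two, ← e, Matrix.trace_fin_two, map_add]
      have := add_mem h0 h1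
      convert this using 1
      ring)
    (fun v => ι (u v))
    (fun v hv hvm A hA φ hφ hK => hfr v ⟨hv, .inl hvm⟩ A hA φ hφ hK)
  have htrace : ∀ σ, (rd σ).trace = ι (r σ).trace := fun σ => by
    rw [trace_conjRep, mapRep_apply, trace_map]
  have hval : ∀ (l : ℕ) (hl : l.Prime) (hlN : ¬ l ∣ 2 * D.m),
      F (CuspForm.heckeAlgebra.T hl hlN (Set.notMem_empty l)) = ι (baseVal S ∅ u r l) := by
    intro l hl hlN
    have hn : ¬ D.IsSpecial ∅ l := by
      rintro ⟨-, h | ⟨s, hs, -⟩⟩
      · exact hlN h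
      · exact Finset.notMem_empty s hs
    obtain ⟨A, hA, φ, hφ⟩ := GalCommon.exists_place_frobenius hl
    rw [hFT l hl hlN A hA φ hφ, htrace, baseVal, if_neg hn]
    congr 1
    by_cases hs : D.IsSpecial S l
    · rw [if_pos hs, (hr.special l hs).trace_frob A hA φ hφ, Setup.algebraMap_chi2_eq_one,
        CharTwo.add_self_eq_zero, mul_zero]
    · rw [if_neg hs, hr.frobTrace_eq hl hs hA hφ]
  have hvalU : ∀ (v : ℕ) (hv : v.Prime) (hvN : v ∣ 2 * D.m),
      F (CuspForm.heckeAlgebra.U hv hvN (Set.notMem_empty v)) = ι (baseVal S ∅ u r v) := by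
    intro v hv hvN
    rw [hFU v hv hvN, baseVal, if_pos ⟨hv, .inl hvN⟩]
  have hrange : ∀ x : CuspForm.heckeAlgebra (2 * D.m) 2 ∅, ∃ b : B, ι b = F x := by
    rintro ⟨x, hx⟩
    induction hx using Algebra.adjoin_induction with
    | mem y hy =>
      rcases hy with ⟨l, hl, hlN, hlS, rfl⟩ | ⟨v, hvN, hv, hvS, rfl⟩
      · exact ⟨_, (hval l hl hlN).symm⟩
      · exact ⟨_, (hvalU v hv hvN).symm⟩
    | algebraMap c =>
      refine ⟨(c : B), ?_⟩
      rw [map_intCast]
      exact (map_intCast F c).symm.trans (congrArg F (Subtype.ext (eq_intCast _ c).symm))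
    | add a b ha hb iha ihb =>
      obtain ⟨a', ha'⟩ := iha; obtain ⟨b', hb'⟩ := ihb
      exact ⟨a' + b', by rw [map_add, ha', hb', ← map_add]; rfl⟩
    | mul a b ha hb iha ihb =>
      obtain ⟨a', ha'⟩ := iha; obtain ⟨b', hb'⟩ := ihb
      exact ⟨a' * b', by rw [map_mul, ha', hb', ← map_mul]; rfl⟩
  choose fb hfb using hrange
  let f : CuspForm.heckeAlgebra (2 * D.m) 2 ∅ →+* B :=
    { toFun := fb
      map_one' := hinj (by rw [hfb, map_one, map_one])
      map_zero' := hinj (by rw [hfb, map_zero, map_zero])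
      map_add' := fun x y => hinj (by rw [hfb, map_add, map_add, hfb, hfb])
      map_mul' := fun x y => hinj (by rw [hfb, map_mul, map_mul, hfb, hfb]) }
  have hf : ∀ x, ι (f x) = F x := hfb
  have h1 : ∀ z : ZMod 2, z ^ 2 = 1 → z = 1 := by decide
  have hred : ∀ x, red (f x) = W.red ∅ (W.hecke x) := by
    rintro ⟨x, hx⟩
    induction hx using Algebra.adjoin_induction with
    | mem y hy =>
      rcases hy with ⟨l, hl, hlN, hlS, rfl⟩ | ⟨v, hvN, hv, hvS, rfl⟩
      · have e := hinj ((hf _).trans (hval l hl hlN))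
        show red (f (CuspForm.heckeAlgebra.T hl hlN (Set.notMem_empty l))) =
          W.red ∅ (W.hecke (CuspForm.heckeAlgebra.T hl hlN (Set.notMem_empty l)))
        have hn : ¬ D.IsSpecial ∅ l := by
          rintro ⟨-, h | ⟨s, hs, -⟩⟩
          · exact hlN h
          · exact Finset.notMem_empty s hs
        obtain ⟨A, hA, φ, hφ⟩ := GalCommon.exists_place_frobenius hl
        rw [e, W.hecke_T, ← W.trace_frob ∅ l hl hn A hA φ hφ, ← trace_map, W.lifts, baseVal,
          if_neg hn, ← hr.lifts red φ, trace_map]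
        by_cases hs : D.IsSpecial S l
        · rw [if_pos hs, map_zero, (hr.special l hs).trace_frob A hA φ hφ,
            Setup.algebraMap_chi2_eq_one, CharTwo.add_self_eq_zero, mul_zero, map_zero]
        · rw [if_neg hs, hr.frobTrace_eq hl hs hA hφ]
      · have e := hinj ((hf _).trans (hvalU v hv hvN))
        show red (f (CuspForm.heckeAlgebra.U hv hvN (Set.notMem_empty v))) =
          W.red ∅ (W.hecke (CuspForm.heckeAlgebra.U hv hvN (Set.notMem_empty v)))
        rw [e, W.hecke_U, W.red_t ∅ v ⟨hv, .inl hvN⟩, baseVal, if_pos ⟨hv, .inl hvN⟩]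
        exact h1 _ (by rw [← map_pow, (hr.special v ⟨hv, .inl hvN⟩).sq, map_one])
    | algebraMap c =>
      have e : (⟨algebraMap ℤ _ c, Subalgebra.algebraMap_mem _ c⟩ :
          CuspForm.heckeAlgebra (2 * D.m) 2 ∅) = (c : CuspForm.heckeAlgebra (2 * D.m) 2 ∅) :=
        Subtype.ext (eq_intCast _ c)
      rw [e, map_intCast, map_intCast, map_intCast, map_intCast]
    | add a b ha hb iha ihb =>
      have e : (⟨a + b, add_mem ha hb⟩ : CuspForm.heckeAlgebra (2 * D.m) 2 ∅) =
        ⟨a, ha⟩ + ⟨b, hb⟩ := rfl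
      rw [e, map_add, map_add, map_add, map_add, iha, ihb]
    | mul a b ha hb iha ihb =>
      have e : (⟨a * b, mul_mem ha hb⟩ : CuspForm.heckeAlgebra (2 * D.m) 2 ∅) =
        ⟨a, ha⟩ * ⟨b, hb⟩ := rfl
      rw [e, map_mul, map_mul, map_mul, map_mul, iha, ihb]
  obtain ⟨g, hg⟩ := W.hecke_lift B f fun x hu => by
    have := hu.map red
    rw [map_sub, map_natCast, ZMod.natCast_zmod_val, hred, sub_self] at this
    exact not_isUnit_zero this
  refine ⟨g, fun l hl => ?_⟩
  by_cases hlN : l ∣ 2 * D.m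
  · rw [← W.hecke_U l hl hlN, hg]
    exact hinj ((hf _).trans (hvalU l hl hlN))
  · rw [← W.hecke_T l hl hlN, hg]
    exact hinj ((hf _).trans (hval l hl hlN))

include hθ hS in
/-- Deformations in characteristic `2` at a set killing the Selmer group are modular. -/
theorem exists_hom_charTwo {B : Type} [CommRing B] [IsLocalRing B] [Algebra ℤ_[2] B]
    [Module.Finite ℤ_[2] B] [CharP B 2] (red : B →+* ZMod 2) {u : ℕ → B} {r : Gal2 →* Mat2 B}
    (hr : D.IsDef S u r) :
    ∃ g : W.TN S →ₐ[ℤ_[2]] B, ∀ l : ℕ, l.Prime → g (W.tN S l) = eigenval S u r l := by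
  classical
  have key : ∀ G : Finset D.Aux, G ⊆ S →
      ∃ g : W.T G →ₐ[ℤ_[2]] B, ∀ l : ℕ, l.Prime → g (W.t G l) = baseVal S G u r l := by
    intro G
    induction G using Finset.strongInduction with
    | _ G ih =>
      intro hGS
      rcases G.eq_empty_or_nonempty with rfl | ⟨q, hq⟩
      · exact exists_hom_empty hθ hS red hr
      · obtain ⟨g', hg'⟩ := ih _ (Finset.erase_ssubset hq) fun s hs => hGS (Finset.mem_of_mem_erase hs)
        have hspec : ∀ l, l ≠ q.1 → (D.IsSpecial (G.erase q) l ↔ D.IsSpecial G l) := by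
          intro l hne
          refine ⟨fun ⟨hl, h⟩ => ⟨hl, h.imp id fun ⟨s, hs, e⟩ =>
            ⟨s, Finset.mem_of_mem_erase hs, e⟩⟩, fun ⟨hl, h⟩ => ⟨hl, h.imp id fun ⟨s, hs, e⟩ =>
            ⟨s, Finset.mem_erase.2 ⟨fun e' => hne (e ▸ e' ▸ rfl), hs⟩, e⟩⟩⟩
        have ht : g' (W.t (G.erase q) q.1) = 0 := by
          rw [hg' _ q.2.1, baseVal, if_neg (q.not_special_erase G),
            if_pos (D.isSpecial_of_mem q (hGS hq))]
        have hroot : (Quad.poly (W.t (G.erase q) q.1) ((q.1 : ℕ) : W.T (G.erase q))).eval₂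
            g'.toRingHom (u q.1) = 0 := by
          simp only [Quad.poly, eval₂_add, eval₂_sub, eval₂_pow, eval₂_X, eval₂_mul, eval₂_C]
          show u q.1 ^ 2 - g' _ * u q.1 + g' _ = 0
          rw [ht, zero_mul, sub_zero, (hr.special _ (D.isSpecial_of_mem q (hGS hq))).sq, map_natCast]
          obtain ⟨k, hk⟩ := q.odd
          rw [hk, Nat.cast_add, Nat.cast_mul, Nat.cast_ofNat, CharTwo.two_eq_zero, zero_mul,
            zero_add, Nat.cast_one, CharTwo.add_self_eq_zero]
        let L : W.Old G q →+* B := AdjoinRoot.lift g'.toRingHom (u q.1) hroot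
        refine ⟨{ L.comp (W.piOld G q hq).toRingHom with commutes' := fun c => ?_ }, fun l hl => ?_⟩
        · show L (W.piOld G q hq (algebraMap ℤ_[2] _ c)) = _
          rw [(W.piOld G q hq).commutes, ← (W.ofOld G q).commutes, ofOld_apply]
          exact (AdjoinRoot.lift_of hroot).trans (g'.commutes c)
        · show L (W.piOld G q hq (W.t G l)) = _
          by_cases hlq : l = q.1
          · subst hlq
            rw [piOld_u, show L (AdjoinRoot.root _) = u q.1 from AdjoinRoot.lift_root hroot, baseVal,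
              if_pos (D.isSpecial_of_mem q hq)]
          · rw [piOld_t hq hl hlq, show L (AdjoinRoot.of _ (W.t (G.erase q) l)) = _ from
              AdjoinRoot.lift_of hroot]
            refine (hg' l hl).trans ?_
            simp only [baseVal, hspec l hlq]
  obtain ⟨g, hg⟩ := key S subset_rfl
  have hkill : ∀ a ∈ W.newI S S, g a = 0 := by
    intro a ha
    refine (Ideal.span_le (I := RingHom.ker g.toRingHom)).2 ?_ ha
    rintro _ ⟨s, hs, rfl⟩
    show g (W.dd S s) = 0
    rw [dd, map_sub, map_pow, map_one, hg _ s.2.1, baseVal, if_pos (D.isSpecial_of_mem s hs),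
      (hr.special _ (D.isSpecial_of_mem s hs)).sq, sub_self]
  refine ⟨Ideal.Quotient.liftₐ _ g hkill, fun l hl => ?_⟩
  show g (W.t S l) = _
  rw [hg l hl]
  by_cases hs : D.IsSpecial S l
  · rw [baseVal, if_pos hs, eigenval_of_special hs]
  · rw [baseVal, if_neg hs, if_neg hs, eigenval, if_neg hs]

variable (hW : W.IsNormalized)

include hθ hS hW in
/-- Modularity at a set of auxiliary primes killing the Selmer group. -/
theorem modularAt_of_selTrivial : W.ModularAt S := by
  intro B _ _ _ _ hres u₀ r₀ hr₀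
  obtain ⟨red⟩ := hres
  obtain ⟨P, hP, hn⟩ := Setup.exists_isNormal red (fun σ => hr₀.lifts red σ)
    (hr₀.special 2 (D.isSpecial_of_dvd Nat.prime_two (dvd_mul_right 2 D.m)))
  have hr : D.IsDef S u₀ (conjRep P r₀) := hr₀.conj P red hP
  have hev : ∀ l, eigenval S u₀ (conjRep P r₀) l = eigenval S u₀ r₀ l := by
    intro l
    unfold eigenval frobTrace
    split
    · rfl
    · split
      · rw [trace_conjRep]
      · rfl
  simp only [← hev]
  have := isLocalRing_fibre (W := W) hr red
  obtain ⟨u', r', hr', hn', hval, hu'⟩ := exists_fibre_def (W := W) hW hr hn red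
  have h2 : W.redFibre S u₀ (conjRep P r₀) 2 = 0 := by rw [map_ofNat]; rfl
  have hreg : ∀ y, y * W.fibreFst S u₀ (conjRep P r₀) 2 = 0 → y = 0 := by
    intro y hy
    obtain ⟨z, rfl⟩ := Ideal.Quotient.mk_surjective y
    rw [map_ofNat, ← map_ofNat (Ideal.Quotient.mk (W.newI S S)), ← map_mul,
      Ideal.Quotient.eq_zero_iff_mem] at hy
    exact Ideal.Quotient.eq_zero_iff_mem.2 (isSat_newI hW subset_rfl z (by rwa [mul_comm]))
  have main : ∀ (R : Type) [CommRing R] [IsLocalRing R] [Algebra ℤ_[2] R] [Module.Finite ℤ_[2] R]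
      (redR : R →+* ZMod 2) (u : ℕ → R) (r : Gal2 →* Mat2 R), D.IsDef S u r →
      ∃ g : W.TN S →ₐ[ℤ_[2]] R ⧸ Ideal.span {(2 : R)}, ∀ l : ℕ, l.Prime →
        g (W.tN S l) = Ideal.Quotient.mk _ (eigenval S u r l) := by
    intro R _ _ _ _ redR u r hdef
    let mk : R →ₐ[ℤ_[2]] R ⧸ Ideal.span {(2 : R)} := Ideal.Quotient.mkₐ ℤ_[2] _
    have : Module.Finite ℤ_[2] (R ⧸ Ideal.span {(2 : R)}) :=
      Module.Finite.of_surjective mk.toLinearMap Ideal.Quotient.mk_surjective
    let redC : R ⧸ Ideal.span {(2 : R)} →+* ZMod 2 := Ideal.Quotient.lift _ redR fun a ha => by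
      obtain ⟨c, rfl⟩ := Ideal.mem_span_singleton'.1 ha
      rw [map_mul, map_ofNat]; exact mul_eq_zero_of_right _ rfl
    have : Nontrivial (R ⧸ Ideal.span {(2 : R)}) := redC.domain_nontrivial
    have : IsLocalRing (R ⧸ Ideal.span {(2 : R)}) :=
      IsLocalRing.of_surjective' mk.toRingHom Ideal.Quotient.mk_surjective
    have : CharP (R ⧸ Ideal.span {(2 : R)}) 2 := CharTwo.of_one_ne_zero_of_two_eq_zero one_ne_zero
      (by rw [← map_ofNat (Ideal.Quotient.mk (Ideal.span {(2 : R)}))]
          exact Ideal.Quotient.eq_zero_iff_mem.2 (Ideal.mem_span_singleton_self _))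
    obtain ⟨g, hg⟩ := exists_hom_charTwo hθ hS (W := W) redC (hdef.map mk)
    refine ⟨g, fun l hl => (hg l hl).trans ?_⟩
    by_cases hs : D.IsSpecial S l
    · rw [eigenval, if_pos hs, eigenval, if_pos hs]; rfl
    · obtain ⟨A, hA, φ, hφ⟩ := GalCommon.exists_place_frobenius hl
      rw [eigenval, if_neg hs, eigenval, if_neg hs, (hdef.map mk).frobTrace_eq hl hs hA hφ,
        hdef.frobTrace_eq hl hs hA hφ, mapRep_apply, trace_map]
      rfl
  obtain ⟨g, hg⟩ := main (W.fibre S u₀ (conjRep P r₀)) (W.redFibre S u₀ (conjRep P r₀)) u' r' hr'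
  exact exists_hom_of_mod hr red 2 h2 hreg g fun l hl =>
    (hg l hl).trans (congrArg _ (eigenval_fibre hr hval hu' hr' hl))

end Tower

end FLTAgent.Mod2
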