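import Fermat.Agent.Mod2.Defs
import Fermat.Agent.Density.Main

/-!
# R = T at p = 2: matrices, continuity, traces and the cyclotomic character

Operations `mapRep`, `pairRep`, `conjRep` on representations into two by two matrices, which
preserve continuity (`IsCont.map`, `IsCont.pair`, `IsCont.conj`), and the density argument that
two continuous representations with the same determinant and the same traces at almost all
Frobenius elements have the same traces (`trace_eq_of_frobenius`).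
-/

set_option autoImplicit false

noncomputable section

namespace FLTAgent.Mod2

open Matrix

section Matrix

variable {B : Type} [CommRing B]

theorem Mat2.mul_self_eq (M : Mat2 B) : M * M = M.trace • M - M.det • 1 := by
  ext i j
  fin_cases i <;> fin_cases j <;>
    simp [Matrix.mul_apply, Fin.sum_univ_two, Matrix.det_fin_two, Matrix.trace_fin_two] <;> ring

theorem Mat2.trace_pow (M : Mat2 B) (k : ℕ) :
    (M ^ (k + 2)).trace = M.trace * (M ^ (k + 1)).trace - M.det * (M ^ k).trace := by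
  have : M ^ (k + 2) = M ^ k * (M * M) := by rw [pow_add, pow_two]
  rw [this, Mat2.mul_self_eq, mul_sub, Matrix.mul_smul, Matrix.mul_smul, ← pow_succ, mul_one,
    Matrix.trace_sub, Matrix.trace_smul, Matrix.trace_smul, smul_eq_mul, smul_eq_mul]

theorem Mat2.trace_pow_mem {R : Type} [SetLike R B] [SubringClass R B] (S : R) (M : Mat2 B)
    (ht : M.trace ∈ S) (hd : M.det ∈ S) (k : ℕ) : (M ^ k).trace ∈ S := by
  induction k using Nat.strong_induction_on with
  | _ k ih =>
    match k, ih with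
    | 0, _ =>
      rw [pow_zero, Matrix.trace_fin_two, Matrix.one_apply_eq, Matrix.one_apply_eq]
      exact add_mem (one_mem S) (one_mem S)
    | 1, _ => rwa [pow_one]
    | k + 2, ih =>
      rw [Mat2.trace_pow]
      exact sub_mem (mul_mem ht (ih _ (by omega))) (mul_mem hd (ih _ (by omega)))

/-- Map a representation along a ring homomorphism. -/
def mapRep {C : Type} [CommRing C] (f : B →+* C) (r : Gal2 →* Mat2 B) : Gal2 →* Mat2 C :=
  f.mapMatrix.toMonoidHom.comp r

@[simp] theorem mapRep_apply {C : Type} [CommRing C] (f : B →+* C) (r : Gal2 →* Mat2 B)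
    (σ : Gal2) : mapRep f r σ = (r σ).map f := rfl

theorem trace_map {C : Type} [CommRing C] (f : B →+* C) (M : Mat2 B) :
    (M.map f).trace = f M.trace := by
  simp [Matrix.trace_fin_two]

theorem det_map {C : Type} [CommRing C] (f : B →+* C) (M : Mat2 B) :
    (M.map f).det = f M.det := (f.map_det M).symm

/-- The pair of two representations. -/
def pairRep {C : Type} [CommRing C] (r : Gal2 →* Mat2 B) (s : Gal2 →* Mat2 C) :
    Gal2 →* Mat2 (B × C) where
  toFun σ := Matrix.of fun i j => (r σ i j, s σ i j)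
  map_one' := by
    ext i j <;> simp [Matrix.one_apply] <;> split <;> simp
  map_mul' σ τ := by
    ext i j <;> simp [Matrix.mul_apply]

@[simp] theorem mapRep_fst_pairRep {C : Type} [CommRing C] (r : Gal2 →* Mat2 B)
    (s : Gal2 →* Mat2 C) : mapRep (RingHom.fst B C) (pairRep r s) = r := by
  ext σ i j; rfl

@[simp] theorem mapRep_snd_pairRep {C : Type} [CommRing C] (r : Gal2 →* Mat2 B)
    (s : Gal2 →* Mat2 C) : mapRep (RingHom.snd B C) (pairRep r s) = s := by
  ext σ i j; rfl

/-- Conjugation of a representation by an invertible matrix. -/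
def conjRep (P : (Mat2 B)ˣ) (r : Gal2 →* Mat2 B) : Gal2 →* Mat2 B where
  toFun σ := (P⁻¹ : (Mat2 B)ˣ) * r σ * P
  map_one' := by simp
  map_mul' σ τ := by
    simp only [map_mul, mul_assoc, Units.mul_inv_cancel_left]

theorem conjRep_apply (P : (Mat2 B)ˣ) (r : Gal2 →* Mat2 B) (σ : Gal2) :
    conjRep P r σ = (P⁻¹ : (Mat2 B)ˣ) * r σ * P := rfl

theorem trace_conjRep (P : (Mat2 B)ˣ) (r : Gal2 →* Mat2 B) (σ : Gal2) :
    (conjRep P r σ).trace = (r σ).trace := Matrix.trace_units_conj' P (r σ)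

theorem det_conjRep (P : (Mat2 B)ˣ) (r : Gal2 →* Mat2 B) (σ : Gal2) :
    (conjRep P r σ).det = (r σ).det := Matrix.det_units_conj' P (r σ)

end Matrix

section Cont

variable {B : Type} [CommRing B]

theorem isCont_iff_mem {r : Gal2 →* Mat2 B} :
    IsCont r ↔ ∀ n : ℕ, ∃ L : IntermediateField ℚ (AlgebraicClosure ℚ), FiniteDimensional ℚ L ∧
      ∀ σ : Gal2, (∀ x ∈ L, σ x = x) →
        mapRep (Ideal.Quotient.mk (Ideal.span {(2 : B) ^ n})) r σ = 1 := by
  refine forall_congr' fun n => exists_congr fun L => and_congr_right fun _ =>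
    forall_congr' fun σ => imp_congr_right fun _ => ?_
  rw [mapRep_apply, ← Matrix.ext_iff]
  refine forall_congr' fun i => forall_congr' fun j => ?_
  rw [Matrix.map_apply, ← Ideal.mem_span_singleton, ← Ideal.Quotient.eq_zero_iff_mem,
    Matrix.sub_apply, map_sub, sub_eq_zero, Matrix.one_apply, Matrix.one_apply]
  split <;> simp

/-- The open subgroup on which `r` is trivial modulo `2 ^ n`. -/
def levelKer (r : Gal2 →* Mat2 B) (n : ℕ) : Subgroup Gal2 :=
  (mapRep (Ideal.Quotient.mk (Ideal.span {(2 : B) ^ n})) r).ker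

theorem isOpen_levelKer {r : Gal2 →* Mat2 B} (hr : IsCont r) (n : ℕ) :
    IsOpen (levelKer r n : Set Gal2) := by
  obtain ⟨L, hL, h⟩ := isCont_iff_mem.1 hr n
  refine Subgroup.isOpen_mono ?_ L.fixingSubgroup_isOpen
  intro σ hσ
  exact h σ fun x hx => (IntermediateField.mem_fixingSubgroup_iff L σ).1 hσ x hx

theorem mem_levelKer_iff {r : Gal2 →* Mat2 B} {n : ℕ} {σ : Gal2} :
    σ ∈ levelKer r n ↔ mapRep (Ideal.Quotient.mk (Ideal.span {(2 : B) ^ n})) r σ = 1 := Iff.rfl

theorem IsCont.map {C : Type} [CommRing C] (f : B →+* C) {r : Gal2 →* Mat2 B} (hr : IsCont r) :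
    IsCont (mapRep f r) := by
  intro n
  obtain ⟨L, hL, h⟩ := hr n
  refine ⟨L, hL, fun σ hσ i j => ?_⟩
  have := map_dvd f (h σ hσ i j)
  rw [map_pow, map_ofNat, Matrix.sub_apply, map_sub] at this
  rw [Matrix.sub_apply, mapRep_apply, Matrix.map_apply]
  convert this using 2
  rw [Matrix.one_apply, Matrix.one_apply]
  split <;> simp

theorem IsCont.conj (P : (Mat2 B)ˣ) {r : Gal2 →* Mat2 B} (hr : IsCont r) :
    IsCont (conjRep P r) := by
  refine isCont_iff_mem.2 fun n => ?_
  obtain ⟨L, hL, h⟩ := isCont_iff_mem.1 hr n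
  refine ⟨L, hL, fun σ hσ => ?_⟩
  set f := (Ideal.Quotient.mk (Ideal.span {(2 : B) ^ n})).mapMatrix (m := Fin 2)
  have h1 : f (r σ) = 1 := h σ hσ
  change f ((P⁻¹ : (Mat2 B)ˣ) * r σ * P) = 1
  rw [map_mul, map_mul, h1, mul_one, ← map_mul, Units.inv_mul, map_one]

theorem IsCont.pair {C : Type} [CommRing C] {r : Gal2 →* Mat2 B} {s : Gal2 →* Mat2 C}
    (hr : IsCont r) (hs : IsCont s) : IsCont (pairRep r s) := by
  intro n
  obtain ⟨L, hL, h⟩ := hr n
  obtain ⟨L', hL', h'⟩ := hs n
  refine ⟨L ⊔ L', inferInstance, fun σ hσ i j => ?_⟩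
  obtain ⟨a, ha⟩ := h σ (fun x hx => hσ x ((le_sup_left : L ≤ L ⊔ L') hx)) i j
  obtain ⟨b, hb⟩ := h' σ (fun x hx => hσ x ((le_sup_right : L' ≤ L ⊔ L') hx)) i j
  refine ⟨(a, b), ?_⟩
  rw [Matrix.sub_apply] at ha hb ⊢
  rw [Matrix.one_apply] at ha hb ⊢
  ext
  · by_cases hij : i = j <;> simp [pairRep, hij] at ha ⊢ <;> exact ha
  · by_cases hij : i = j <;> simp [pairRep, hij] at hb ⊢ <;> exact hb

variable [Algebra ℤ_[2] B] [Module.Finite ℤ_[2] B]

theorem Subalgebra.mem_of_forall_pow (R : Subalgebra ℤ_[2] B) {x : B}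
    (h : ∀ n : ℕ, ∃ y ∈ R, (2 : B) ^ n ∣ x - y) : x ∈ R := by
  let N : Submodule ℤ_[2] B := Subalgebra.toSubmodule R
  have key : N.mkQ x ∈ ⨅ n : ℕ, (Ideal.span {(2 : ℤ_[2])}) ^ n • (⊤ : Submodule ℤ_[2] (B ⧸ N)) := by
    rw [Submodule.mem_iInf]
    intro n
    obtain ⟨y, hy, c, hc⟩ := h n
    have e : N.mkQ x = (2 : ℤ_[2]) ^ n • N.mkQ c := by
      rw [← map_smul, Submodule.mkQ_apply, Submodule.mkQ_apply, Submodule.Quotient.eq]
      rw [Algebra.smul_def, map_pow, map_ofNat, ← hc, sub_sub_cancel]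
      exact hy
    rw [e, Ideal.span_singleton_pow]
    exact Submodule.smul_mem_smul (Ideal.mem_span_singleton_self _) Submodule.mem_top
  rw [Ideal.iInf_pow_smul_eq_bot_of_isLocalRing] at key
  · exact (Submodule.Quotient.mk_eq_zero N).1 ((Submodule.mem_bot _).1 key)
  · rw [Ne, Ideal.span_singleton_eq_top]
    exact fun h => PadicInt.prime_p.not_isUnit h

/-- Traces lie in a subalgebra as soon as the traces of almost all Frobenius elements do. -/
theorem trace_mem_of_frobenius {r : Gal2 →* Mat2 B} (hr : IsCont r) (R : Subalgebra ℤ_[2] B)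
    (hdet : ∀ σ, (r σ).det ∈ R) (T : Finset ℕ)
    (h : ∀ l : ℕ, l.Prime → l ∉ T → ∀ A : ValuationSubring (AlgebraicClosure ℚ),
      A.LiesOverPrime l → ∀ φ : Gal2, A.IsFrobeniusAt φ l → (r φ).trace ∈ R)
    (g : Gal2) : (r g).trace ∈ R := by
  refine Subalgebra.mem_of_forall_pow R fun n => ?_
  let f := Ideal.Quotient.mk (Ideal.span {(2 : B) ^ n})
  let R' : Subring (B ⧸ Ideal.span {(2 : B) ^ n}) := R.toSubring.map f
  suffices H : ∀ g, ((r g).map f).trace ∈ R' by
    obtain ⟨y, hy, hyx⟩ := H g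
    rw [trace_map] at hyx
    refine ⟨y, hy, ?_⟩
    rw [← Ideal.mem_span_singleton, ← Ideal.Quotient.eq]
    exact hyx.symm
  intro g
  refine Density.forall_of_forall_isFrobeniusAt (levelKer r n) (isOpen_levelKer hr n) T
    (P := fun g => ((r g).map f).trace ∈ R') (fun g u hu hg => ?_) (fun g k hg => ?_) ?_ g
  · have hu' : f.mapMatrix (r u) = 1 := hu
    have : (r (g * u)).map f = (r g).map f := by
      rw [map_mul, Matrix.map_mul, show (r u).map f = 1 from hu', mul_one]
    rwa [this]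
  · have : (r (g ^ k)).map f = ((r g).map f) ^ k := by
      rw [map_pow]; exact map_pow f.mapMatrix _ k
    rw [this]
    exact Mat2.trace_pow_mem R' _ hg (by rw [det_map]; exact ⟨_, hdet g, rfl⟩) k
  · intro l hl hlT A hA φ hφ
    exact ⟨_, h l hl hlT A hA φ hφ, (trace_map f (r φ)).symm⟩

/-- Two continuous representations with equal determinants and equal traces at almost all
Frobenius elements have equal traces. -/
theorem trace_eq_of_frobenius {r s : Gal2 →* Mat2 B} (hr : IsCont r) (hs : IsCont s)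
    (hdet : ∀ σ, (r σ).det = (s σ).det) (T : Finset ℕ)
    (h : ∀ l : ℕ, l.Prime → l ∉ T → ∀ A : ValuationSubring (AlgebraicClosure ℚ),
      A.LiesOverPrime l → ∀ φ : Gal2, A.IsFrobeniusAt φ l → (r φ).trace = (s φ).trace)
    (g : Gal2) : (r g).trace = (s g).trace := by
  let R : Subalgebra ℤ_[2] (B × B) := ((AlgHom.id ℤ_[2] B).prod (AlgHom.id ℤ_[2] B)).range
  have e : ∀ σ, (pairRep r s σ).trace = ((r σ).trace, (s σ).trace) := fun σ => by
    simp [pairRep, Matrix.trace_fin_two]
  have hmem : (pairRep r s g).trace ∈ R := by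
    refine trace_mem_of_frobenius (hr.pair hs) R (fun σ => ?_) T (fun l hl hlT A hA φ hφ => ?_) g
    · refine ⟨(r σ).det, ?_⟩
      have h2 : (pairRep r s σ).det = ((r σ).det, (s σ).det) := by
        simp [pairRep, Matrix.det_fin_two]
      rw [h2, ← hdet]; rfl
    · exact ⟨(r φ).trace, by rw [e, ← h l hl hlT A hA φ hφ]; rfl⟩
  obtain ⟨y, hy⟩ := hmem
  rw [e] at hy
  exact (congrArg Prod.fst hy).symm.trans (congrArg Prod.snd hy)

end Cont

theorem chi2_frobenius {l : ℕ} (hl : l.Prime) (hl2 : l ≠ 2)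
    {A : ValuationSubring (AlgebraicClosure ℚ)} (hA : A.LiesOverPrime l) {φ : Gal2}
    (hφ : A.IsFrobeniusAt φ l) : chi2 φ = l :=
  Reps.cyc_frobenius hl hl2 hA hφ

theorem chi2_inertia {l : ℕ} (hl : l.Prime) (hl2 : l ≠ 2)
    {A : ValuationSubring (AlgebraicClosure ℚ)} (hA : A.LiesOverPrime l) {σ : Gal2}
    (hσ : σ ∈ A.inertiaSubgroupIn ℚ) : chi2 σ = 1 :=
  Reps.cyc_inertia hl hl2 hA hσ

theorem chi2_ne_zero_mod_two (σ : Gal2) : PadicInt.toZMod (chi2 σ) = 1 := by
  have h : IsUnit (chi2 σ) := (Group.isUnit σ).map chi2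
  have h' := h.map (PadicInt.toZMod (p := 2))
  revert h'
  generalize (PadicInt.toZMod (chi2 σ) : ZMod 2) = z
  fin_cases z <;> simp

end FLTAgent.Mod2
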