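import Fermat.Agent.Mod2.RT.DihedralStep

/-!
# Deformations in characteristic 2 are dihedral when the Selmer group is trivial

By induction on the power of the maximal ideal, with one `DihedralStep` at a time
(`exists_dihedral_mod_pow`), some conjugate of such a deformation over a ring with nilpotent
maximal ideal is dihedral, trivial on inertia inside `G_K`, with the expected local shape
(`exists_dihedral`).
-/

set_option autoImplicit false

noncomputable section

namespace FLTAgent.Mod2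

open Matrix IsLocalRing
open scoped Pointwise

variable {D : Setup} {C : Type} [CommRing C] [IsLocalRing C] [CharP C 2] {S : Finset D.Aux}
  {u : ℕ → C} {r : Gal2 →* Mat2 C}

theorem residue_splitMat_unit {w : C} (hw : w ^ 2 + w + 1 = 0) {P : Mat2 C}
    (hP : ∀ i j, P i j - splitMat w i j ∈ maximalIdeal C) : IsUnit P := by
  rw [Matrix.isUnit_iff_isUnit_det]
  have hu : IsUnit (splitMat w).det := by
    rw [← Matrix.isUnit_iff_isUnit_det]
    exact ⟨⟨_, _, splitMat_mul hw, splitInv_mul hw⟩, rfl⟩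
  refine isUnit_of_map_unit (residue C) _ ?_
  have e : (residue C).mapMatrix P = (residue C).mapMatrix (splitMat w) := by
    ext i j
    exact sub_eq_zero.1 ((map_sub _ _ _).symm.trans ((residue_eq_zero_iff _).2 (hP i j)))
  rw [(residue C).map_det, e, ← (residue C).map_det]
  exact hu.map _

/-- Conjugations making `r` dihedral modulo powers of the maximal ideal. -/
theorem exists_dihedral_mod_pow (h : D.IsModTwo S u r) (hS : D.SelTrivial S) {w : C}
    (hw : w ^ 2 + w + 1 = 0) : ∀ n : ℕ, ∃ P : (Mat2 C)ˣ,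
      (∀ i j, (P : Mat2 C) i j - splitMat w i j ∈ maximalIdeal C) ∧
      ∀ σ i j, (conjRep P r σ - D.goodPart σ (conjRep P r σ)) i j ∈ maximalIdeal C ^ (n + 1) := by
  intro n
  induction n with
  | zero =>
    refine ⟨⟨_, _, splitMat_mul hw, splitInv_mul hw⟩, fun i j => by simp, fun σ i j => ?_⟩
    rw [pow_one, ← residue_eq_zero_iff]
    set f := residue C
    set r1 := conjRep (⟨_, _, splitMat_mul hw, splitInv_mul hw⟩ : (Mat2 C)ˣ) r
    have e : f.mapMatrix (r σ) = f.mapMatrix ((D.rho σ).map (castTwo C)) := by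
      ext a b
      exact sub_eq_zero.1 ((map_sub f _ _).symm.trans ((residue_eq_zero_iff _).2 (h.res σ a b)))
    have e1 : f.mapMatrix (r1 σ) = f.mapMatrix (D.hbar w σ) := by
      show f.mapMatrix (splitInv w * r σ * splitMat w) = _
      rw [Setup.hbar, map_mul, map_mul, map_mul, map_mul, e]
    have e2 : ∀ a b, f (r1 σ a b) = f (D.hbar w σ a b) := fun a b => congrFun (congrFun e1 a) b
    obtain ⟨p, q⟩ := D.hbar_shape hw σ
    by_cases hσ : D.InK σ
    · obtain ⟨k1, k2, -⟩ := p hσ
      fin_cases i <;> fin_cases j <;> simp [Setup.goodPart, hσ, e2, k1, k2]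
    · obtain ⟨k1, k2, -⟩ := q hσ
      fin_cases i <;> fin_cases j <;> simp [Setup.goodPart, hσ, e2, k1, k2]
  | succ n ih =>
    obtain ⟨P, hP, hbad⟩ := ih
    set J := maximalIdeal C ^ (n + 1 + 1)
    have hJ : J ≤ maximalIdeal C := Ideal.pow_le_self (Nat.succ_ne_zero _)
    have hne : J ≠ ⊤ := fun e => (maximalIdeal.isMaximal C).ne_top (eq_top_iff.2 (e ▸ hJ))
    have : Nontrivial (C ⧸ J) := Ideal.Quotient.nontrivial_iff.2 hne
    have : IsLocalRing (C ⧸ J) :=
      IsLocalRing.of_surjective' (Ideal.Quotient.mk J) Ideal.Quotient.mk_surjective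
    have : CharP (C ⧸ J) 2 := CharTwo.of_one_ne_zero_of_two_eq_zero one_ne_zero
      (by rw [← map_ofNat (Ideal.Quotient.mk J), CharTwo.two_eq_zero, map_zero])
    let f := Ideal.Quotient.mk J
    have : IsLocalHom f := IsLocalHom.of_surjective _ Ideal.Quotient.mk_surjective
    have hmax : ∀ {x : C}, x ∈ maximalIdeal C → f x ∈ maximalIdeal (C ⧸ J) := fun hx hu =>
      hx (isUnit_of_map_unit f _ hu)
    let P' : (Mat2 (C ⧸ J))ˣ := Units.map f.mapMatrix.toMonoidHom P
    have hw' : f w ^ 2 + f w + 1 = 0 := by rw [← map_pow, ← map_add, ← map_one f, ← map_add, hw, map_zero]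
    have hsplit : ∀ i j, f (splitMat w i j) = splitMat (f w) i j := fun i j => by
      fin_cases i <;> fin_cases j <;> simp [splitMat]
    have hr' : ∀ σ, conjRep P' (mapRep f r) σ = f.mapMatrix (conjRep P r σ) := fun σ => by
      rw [conjRep_apply, conjRep_apply, map_mul, map_mul]; rfl
    have hgood : ∀ σ, f.mapMatrix (D.goodPart σ (conjRep P r σ)) =
        D.goodPart σ (f.mapMatrix (conjRep P r σ)) := fun σ => by
      ext i j
      by_cases hσ : D.InK σ <;> fin_cases i <;> fin_cases j <;> simp [Setup.goodPart, hσ]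
    let I := (maximalIdeal C ^ (n + 1)).map f
    have hkill : ∀ x ∈ I, ∀ y ∈ maximalIdeal (C ⧸ J), x * y = 0 := by
      intro x hx y hy
      obtain ⟨a, ha, rfl⟩ := (Ideal.mem_map_iff_of_surjective f Ideal.Quotient.mk_surjective).1 hx
      obtain ⟨b, rfl⟩ := Ideal.Quotient.mk_surjective (I := J) y
      have hb : b ∈ maximalIdeal C := fun hu => hy (hu.map f)
      rw [← map_mul, Ideal.Quotient.eq_zero_iff_mem]
      show a * b ∈ maximalIdeal C ^ (n + 1 + 1)
      rw [pow_succ]; exact Ideal.mul_mem_mul ha hb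
    have hIm : I ≤ maximalIdeal (C ⧸ J) := Ideal.map_le_iff_le_comap.2 fun x hx =>
      hmax (Ideal.pow_le_self (Nat.succ_ne_zero _) hx)
    obtain ⟨M, hM, hMd⟩ := exists_dihedral_step (h.quot J) hS hw' I hIm hkill P'
      (fun i j => by
        have := hmax (hP i j)
        rwa [map_sub, hsplit] at this)
      (fun σ i j => by
        rw [hr', ← hgood, ← map_sub]
        exact Ideal.mem_map_of_mem f (hbad σ i j))
    choose M₀ hM₀I hM₀ using fun i j =>
      (Ideal.mem_map_iff_of_surjective f Ideal.Quotient.mk_surjective).1 (hM i j)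
    have hP1 : ∀ i j, ((P : Mat2 C) * (1 + Matrix.of M₀)) i j - splitMat w i j ∈ maximalIdeal C := by
      intro i j
      rw [mul_add, mul_one, Matrix.add_apply, add_sub_right_comm]
      refine add_mem (hP i j) ?_
      rw [Matrix.mul_apply, Fin.sum_univ_two]
      exact add_mem
        (Ideal.mul_mem_left _ _ (Ideal.pow_le_self (Nat.succ_ne_zero _) (hM₀I 0 j)))
        (Ideal.mul_mem_left _ _ (Ideal.pow_le_self (Nat.succ_ne_zero _) (hM₀I 1 j)))
    obtain ⟨Q, hQ⟩ := residue_splitMat_unit hw hP1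
    refine ⟨Q, fun i j => hQ ▸ hP1 i j, fun σ i j => ?_⟩
    have hMM : (1 + M) * (1 + M) = 1 := by
      have h0 : M * M = 0 := mat_mul_entry_eq_zero fun a b c d =>
        hkill _ (hM a b) _ (hIm (hM c d))
      rw [add_mul, one_mul, mul_add, mul_one, h0, add_zero, add_assoc]
      have : M + M = 0 := by ext a b; exact CharTwo.add_self_eq_zero _
      rw [this, add_zero]
    have hQf : f.mapMatrix (Q : Mat2 C) = (P' : Mat2 (C ⧸ J)) * (1 + M) := by
      rw [hQ, map_mul, map_add, map_one]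
      congr 2
      ext a b
      exact hM₀ a b
    have hQi : f.mapMatrix ((Q⁻¹ : (Mat2 C)ˣ) : Mat2 C) =
        (1 + M) * ((P'⁻¹ : (Mat2 (C ⧸ J))ˣ) : Mat2 (C ⧸ J)) := by
      have e := congrArg f.mapMatrix Q.inv_mul
      rw [map_mul, map_one, hQf] at e
      calc f.mapMatrix ((Q⁻¹ : (Mat2 C)ˣ) : Mat2 C)
          = f.mapMatrix ((Q⁻¹ : (Mat2 C)ˣ) : Mat2 C) * ((P' : Mat2 (C ⧸ J)) *
              ((1 + M) * (1 + M)) * ((P'⁻¹ : (Mat2 (C ⧸ J))ˣ) : Mat2 (C ⧸ J))) := by
            rw [hMM, mul_one, Units.mul_inv, mul_one]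
        _ = (1 + M) * ((P'⁻¹ : (Mat2 (C ⧸ J))ˣ) : Mat2 (C ⧸ J)) := by
            rw [← mul_assoc (P' : Mat2 (C ⧸ J)), ← mul_assoc (f.mapMatrix _), ← mul_assoc (f.mapMatrix _),
              e, one_mul]
    have key : f.mapMatrix (conjRep Q r σ) = (1 + M) * conjRep P' (mapRep f r) σ * (1 + M) := by
      rw [conjRep_apply, map_mul, map_mul, hQi, hQf, conjRep_apply]
      simp only [mul_assoc]
      rfl
    have hz : D.GoodShape σ (f.mapMatrix (conjRep Q r σ)) := key ▸ hMd σ
    rw [← Ideal.Quotient.eq_zero_iff_mem]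
    obtain ⟨p, q⟩ := hz
    by_cases hσ : D.InK σ
    · obtain ⟨g1, g2⟩ := p hσ
      simp only [RingHom.mapMatrix_apply, Matrix.map_apply] at g1 g2
      fin_cases i <;> fin_cases j <;> simp [Setup.goodPart, hσ] <;> assumption
    · obtain ⟨g1, g2⟩ := q hσ
      simp only [RingHom.mapMatrix_apply, Matrix.map_apply] at g1 g2
      fin_cases i <;> fin_cases j <;> simp [Setup.goodPart, hσ] <;> assumption

/-- The dihedral form of a deformation in characteristic `2`. -/
theorem exists_dihedral (h : D.IsModTwo S u r) (hS : D.SelTrivial S) {w : C}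
    (hw : w ^ 2 + w + 1 = 0) (hnil : IsNilpotent (maximalIdeal C)) :
    ∃ P : (Mat2 C)ˣ, (∀ σ, D.GoodShape σ (conjRep P r σ)) ∧
      (∀ q : ℕ, q.Prime → ∀ A : ValuationSubring (AlgebraicClosure ℚ), A.LiesOverPrime q →
        ∀ σ ∈ A.inertiaSubgroupIn ℚ, D.InK σ → conjRep P r σ = 1) ∧
      (∀ v : ℕ, D.IsSpecial S v → ∀ A : ValuationSubring (AlgebraicClosure ℚ), A.LiesOverPrime v →
        ∀ φ : Gal2, A.IsFrobeniusAt φ v → D.InK φ →
          conjRep P r φ 0 0 = u v ∧ conjRep P r φ 1 1 = u v) ∧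
      ∃ σ, D.InK σ ∧ IsUnit (conjRep P r σ 0 0 - conjRep P r σ 1 1) := by
  obtain ⟨n, hn⟩ := hnil
  obtain ⟨P, hP, hbad⟩ := exists_dihedral_mod_pow h hS hw n
  have hgood : ∀ σ, D.GoodShape σ (conjRep P r σ) := fun σ => by
    have e : conjRep P r σ = D.goodPart σ (conjRep P r σ) := by
      refine sub_eq_zero.1 ?_
      ext i j
      have := hbad σ i j
      rwa [pow_succ, hn, zero_mul] at this
    rw [e]; exact Setup.goodShape_goodPart σ _
  set f := residue C
  have hf0 : ∀ {x : C}, x ∈ maximalIdeal C → f x = 0 := fun hx => (residue_eq_zero_iff _).2 hx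
  have hfP : f.mapMatrix (P : Mat2 C) = f.mapMatrix (splitMat w) := by
    ext i j; exact sub_eq_zero.1 ((map_sub f _ _).symm.trans (hf0 (hP i j)))
  have hfPi : f.mapMatrix ((P⁻¹ : (Mat2 C)ˣ) : Mat2 C) = f.mapMatrix (splitInv w) := by
    have e1 := congrArg f.mapMatrix P.inv_mul
    have e2 := congrArg f.mapMatrix (splitMat_mul hw)
    rw [map_mul, map_one, hfP] at e1
    rw [map_mul, map_one] at e2
    calc f.mapMatrix ((P⁻¹ : (Mat2 C)ˣ) : Mat2 C)
        = f.mapMatrix ((P⁻¹ : (Mat2 C)ˣ) : Mat2 C) *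
            (f.mapMatrix (splitMat w) * f.mapMatrix (splitInv w)) := by rw [e2, mul_one]
      _ = f.mapMatrix (splitInv w) := by rw [← mul_assoc, e1, one_mul]
  -- on the decomposition group at a standard place
  have hstd : ∀ v, D.IsSpecial S v → ∀ A, D.IsStdPlace v A →
      (∀ σ ∈ A.inertiaSubgroupIn ℚ, D.InK σ → r σ = 1) ∧
      ∀ φ : Gal2, A.IsFrobeniusAt φ v → D.InK φ → r φ = u v • 1 := by
    intro v hv A hA
    obtain ⟨Z, hZ, -, -, hI, hF, -⟩ := h.exists_local hv hA
    set Z1 : Mat2 C := ((P⁻¹ : (Mat2 C)ˣ) : Mat2 C) * Z * P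
    have hZ01 : IsUnit (Z1 0 1) := by
      refine isUnit_of_map_unit f _ ?_
      have e : f.mapMatrix Z = f.mapMatrix (!![0, 1; 0, 0] : Mat2 C) := by
        ext a b
        have := hf0 (hZ a b)
        rw [map_sub, sub_eq_zero] at this
        fin_cases a <;> fin_cases b <;> simpa using this
      have e' : f.mapMatrix Z1 = f.mapMatrix (splitInv w * (!![0, 1; 0, 0] : Mat2 C) * splitMat w) := by
        simp only [Z1, map_mul, hfP, hfPi, e]
      rw [show f (Z1 0 1) = f ((splitInv w * (!![0, 1; 0, 0] : Mat2 C) * splitMat w) 0 1) from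
        congrFun (congrFun e' 0) 1]
      have : (splitInv w * (!![0, 1; 0, 0] : Mat2 C) * splitMat w) 0 1 = 1 := by
        have two : (2 : C) = 0 := CharTwo.two_eq_zero
        simp [splitInv, splitMat, Matrix.mul_apply, Fin.sum_univ_two]
        grind
      rw [this, map_one]; exact isUnit_one
    have key : ∀ (σ : Gal2) (α β : C), D.InK σ → r σ = α • 1 + β • Z → r σ = α • 1 := by
      intro σ α β hσ e
      have e1 : conjRep P r σ = α • 1 + β • Z1 := by
        rw [conjRep_apply, e, mul_add, add_mul, Matrix.mul_smul, Matrix.smul_mul, mul_one,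
          Units.inv_mul, Matrix.mul_smul, Matrix.smul_mul]
      have h0 := ((hgood σ).1 hσ).1
      rw [e1] at h0
      simp at h0
      rw [e, (hZ01.mul_left_eq_zero).1 h0, zero_smul, add_zero]
    refine ⟨fun σ hσ hK => ?_, fun φ hφ hK => ?_⟩
    · obtain ⟨β, e⟩ := hI σ hσ
      rw [key σ 1 β hK (by rw [e, one_smul]), one_smul]
    · obtain ⟨β, e⟩ := hF φ hφ
      exact key φ (u v) β hK e
  refine ⟨P, hgood, fun q hq A hA σ hσ hK => ?_, fun v hv A hA φ hφ hK => ?_, D.frameG, ?_, ?_⟩
  · suffices r σ = 1 by rw [conjRep_apply, this, mul_one, Units.inv_mul]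
    by_cases hqS : D.IsSpecial S q
    · obtain ⟨A₀, hA₀⟩ := Setup.exists_isStdPlace hqS
      obtain ⟨g, hg⟩ := GalCommon.exists_smul_eq_of_liesOverPrime hq hA hA₀.1
      have h1 := (hstd q hqS A₀ hA₀).1 _ (hg ▸ GalCommon.mem_inertia_conj hσ g)
        ((D.inK_conj g σ).2 hK)
      rw [show σ = g⁻¹ * (g * σ * g⁻¹) * g by group, map_mul, map_mul, h1, mul_one, ← map_mul,
        inv_mul_cancel, map_one]
    · exact h.unram q hq hqS A hA σ hσ
  · obtain ⟨A₀, hA₀⟩ := Setup.exists_isStdPlace hv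
    obtain ⟨g, hg⟩ := GalCommon.exists_smul_eq_of_liesOverPrime hv.1 hA hA₀.1
    have h1 := (hstd v hv A₀ hA₀).2 _ (hg ▸ GalCommon.isFrobeniusAt_conj hφ g)
      ((D.inK_conj g φ).2 hK)
    have e : r φ = u v • 1 := by
      rw [show φ = g⁻¹ * (g * φ * g⁻¹) * g by group, map_mul, map_mul, h1, Matrix.mul_smul, mul_one,
        Matrix.smul_mul, ← map_mul, inv_mul_cancel, map_one]
    rw [conjRep_apply, e, Matrix.mul_smul, Matrix.smul_mul, mul_one, Units.inv_mul]
    simp
  · unfold Setup.InK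
    rw [D.rho_frameG]; decide +kernel
  · refine isUnit_of_map_unit f _ ?_
    have e : f.mapMatrix (r D.frameG) = f.mapMatrix ((D.rho D.frameG).map (castTwo C)) := by
      ext a b; exact sub_eq_zero.1 ((map_sub f _ _).symm.trans (hf0 (h.res _ a b)))
    have e1 : f.mapMatrix (conjRep P r D.frameG) = f.mapMatrix (D.hbar w D.frameG) := by
      rw [conjRep_apply, Setup.hbar, map_mul, map_mul, map_mul, map_mul, hfP, hfPi, e]
    rw [map_sub, show f (conjRep P r D.frameG 0 0) = f (D.hbar w D.frameG 0 0) from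
      congrFun (congrFun e1 0) 0, show f (conjRep P r D.frameG 1 1) = f (D.hbar w D.frameG 1 1) from
      congrFun (congrFun e1 1) 1, ← map_sub]
    have : D.hbar w D.frameG 0 0 - D.hbar w D.frameG 1 1 = 1 := by
      have two : (2 : C) = 0 := CharTwo.two_eq_zero
      simp [Setup.hbar, D.rho_frameG, splitInv, splitMat, Matrix.mul_apply, Fin.sum_univ_two,
        castTwo, Matrix.vecMul, dotProduct, Matrix.map_apply]
      grind
    rw [this, map_one]; exact isUnit_one

end FLTAgent.Mod2
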