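import Fermat.Agent.Mod2.RT.Splitting

/-!
# One step of the dihedral induction

Over a local ring of characteristic `2` with an ideal `I` killed by the maximal ideal, a
representation dihedral modulo `I` becomes dihedral after conjugation by `1 + M`, `M ∈ I`,
if the Selmer group is trivial.

Main declarations: `exists_dihedral_step`.
-/

set_option autoImplicit false

noncomputable section

namespace FLTAgent.Mod2

open Matrix IsLocalRing
open scoped Pointwise

namespace Setup

variable {D : Setup} {C : Type} [CommRing C]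

/-- The shape of a dihedral value at `σ`. -/
def GoodShape (D : Setup) (σ : Gal2) (M : Mat2 C) : Prop :=
  (D.InK σ → M 0 1 = 0 ∧ M 1 0 = 0) ∧ (¬ D.InK σ → M 0 0 = 0 ∧ M 1 1 = 0)

/-- The complementary shape. -/
def BadShape (D : Setup) (σ : Gal2) (M : Mat2 C) : Prop :=
  (D.InK σ → M 0 0 = 0 ∧ M 1 1 = 0) ∧ (¬ D.InK σ → M 0 1 = 0 ∧ M 1 0 = 0)

open Classical in
/-- The dihedral part. -/
def goodPart (D : Setup) (σ : Gal2) (M : Mat2 C) : Mat2 C :=
  if D.InK σ then !![M 0 0, 0; 0, M 1 1] else !![0, M 0 1; M 1 0, 0]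

theorem goodShape_goodPart (σ : Gal2) (M : Mat2 C) : D.GoodShape σ (D.goodPart σ M) := by
  constructor <;> intro h <;> simp [goodPart, h]

theorem badShape_sub_goodPart (σ : Gal2) (M : Mat2 C) : D.BadShape σ (M - D.goodPart σ M) := by
  constructor <;> intro h <;> simp [goodPart, h]

theorem GoodShape.mul {σ τ : Gal2} {M N : Mat2 C} (hM : D.GoodShape σ M) (hN : D.GoodShape τ N) :
    D.GoodShape (σ * τ) (M * N) := by
  obtain ⟨a, b⟩ := hM; obtain ⟨c, d⟩ := hN
  constructor <;> intro h <;> rw [inK_mul] at h <;> by_cases hσ : D.InK σ <;>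
    by_cases hτ : D.InK τ <;> simp_all [Matrix.mul_apply, Fin.sum_univ_two]

theorem BadShape.mul_good {σ τ : Gal2} {M N : Mat2 C} (hM : D.BadShape σ M)
    (hN : D.GoodShape τ N) : D.BadShape (σ * τ) (M * N) := by
  obtain ⟨a, b⟩ := hM; obtain ⟨c, d⟩ := hN
  constructor <;> intro h <;> rw [inK_mul] at h <;> by_cases hσ : D.InK σ <;>
    by_cases hτ : D.InK τ <;> simp_all [Matrix.mul_apply, Fin.sum_univ_two]

theorem GoodShape.mul_bad {σ τ : Gal2} {M N : Mat2 C} (hM : D.GoodShape σ M)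
    (hN : D.BadShape τ N) : D.BadShape (σ * τ) (M * N) := by
  obtain ⟨a, b⟩ := hM; obtain ⟨c, d⟩ := hN
  constructor <;> intro h <;> rw [inK_mul] at h <;> by_cases hσ : D.InK σ <;>
    by_cases hτ : D.InK τ <;> simp_all [Matrix.mul_apply, Fin.sum_univ_two]

theorem BadShape.add {σ : Gal2} {M N : Mat2 C} (hM : D.BadShape σ M) (hN : D.BadShape σ N) :
    D.BadShape σ (M + N) := by
  constructor <;> intro h
  · exact ⟨by simp [(hM.1 h).1, (hN.1 h).1], by simp [(hM.1 h).2, (hN.1 h).2]⟩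
  · exact ⟨by simp [(hM.2 h).1, (hN.2 h).1], by simp [(hM.2 h).2, (hN.2 h).2]⟩

theorem goodPart_add {σ : Gal2} {G B : Mat2 C} (hG : D.GoodShape σ G) (hB : D.BadShape σ B) :
    D.goodPart σ (G + B) = G := by
  obtain ⟨a, b⟩ := hG; obtain ⟨c, d⟩ := hB
  by_cases h : D.InK σ <;> ext i j <;> fin_cases i <;> fin_cases j <;> simp_all [goodPart]

end Setup

section Mul

variable {C : Type} [CommRing C]

theorem mat_mul_entry_eq_zero {a b : Mat2 C}
    (h : ∀ i j k l, a i j * b k l = 0) : a * b = 0 := by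
  ext i j; simp [Matrix.mul_apply, h]

end Mul

variable {D : Setup} {C : Type} [CommRing C] [IsLocalRing C] [CharP C 2] {S : Finset D.Aux}
  {u : ℕ → C} {r : Gal2 →* Mat2 C}

/-- One step. -/
theorem exists_dihedral_step (h : D.IsModTwo S u r) (hS : D.SelTrivial S) {w : C}
    (hw : w ^ 2 + w + 1 = 0) (I : Ideal C) (hIm : I ≤ maximalIdeal C)
    (hkill : ∀ x ∈ I, ∀ y ∈ maximalIdeal C, x * y = 0) (P : (Mat2 C)ˣ)
    (hP : ∀ i j, (P : Mat2 C) i j - splitMat w i j ∈ maximalIdeal C)
    (hdih : ∀ σ i j, (conjRep P r σ - D.goodPart σ (conjRep P r σ)) i j ∈ I) :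
    ∃ M : Mat2 C, (∀ i j, M i j ∈ I) ∧
      ∀ σ, D.GoodShape σ ((1 + M) * conjRep P r σ * (1 + M)) := by
  classical
  have two : (2 : C) = 0 := CharTwo.two_eq_zero
  set r1 := conjRep P r with hr1
  set G := fun σ => D.goodPart σ (r1 σ) with hG
  set E := fun σ => r1 σ - G σ with hE
  have hGs : ∀ σ, D.GoodShape σ (G σ) := fun σ => Setup.goodShape_goodPart σ _
  have hEs : ∀ σ, D.BadShape σ (E σ) := fun σ => Setup.badShape_sub_goodPart σ _
  have hEI : ∀ σ i j, E σ i j ∈ I := hdih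
  have hsum : ∀ σ, r1 σ = G σ + E σ := fun σ => (add_sub_cancel _ _).symm
  have hII : ∀ {a b : C}, a ∈ I → b ∈ I → a * b = 0 := fun ha hb => hkill _ ha _ (hIm hb)
  -- congruences
  let f := residue C
  have hf0 : ∀ {x : C}, x ∈ maximalIdeal C → f x = 0 := fun hx => (residue_eq_zero_iff _).2 hx
  have hf1 : ∀ {x : C}, f x = 0 → x ∈ maximalIdeal C := fun hx => (residue_eq_zero_iff _).1 hx
  have hrepl : ∀ {x a b : C}, x ∈ I → f a = f b → x * a = x * b := fun {x a b} hx hab => by
    rw [← sub_eq_zero, ← mul_sub]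
    exact hkill x hx _ (hf1 (by rw [map_sub, hab, sub_self]))
  have hfP : f.mapMatrix (P : Mat2 C) = f.mapMatrix (splitMat w) := by
    ext i j; exact sub_eq_zero.1 ((map_sub f _ _).symm.trans (hf0 (hP i j)))
  have hfPi : f.mapMatrix ((P⁻¹ : (Mat2 C)ˣ) : Mat2 C) = f.mapMatrix (splitInv w) := by
    have e1 := congrArg f.mapMatrix P.inv_mul
    have e2 := congrArg f.mapMatrix (splitMat_mul hw)
    rw [map_mul, map_one, hfP] at e1
    rw [map_mul, map_one] at e2
    calc f.mapMatrix ((P⁻¹ : (Mat2 C)ˣ) : Mat2 C)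
        = f.mapMatrix ((P⁻¹ : (Mat2 C)ˣ) : Mat2 C) *
            (f.mapMatrix (splitMat w) * f.mapMatrix (splitInv w)) := by rw [e2, mul_one]
      _ = f.mapMatrix (splitInv w) := by rw [← mul_assoc, e1, one_mul]
  have hfr : ∀ σ i j, f (r1 σ i j) = f (D.hbar w σ i j) := by
    intro σ i j
    have e : f.mapMatrix (r σ) = f.mapMatrix ((D.rho σ).map (castTwo C)) := by
      ext a b; exact sub_eq_zero.1 ((map_sub f _ _).symm.trans (hf0 (h.res σ a b)))
    have : f.mapMatrix (r1 σ) = f.mapMatrix (D.hbar w σ) := by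
      rw [hr1, conjRep_apply, Setup.hbar, map_mul, map_mul, map_mul, map_mul, hfP, hfPi, e]
    exact congrFun (congrFun this i) j
  have hfG : ∀ σ i j, f (G σ i j) = f (D.hbar w σ i j) := fun σ i j => by
    rw [← hfr σ i j, hsum σ, Matrix.add_apply, map_add, hf0 (hIm (hEI σ i j)), add_zero]
  have hdet : ∀ σ, f (G σ).det = 1 := by
    intro σ
    have e1 : f.mapMatrix (G σ) = f.mapMatrix (r1 σ) := by
      ext i j; exact (hfG σ i j).trans (hfr σ i j).symm
    rw [f.map_det, e1, ← f.map_det, hr1, det_conjRep, h.det, map_one]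
  have hr1mul : ∀ σ τ, G (σ * τ) = G σ * G τ ∧ E (σ * τ) = E σ * G τ + G σ * E τ := by
    intro σ τ
    have e : r1 (σ * τ) = G σ * G τ + (E σ * G τ + G σ * E τ) := by
      have hz : E σ * E τ = 0 := mat_mul_entry_eq_zero fun i j k l => hII (hEI σ i j) (hEI τ k l)
      rw [map_mul, hsum σ, hsum τ, mul_add, add_mul, add_mul, hz]
      abel
    have eG : G (σ * τ) = G σ * G τ := by
      show D.goodPart (σ * τ) (r1 (σ * τ)) = _
      rw [e]
      exact Setup.goodPart_add ((hGs σ).mul (hGs τ))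
        (((hEs σ).mul_good (hGs τ)).add ((hGs σ).mul_bad (hEs τ)))
    refine ⟨eG, ?_⟩
    show r1 (σ * τ) - G (σ * τ) = _
    rw [eG, e]; abel
  -- the cocycle
  set c := fun σ => E σ * (G σ).adjugate with hc
  have hcI : ∀ σ i j, c σ i j ∈ I := fun σ i j => by
    simp only [c, Matrix.mul_apply, Fin.sum_univ_two]
    exact add_mem (I.mul_mem_right _ (hEI σ i 0)) (I.mul_mem_right _ (hEI σ i 1))
  have hcoff : ∀ σ, c σ 0 0 = 0 ∧ c σ 1 1 = 0 := by
    intro σ
    obtain ⟨a, b⟩ := hEs σ; obtain ⟨a', b'⟩ := hGs σ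
    by_cases hσ : D.InK σ <;>
      simp_all [c, Matrix.mul_apply, Fin.sum_univ_two, Matrix.adjugate_fin_two]
  have hEdet : ∀ σ τ, E σ * ((G τ).det • (1 : Mat2 C)) = E σ := fun σ τ => by
    rw [Matrix.mul_smul, mul_one]
    ext i j
    rw [Matrix.smul_apply, smul_eq_mul, mul_comm, hrepl (hEI σ i j) ((hdet τ).trans (map_one f).symm),
      mul_one]
  have hcmul : ∀ σ τ, c (σ * τ) = c σ + G σ * c τ * (G σ).adjugate := by
    intro σ τ
    obtain ⟨eG, eE⟩ := hr1mul σ τ
    simp only [c]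
    rw [eG, eE, Matrix.adjugate_mul_distrib, add_mul]
    congr 1
    · rw [mul_assoc (E σ), ← mul_assoc (G τ), Matrix.mul_adjugate, ← mul_assoc, hEdet]
    · simp only [mul_assoc]
  set y := fun σ => (splitMat w).mulVec ![c σ 1 0, c σ 0 1] with hy
  have hyI : ∀ σ i, y σ i ∈ I := fun σ i => by
    simp only [y, Matrix.mulVec, dotProduct, Fin.sum_univ_two]
    exact add_mem (I.mul_mem_left _ (by simpa using hcI σ 1 0))
      (I.mul_mem_left _ (by simpa using hcI σ 0 1))
  have hadj : ∀ (σ : Gal2) (N : Mat2 C), (∀ i j, N i j ∈ I) → N 0 0 = 0 → N 1 1 = 0 →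
      ![(G σ * N * (G σ).adjugate) 1 0, (G σ * N * (G σ).adjugate) 0 1] =
        (D.hbar w σ).mulVec ![N 1 0, N 0 1] := by
    intro σ N hN hN0 hN1
    have e00 := hfG σ 0 0
    have e01 := hfG σ 0 1
    have e10 := hfG σ 1 0
    have e11 := hfG σ 1 1
    obtain ⟨a, b⟩ := hGs σ
    obtain ⟨a', b'⟩ := D.hbar_shape hw σ
    by_cases hσ : D.InK σ
    · obtain ⟨g1, g2⟩ := a hσ
      obtain ⟨k1, k2, k3, k4, k5⟩ := a' hσ
      have x1 : N 1 0 * (G σ 1 1 * G σ 1 1) = N 1 0 * D.hbar w σ 0 0 :=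
        hrepl (hN 1 0) (by rw [map_mul, e11, ← map_mul, ← sq, k5])
      have x2 : N 0 1 * (G σ 0 0 * G σ 0 0) = N 0 1 * D.hbar w σ 1 1 :=
        hrepl (hN 0 1) (by rw [map_mul, e00, ← map_mul, ← sq, k4])
      ext i; fin_cases i
      · simp [Matrix.mulVec, dotProduct, Matrix.mul_apply, Fin.sum_univ_two,
          Matrix.adjugate_fin_two, g1, g2, hN0, hN1, k1]
        linear_combination x1
      · simp [Matrix.mulVec, dotProduct, Matrix.mul_apply, Fin.sum_univ_two,
          Matrix.adjugate_fin_two, g1, g2, hN0, hN1, k2]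
        linear_combination x2
    · obtain ⟨g1, g2⟩ := b hσ
      obtain ⟨k1, k2, k3, k4, k5⟩ := b' hσ
      have x1 : N 0 1 * (G σ 1 0 * G σ 1 0) = N 0 1 * D.hbar w σ 0 1 :=
        hrepl (hN 0 1) (by rw [map_mul, e10, ← map_mul, ← sq, k5])
      have x2 : N 1 0 * (G σ 0 1 * G σ 0 1) = N 1 0 * D.hbar w σ 1 0 :=
        hrepl (hN 1 0) (by rw [map_mul, e01, ← map_mul, ← sq, k4])
      ext i; fin_cases i
      · simp [Matrix.mulVec, dotProduct, Matrix.mul_apply, Fin.sum_univ_two,
          Matrix.adjugate_fin_two, g1, g2, hN0, hN1, k1]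
        linear_combination x1 - N 0 1 * G σ 1 0 * G σ 1 0 * two
      · simp [Matrix.mulVec, dotProduct, Matrix.mul_apply, Fin.sum_univ_two,
          Matrix.adjugate_fin_two, g1, g2, hN0, hN1, k2]
        linear_combination x2 - N 1 0 * G σ 0 1 * G σ 0 1 * two
  have hymul : ∀ σ τ, y (σ * τ) = y σ + ((D.rho σ).map (castTwo C)).mulVec (y τ) := by
    intro σ τ
    simp only [y]
    rw [Matrix.mulVec_mulVec, ← D.splitMat_mul_hbar hw σ, ← Matrix.mulVec_mulVec, ← Matrix.mulVec_add]
    congr 1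
    rw [← hadj σ (c τ) (hcI τ) (hcoff τ).1 (hcoff τ).2, hcmul]
    ext i; fin_cases i <;> simp
  obtain ⟨L, hL, hLt⟩ := h.cont
  have hconst : ∀ σ, (∀ x ∈ L, σ x = x) → y σ = 0 := by
    intro σ hσ
    have e1 : r1 σ = 1 := by rw [hr1, conjRep_apply, hLt σ hσ, mul_one, Units.inv_mul]
    have hK : D.InK σ := by
      have : D.rho σ = 1 := by
        ext i j
        have := h.res σ i j
        rw [hLt σ hσ] at this
        have h1 : ∀ z : ZMod 2, z = 0 ∨ z = 1 := by decide
        by_cases hij : i = j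
        · subst hij
          rcases h1 (D.rho σ i i) with e | e
          · exact absurd this (by simp [e])
          · simp [e]
        · rcases h1 (D.rho σ i j) with e | e
          · simp [e, hij]
          · exact absurd this (by simp [e, Matrix.one_apply_ne hij])
      unfold Setup.InK; rw [this, one_pow]
    have : E σ = 0 := by
      show r1 σ - D.goodPart σ (r1 σ) = 0
      rw [e1]
      ext i j; fin_cases i <;> fin_cases j <;> simp [Setup.goodPart, hK]
    simp only [y, c, this, zero_mul]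
    ext i; fin_cases i <;> simp [Matrix.mulVec, dotProduct]
  have hur : ∀ q : ℕ, q.Prime → ¬ D.IsSpecial S q → ∀ A : ValuationSubring (AlgebraicClosure ℚ),
      A.LiesOverPrime q → ∀ σ ∈ A.inertiaSubgroupIn ℚ, y σ = 0 := by
    intro q hq hqS A hA σ hσ
    have e1 : r1 σ = 1 := by rw [hr1, conjRep_apply, h.unram q hq hqS A hA σ hσ, mul_one, Units.inv_mul]
    have hK : D.InK σ := by
      have : ¬ q ∣ 2 * D.m := fun hd => hqS ⟨hq, .inl hd⟩
      unfold Setup.InK; rw [D.unram q hq this A hA σ hσ, one_pow]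
    have : E σ = 0 := by
      show r1 σ - D.goodPart σ (r1 σ) = 0
      rw [e1]
      ext i j; fin_cases i <;> fin_cases j <;> simp [Setup.goodPart, hK]
    simp only [y, c, this, zero_mul]
    ext i; fin_cases i <;> simp [Matrix.mulVec, dotProduct]
  -- local shape at the standard places
  have hloc : ∀ v, D.IsSpecial S v → ∀ A, D.IsStdPlace v A → ∀ g ∈ A.decompositionSubgroup ℚ,
      y g 1 = 0 ∧ D.rho g 1 0 = 0 ∧ D.rho g 0 0 = 1 := by
    intro v hv A hA g hg
    obtain ⟨Z, hZ, hZtr, hZsq, -, -, hZd⟩ := h.exists_local hv hA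
    obtain ⟨α, β, hab⟩ := hZd g hg
    have hrho : D.rho g 1 0 = 0 ∧ D.rho g 0 0 = 1 := by
      have h10 : D.rho g 1 0 = 0 := by
        have a1 := hf0 (h.res g 1 0)
        have a2 := hf0 (hZ 1 0)
        rw [hab] at a1
        simp only [Matrix.add_apply, Matrix.smul_apply, Matrix.one_apply_ne (by decide : (1 : Fin 2) ≠ 0),
          smul_eq_mul, mul_zero, zero_add, map_sub, map_mul] at a1
        simp at a2
        rw [a2, mul_zero, zero_sub, neg_eq_zero] at a1
        exact ((f.comp (castTwo C)).injective) (a1.trans (map_zero _).symm)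
      refine ⟨h10, ?_⟩
      have hd := D.det_rho g
      rw [Matrix.det_fin_two, h10, mul_zero, sub_zero] at hd
      have h1 : ∀ a b : ZMod 2, a * b = 1 → a = 1 := by decide
      exact h1 _ _ hd
    refine ⟨?_, hrho⟩
    set Z1 : Mat2 C := ((P⁻¹ : (Mat2 C)ˣ) : Mat2 C) * Z * P
    have hr1g : r1 g = α • 1 + β • Z1 := by
      rw [hr1, conjRep_apply, hab, mul_add, add_mul, Matrix.mul_smul, Matrix.smul_mul, mul_one,
        Units.inv_mul, Matrix.mul_smul, Matrix.smul_mul]
    have hZ1 : ∀ i j, f (Z1 i j) = 1 := by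
      intro i j
      have e : f.mapMatrix Z = f.mapMatrix (!![0, 1; 0, 0] : Mat2 C) := by
        ext a b
        have := hf0 (hZ a b)
        rw [map_sub, sub_eq_zero] at this
        fin_cases a <;> fin_cases b <;> simpa using this
      have : f.mapMatrix Z1 = f.mapMatrix (splitInv w * (!![0, 1; 0, 0] : Mat2 C) * splitMat w) := by
        simp only [Z1, map_mul, hfP, hfPi, e]
      rw [show f (Z1 i j) = f ((splitInv w * (!![0, 1; 0, 0] : Mat2 C) * splitMat w) i j) from
        congrFun (congrFun this i) j, ← map_one f]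
      congr 1
      fin_cases i <;> fin_cases j <;>
        simp [splitInv, splitMat, Matrix.mul_apply, Fin.sum_univ_two] <;> grind
    have hZ1tr : Z1 0 0 = Z1 1 1 := by
      have e : Z1.trace = 0 := by
        rw [show Z1.trace = Z.trace from Matrix.trace_units_conj' P Z, hZtr]
      rw [Matrix.trace_fin_two] at e
      exact CharTwo.add_eq_zero.1 e
    have hyc : c g 1 0 = c g 0 1 := by
      obtain ⟨a, b⟩ := hEs g
      by_cases hσ : D.InK g
      · have eE : E g = !![0, r1 g 0 1; r1 g 1 0, 0] := by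
          ext i j; fin_cases i <;> fin_cases j <;> simp [E, G, Setup.goodPart, hσ]
        have eG : G g = !![r1 g 0 0, 0; 0, r1 g 1 1] := if_pos hσ
        have hb : r1 g 0 1 = β * Z1 0 1 := by rw [hr1g]; simp
        have hc' : r1 g 1 0 = β * Z1 1 0 := by rw [hr1g]; simp
        have hd : r1 g 0 0 = r1 g 1 1 := by rw [hr1g]; simp [hZ1tr]
        have hbI : r1 g 0 1 ∈ I := by simpa [eE] using hEI g 0 1
        have hβ : β ∈ I := by
          obtain ⟨z, hz⟩ : IsUnit (Z1 0 1) := by
            by_contra hu; exact one_ne_zero ((hZ1 0 1).symm.trans (hf0 hu))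
          rw [hb, ← hz] at hbI
          simpa using I.mul_mem_right ((z⁻¹ : Cˣ) : C) hbI
        have hz : β * Z1 1 0 = β * Z1 0 1 := hrepl hβ ((hZ1 1 0).trans (hZ1 0 1).symm)
        simp [c, eE, eG, Matrix.mul_apply, Fin.sum_univ_two, Matrix.adjugate_fin_two, hd, hb, hc', hz]
      · have eE : E g = !![r1 g 0 0, 0; 0, r1 g 1 1] := by
          ext i j; fin_cases i <;> fin_cases j <;> simp [E, G, Setup.goodPart, hσ]
        have eG : G g = !![0, r1 g 0 1; r1 g 1 0, 0] := if_neg hσ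
        have hb : r1 g 0 1 = β * Z1 0 1 := by rw [hr1g]; simp
        have hc' : r1 g 1 0 = β * Z1 1 0 := by rw [hr1g]; simp
        have hd : r1 g 0 0 = r1 g 1 1 := by rw [hr1g]; simp [hZ1tr]
        have hdI : r1 g 1 1 ∈ I := by simpa [eE] using hEI g 1 1
        have hz : r1 g 1 1 * (β * Z1 1 0) = r1 g 1 1 * (β * Z1 0 1) :=
          hrepl hdI (by rw [map_mul, map_mul, hZ1 1 0, hZ1 0 1])
        simp [c, eE, eG, Matrix.mul_apply, Fin.sum_univ_two, Matrix.adjugate_fin_two]
        rw [hd, hc', hb, hz]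
    simp only [y, Matrix.mulVec, dotProduct, Fin.sum_univ_two, splitMat]
    simp [hyc, CharTwo.add_self_eq_zero]
  -- the Selmer classes
  let : Algebra (ZMod 2) C := (castTwo C).toAlgebra
  have hsmul : ∀ (a : ZMod 2) (x : C) (ℓ : C →ₗ[ZMod 2] ZMod 2),
      ℓ (castTwo C a * x) = a * ℓ x := fun a x ℓ => by
    rw [show castTwo C a * x = a • x from (Algebra.smul_def a x).symm, map_smul, smul_eq_mul]
  have hlin : ∀ (ℓ : C →ₗ[ZMod 2] ZMod 2) (σ : Gal2) (v : Fin 2 → C) (i : Fin 2),
      ℓ (((D.rho σ).map (castTwo C)).mulVec v i) = (D.rho σ).mulVec (fun j => ℓ (v j)) i :=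
    fun ℓ σ v i => by simp [Matrix.mulVec, dotProduct, Fin.sum_univ_two, hsmul]
  have hsel : ∀ ℓ : C →ₗ[ZMod 2] ZMod 2, D.IsSel S fun σ i => ℓ (y σ i) := by
    intro ℓ
    have hmul : ∀ σ τ, (fun i => ℓ (y (σ * τ) i)) =
        (fun i => ℓ (y σ i)) + (D.rho σ).mulVec fun i => ℓ (y τ i) := fun σ τ => by
      ext i
      simp only [hymul, Pi.add_apply, map_add, hlin]
    refine ⟨⟨hmul, L, hL, fun σ τ hτ => ?_⟩, fun q hq hqS A hA σ hσ => ?_, fun v hv A hA => ?_⟩
    · ext i; simp [hymul, hconst τ hτ]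
    · ext i; simp [hur q hq hqS A hA σ hσ]
    · obtain ⟨A₀, hA₀⟩ := Setup.exists_isStdPlace hv
      obtain ⟨g₀, rfl⟩ := GalCommon.exists_smul_eq_of_liesOverPrime hv.1 hA₀.1 hA
      refine ⟨fun i => ℓ (y g₀ i), fun g hg h' hh' => ?_⟩
      have conj_mem : ∀ x ∈ (g₀ • A₀).decompositionSubgroup ℚ,
          g₀⁻¹ * x * g₀ ∈ A₀.decompositionSubgroup ℚ := fun x hx => by
        rw [MulAction.mem_stabilizer_iff] at hx ⊢
        rw [mul_smul, mul_smul, hx, inv_smul_smul]
      obtain ⟨k1, -, -⟩ := hloc v hv A₀ hA₀ _ (conj_mem g hg)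
      obtain ⟨-, j10, j00⟩ := hloc v hv A₀ hA₀ _ (conj_mem h' hh')
      set zf := fun σ => fun i => ℓ (y σ i) with hzf
      have key : zf g - ((D.rho g).mulVec (zf g₀) - zf g₀) =
          (D.rho g₀).mulVec (zf (g₀⁻¹ * g * g₀)) := by
        have e1 := hmul g g₀
        have e2 := hmul g₀ (g₀⁻¹ * g * g₀)
        rw [show g₀ * (g₀⁻¹ * g * g₀) = g * g₀ by group] at e2
        have e3 : zf g + (D.rho g).mulVec (zf g₀) =
            zf g₀ + (D.rho g₀).mulVec (zf (g₀⁻¹ * g * g₀)) := e1.symm.trans e2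
        ext i
        have e4 := congrFun e3 i
        simp only [Pi.add_apply, Pi.sub_apply] at e4 ⊢
        linear_combination e4 + (zf g₀ i - (D.rho g).mulVec (zf g₀) i) * (CharTwo.two_eq_zero (R := ZMod 2))
      show (D.rho h').mulVec (zf g - ((D.rho g).mulVec (zf g₀) - zf g₀)) =
        zf g - ((D.rho g).mulVec (zf g₀) - zf g₀)
      rw [key, Matrix.mulVec_mulVec, ← map_mul, show h' * g₀ = g₀ * (g₀⁻¹ * h' * g₀) by group,
        map_mul, ← Matrix.mulVec_mulVec]
      congr 1
      ext i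
      simp only [Matrix.mulVec, dotProduct, Fin.sum_univ_two, zf, k1, map_zero, mul_zero, add_zero]
      fin_cases i
      · simp only [Fin.zero_eta]; rw [j00, one_mul]
      · simp only [Fin.mk_one]; rw [j10, zero_mul, k1, map_zero]
  -- the coboundary
  set a : Fin 2 → C := ![y D.frameG 1, y D.frameG 0 + y D.frameG 1] with ha
  have hker : ∀ σ i, y σ i = ((D.rho σ).map (castTwo C)).mulVec a i - a i := by
    intro σ i
    rw [← sub_eq_zero, ← Module.forall_dual_apply_eq_zero_iff (ZMod 2)]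
    intro ℓ
    obtain ⟨b, hb⟩ := hS _ (hsel ℓ)
    have hbi := congrFun (hb σ) i
    have g0 := congrFun (hb D.frameG) 0
    have g1 := congrFun (hb D.frameG) 1
    rw [D.rho_frameG] at g0 g1
    simp [dotProduct, Fin.sum_univ_two] at g0 g1
    have hab : (fun j => ℓ (a j)) = b := by
      ext j; fin_cases j <;> simp [a, map_add, g0, g1]
    simp only [map_sub, hlin, hab]
    rw [hbi]
    have : ℓ (a i) = b i := congrFun hab i
    rw [this]
    simp [Pi.sub_apply]
  set x := (splitInv w).mulVec a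
  have haI : ∀ i, a i ∈ I := by
    intro i; fin_cases i
    · exact hyI _ 1
    · exact add_mem (hyI _ 0) (hyI _ 1)
  have hxI : ∀ i, x i ∈ I := fun i => by
    simp only [x, Matrix.mulVec, dotProduct, Fin.sum_univ_two]
    exact add_mem (I.mul_mem_left _ (haI 0)) (I.mul_mem_left _ (haI 1))
  refine ⟨!![0, x 1; x 0, 0], fun i j => ?_, fun σ => ?_⟩
  · fin_cases i <;> fin_cases j <;> simp [hxI]
  set M : Mat2 C := !![0, x 1; x 0, 0]
  have hMI : ∀ i j, M i j ∈ I := fun i j => by fin_cases i <;> fin_cases j <;> simp [M, hxI]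
  have hvec : ![c σ 1 0, c σ 0 1] = (D.hbar w σ).mulVec x + x := by
    have e : (splitMat w).mulVec ![c σ 1 0, c σ 0 1] =
        (splitMat w).mulVec ((D.hbar w σ).mulVec x + x) := by
      rw [Matrix.mulVec_add, Matrix.mulVec_mulVec, D.splitMat_mul_hbar hw, ← Matrix.mulVec_mulVec,
        show (splitMat w).mulVec x = a by
          simp only [x, Matrix.mulVec_mulVec, splitMat_mul hw, Matrix.one_mulVec]]
      ext i
      rw [← sub_neg_eq_add, Pi.sub_apply, Pi.neg_apply, CharTwo.neg_eq]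
      exact hker σ i
    have := congrArg (splitInv w).mulVec e
    rwa [Matrix.mulVec_mulVec, splitInv_mul hw, Matrix.one_mulVec, Matrix.mulVec_mulVec,
      splitInv_mul hw, Matrix.one_mulVec] at this
  have hcM : c σ = G σ * M * (G σ).adjugate + M := by
    have h0 := congrFun hvec 0
    have h1 := congrFun hvec 1
    have h2 := hadj σ M hMI rfl rfl
    have eM : ![M 1 0, M 0 1] = x := by ext i; fin_cases i <;> simp [M]
    rw [eM] at h2
    have h3 := congrFun h2 0
    have h4 := congrFun h2 1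
    have hd0 : (G σ * M * (G σ).adjugate) 0 0 = 0 ∧ (G σ * M * (G σ).adjugate) 1 1 = 0 := by
      have hM0 : M 0 0 = 0 := rfl
      have hM1 : M 1 1 = 0 := rfl
      obtain ⟨p, q⟩ := hGs σ
      by_cases hσ : D.InK σ
      · obtain ⟨g1, g2⟩ := p hσ
        constructor <;>
          simp only [Matrix.mul_apply, Fin.sum_univ_two, Matrix.adjugate_fin_two, g1, g2, hM0, hM1,
            Matrix.of_apply, Matrix.cons_val_zero, Matrix.cons_val_one] <;> ring
      · obtain ⟨g1, g2⟩ := q hσ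
        constructor <;>
          simp only [Matrix.mul_apply, Fin.sum_univ_two, Matrix.adjugate_fin_two, g1, g2, hM0, hM1,
            Matrix.of_apply, Matrix.cons_val_zero, Matrix.cons_val_one] <;> ring
    simp only [Pi.add_apply, Matrix.cons_val_zero, Matrix.cons_val_one] at h0 h1 h3 h4
    ext i j
    fin_cases i <;> fin_cases j
    · show c σ 0 0 = (G σ * M * (G σ).adjugate) 0 0 + 0
      rw [(hcoff σ).1, hd0.1, add_zero]
    · show c σ 0 1 = (G σ * M * (G σ).adjugate) 0 1 + x 1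
      rw [h1, h4]
    · show c σ 1 0 = (G σ * M * (G σ).adjugate) 1 0 + x 0
      rw [h0, h3]
    · show c σ 1 1 = (G σ * M * (G σ).adjugate) 1 1 + 0
      rw [(hcoff σ).2, hd0.2, add_zero]
  have hEM : E σ = G σ * M + M * G σ := by
    have e1 : E σ = c σ * G σ := by
      simp only [c]
      rw [mul_assoc, Matrix.adjugate_mul]
      exact (hEdet σ σ).symm
    have hMd : M * ((G σ).det • (1 : Mat2 C)) = M := by
      ext i j
      rw [Matrix.mul_smul, mul_one, Matrix.smul_apply, smul_eq_mul, mul_comm,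
        hrepl (hMI i j) ((hdet σ).trans (map_one f).symm), mul_one]
    rw [e1, hcM, add_mul, mul_assoc, Matrix.adjugate_mul, mul_assoc, hMd]
  have z1 : M * E σ = 0 := mat_mul_entry_eq_zero fun i j k l => hII (hMI i j) (hEI σ k l)
  have z2 : E σ * M = 0 := mat_mul_entry_eq_zero fun i j k l => hII (hEI σ i j) (hMI k l)
  have z3 : M * G σ * M = 0 := mat_mul_entry_eq_zero fun i j k l => hII (by
    rw [Matrix.mul_apply, Fin.sum_univ_two]
    exact add_mem (I.mul_mem_right _ (hMI i 0)) (I.mul_mem_right _ (hMI i 1))) (hMI k l)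
  have key : (1 + M) * r1 σ * (1 + M) = G σ := by
    have hneg : E σ + E σ = 0 := by ext i j; exact CharTwo.add_self_eq_zero _
    rw [hsum σ]
    simp only [add_mul, mul_add, one_mul, mul_one, z1, z2, z3, add_zero]
    calc G σ + M * G σ + E σ + G σ * M = G σ + (E σ + (G σ * M + M * G σ)) := by abel
      _ = G σ := by rw [← hEM, hneg, add_zero]
  rw [key]
  exact hGs σ

end FLTAgent.Mod2
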