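import Fermat.Agent.Mod2.RT.NewLevel

/-!
# Deformations over the fibre algebra generated by two systems of traces

`eigenval S u r` is the eigensystem of a deformation and `fibre` the subalgebra of `TN S × B`
generated by its pairs with that of the tower. This algebra is local (`isLocalRing_fibre`) and,
for normalised deformations, carries a deformation inducing both (`exists_fibre_def`), since
their entries are determined by traces.
-/

set_option autoImplicit false

noncomputable section

namespace FLTAgent.Mod2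

open Matrix Polynomial

section Algebra

variable {B C : Type} [CommRing B] [CommRing C] [Algebra ℤ_[2] B] [Algebra ℤ_[2] C]

theorem SpecialAt.of_injective (f : B →ₐ[ℤ_[2]] C) (hf : Function.Injective f) {v : ℕ} {u : B}
    {r : Gal2 →* Mat2 B} (h : SpecialAt v (f u) (mapRep f.toRingHom r)) : SpecialAt v u r := by
  have hinj : Function.Injective (f.toRingHom.mapMatrix (m := Fin 2)) := fun M N h => by
    ext i j; exact hf (congrFun (congrFun h i) j)
  have key : ∀ (σ : Gal2) (c : B),
      (mapRep f.toRingHom r σ - f c • 1) = f.toRingHom.mapMatrix (r σ - c • 1) := fun σ c =>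
    (map_sub_smul f.toRingHom (r σ) c).symm
  have key1 : ∀ σ : Gal2, mapRep f.toRingHom r σ - 1 = f.toRingHom.mapMatrix (r σ - 1) := fun σ => by
    rw [map_sub, map_one]; rfl
  refine ⟨hf (by rw [map_pow, map_one, h.sq]), ?_, ?_, ?_, ?_, ?_⟩
  · intro A hA σ hσ τ hτ
    apply hinj
    rw [map_mul, ← key, f.commutes, ← key1, h.inertia A hA σ hσ τ hτ, map_zero]
  · intro A hA σ hσ φ hφ
    apply hinj
    rw [map_mul, ← key, ← key, f.commutes, h.quotient A hA σ hσ φ hφ, map_zero]
  · intro A hA σ hσ φ hφ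
    apply hinj
    rw [map_mul, ← key, ← key1, map_mul, f.commutes, h.line A hA σ hσ φ hφ, map_zero]
  · intro A hA σ hσ
    apply hf
    have := h.trace_inertia A hA σ hσ
    rw [mapRep_apply, trace_map] at this
    rw [map_add, map_one, f.commutes]; exact this
  · intro A hA φ hφ
    apply hf
    have := h.trace_frob A hA φ hφ
    rw [mapRep_apply, trace_map] at this
    rw [map_mul, map_add, map_one, f.commutes]; exact this

theorem pairRep_sub_smul (r : Gal2 →* Mat2 B) (s : Gal2 →* Mat2 C) (σ : Gal2) (a : B) (b : C) :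
    pairRep r s σ - (a, b) • (1 : Mat2 (B × C)) =
      Matrix.of fun i j => ((r σ - a • 1) i j, (s σ - b • 1) i j) := by
  ext i j <;> simp [pairRep, Matrix.one_apply] <;> split <;> simp

theorem SpecialAt.pair {v : ℕ} {u : B} {u' : C} {r : Gal2 →* Mat2 B} {s : Gal2 →* Mat2 C}
    (h : SpecialAt v u r) (h' : SpecialAt v u' s) : SpecialAt v (u, u') (pairRep r s) := by
  have hc : ∀ c : ℤ_[2], algebraMap ℤ_[2] (B × C) c = (algebraMap _ B c, algebraMap _ C c) :=
    fun c => rfl
  have e1 : ∀ σ, pairRep r s σ - 1 =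
      Matrix.of fun i j => ((r σ - 1) i j, (s σ - 1) i j) := fun σ => by
    have := pairRep_sub_smul r s σ 1 1
    simpa [show ((1, 1) : B × C) = 1 from rfl] using this
  have emul : ∀ {X Y : Mat2 B} {X' Y' : Mat2 C}, X * Y = 0 → X' * Y' = 0 →
      (Matrix.of fun i j => (X i j, X' i j) : Mat2 (B × C)) *
        (Matrix.of fun i j => (Y i j, Y' i j)) = 0 := by
    intro X Y X' Y' h1 h2
    ext i j
    · have := congrFun (congrFun h1 i) j
      simpa [Matrix.mul_apply, Fin.sum_univ_two] using this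
    · have := congrFun (congrFun h2 i) j
      simpa [Matrix.mul_apply, Fin.sum_univ_two] using this
  refine ⟨Prod.ext h.sq h'.sq, ?_, ?_, ?_, ?_, ?_⟩
  · intro A hA σ hσ τ hτ
    rw [hc, pairRep_sub_smul, e1]
    exact emul (h.inertia A hA σ hσ τ hτ) (h'.inertia A hA σ hσ τ hτ)
  · intro A hA σ hσ φ hφ
    rw [hc, pairRep_sub_smul, pairRep_sub_smul]
    exact emul (h.quotient A hA σ hσ φ hφ) (h'.quotient A hA σ hσ φ hφ)
  · intro A hA σ hσ φ hφ
    rw [hc, Prod.mk_mul_mk, pairRep_sub_smul, e1]
    exact emul (h.line A hA σ hσ φ hφ) (h'.line A hA σ hσ φ hφ)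
  · intro A hA σ hσ
    rw [hc]
    exact Prod.ext (by simpa [pairRep, Matrix.trace_fin_two] using h.trace_inertia A hA σ hσ)
      (by simpa [pairRep, Matrix.trace_fin_two] using h'.trace_inertia A hA σ hσ)
  · intro A hA φ hφ
    rw [hc]
    exact Prod.ext (by simpa [pairRep, Matrix.trace_fin_two] using h.trace_frob A hA φ hφ)
      (by simpa [pairRep, Matrix.trace_fin_two] using h'.trace_frob A hA φ hφ)

variable [Module.Finite ℤ_[2] B]

/-- Divisibility by powers of `2` descends to a subalgebra up to a bounded shift. -/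
theorem exists_shift_dvd (R : Subalgebra ℤ_[2] B) :
    ∃ k : ℕ, ∀ (n : ℕ) (x : R), (2 : B) ^ (n + k) ∣ (x : B) → (2 : R) ^ n ∣ x := by
  let N : ℕ →o Submodule ℤ_[2] B :=
    ⟨fun k => (Subalgebra.toSubmodule R).comap (((2 : ℤ_[2]) ^ k) • LinearMap.id),
     monotone_nat_of_le_succ fun k x hx => by
      simp only [Submodule.mem_comap, LinearMap.smul_apply, LinearMap.id_apply] at hx ⊢
      rw [pow_succ', mul_smul]
      exact Submodule.smul_mem _ _ hx⟩
  obtain ⟨k, hk⟩ := monotone_stabilizes_iff_noetherian.2 (inferInstance : IsNoetherian ℤ_[2] B) N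
  refine ⟨k, fun n x ⟨c, hc⟩ => ?_⟩
  have h1 : c ∈ N (n + k) := by
    show ((2 : ℤ_[2]) ^ (n + k)) • c ∈ R
    rw [Algebra.smul_def, map_pow, map_ofNat, ← hc]
    exact x.2
  rw [← hk _ (Nat.le_add_left k n)] at h1
  have h2 : (2 : B) ^ k * c ∈ R := by
    have h3 : ((2 : ℤ_[2]) ^ k) • c ∈ R := h1
    rwa [Algebra.smul_def, map_pow, map_ofNat] at h3
  refine ⟨⟨_, h2⟩, Subtype.ext ?_⟩
  rw [hc, pow_add, mul_assoc]
  rfl

theorem isUnit_of_isUnit_coe (R : Subalgebra ℤ_[2] B) {x : R} (h : IsUnit (x : B)) : IsUnit x := by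
  have hint : (R.val.toRingHom).IsIntegral := fun b =>
    (IsIntegral.of_finite ℤ_[2] b).tower_top (A := R)
  exact (hint.isLocalHom Subtype.val_injective).map_nonunit x h

end Algebra

namespace Setup

variable {D : Setup}

theorem IsDef.map {B C : Type} [CommRing B] [CommRing C] [Algebra ℤ_[2] B] [Algebra ℤ_[2] C]
    {S : Finset D.Aux} {u : ℕ → B} {r : Gal2 →* Mat2 B} (h : D.IsDef S u r) (f : B →ₐ[ℤ_[2]] C) :
    D.IsDef S (fun v => f (u v)) (mapRep f.toRingHom r) where
  cont := h.cont.map _
  lifts g σ := by rw [mapRep_apply, Matrix.map_map]; exact h.lifts (g.comp f.toRingHom) σ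
  det σ := by rw [mapRep_apply, det_map, h.det]; exact f.commutes _
  special v hv := (h.special v hv).map f
  unram q hq h' := (h.unram q hq h').map _

theorem IsDef.conj {B : Type} [CommRing B] [IsLocalRing B] [Algebra ℤ_[2] B]
    {S : Finset D.Aux} {u : ℕ → B} {r : Gal2 →* Mat2 B} (h : D.IsDef S u r) (P : (Mat2 B)ˣ)
    (red : B →+* ZMod 2) (hP : (P : Mat2 B).map red = 1) : D.IsDef S u (conjRep P r) where
  cont := h.cont.conj P
  lifts g σ := by
    rw [ringHom_two_ext g red, map_conjRep_of_red_one red P hP, h.lifts]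
  det σ := by rw [det_conjRep, h.det]
  special v hv := (h.special v hv).conj P
  unram q hq h' := (h.unram q hq h').conj P

theorem IsDef.trace_frob_eq {B : Type} [CommRing B] [Algebra ℤ_[2] B]
    {S : Finset D.Aux} {u : ℕ → B} {r : Gal2 →* Mat2 B} (h : D.IsDef S u r) {l : ℕ} (hl : l.Prime)
    (hS : ¬ D.IsSpecial S l) {A A' : ValuationSubring (AlgebraicClosure ℚ)} (hA : A.LiesOverPrime l)
    (hA' : A'.LiesOverPrime l) {φ φ' : Gal2} (hφ : A.IsFrobeniusAt φ l)
    (hφ' : A'.IsFrobeniusAt φ' l) : (r φ').trace = (r φ).trace := by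
  obtain ⟨g, hg⟩ := GalCommon.map_frobenius_isConj r hl hA hA' (h.unram l hl hS A' hA') hφ hφ'
  rw [hg, map_mul, map_mul, Matrix.trace_mul_cycle, ← map_mul, inv_mul_cancel, map_one, one_mul]

end Setup

open Classical in
/-- The trace of a chosen Frobenius element at `l`. -/
def frobTrace {B : Type} [CommRing B] (r : Gal2 →* Mat2 B) (l : ℕ) : B :=
  if h : l.Prime then (r (GalCommon.exists_place_frobenius h).choose_spec.2.choose).trace else 0

theorem Setup.IsDef.frobTrace_eq {D : Setup} {B : Type} [CommRing B] [Algebra ℤ_[2] B]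
    {S : Finset D.Aux} {u : ℕ → B} {r : Gal2 →* Mat2 B} (h : D.IsDef S u r) {l : ℕ} (hl : l.Prime)
    (hS : ¬ D.IsSpecial S l) {A : ValuationSubring (AlgebraicClosure ℚ)} (hA : A.LiesOverPrime l)
    {φ : Gal2} (hφ : A.IsFrobeniusAt φ l) : frobTrace r l = (r φ).trace := by
  rw [frobTrace, dif_pos hl]
  exact h.trace_frob_eq hl hS hA (GalCommon.exists_place_frobenius hl).choose_spec.1 hφ
    (GalCommon.exists_place_frobenius hl).choose_spec.2.choose_spec

open Classical in
/-- The value at `l` of the eigensystem attached to a deformation. -/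
def eigenval {D : Setup} {B : Type} [CommRing B] (S : Finset D.Aux) (u : ℕ → B)
    (r : Gal2 →* Mat2 B) (l : ℕ) : B :=
  if D.IsSpecial S l then u l else frobTrace r l

namespace Tower

variable {D : Setup} {W : Tower D}

/-- The fibre algebra. -/
def fibre (W : Tower D) (S : Finset D.Aux) {B : Type} [CommRing B] [Algebra ℤ_[2] B] (u : ℕ → B)
    (r : Gal2 →* Mat2 B) : Subalgebra ℤ_[2] (W.TN S × B) :=
  Algebra.adjoin ℤ_[2] ((fun l => (W.tN S l, eigenval S u r l)) '' {l | l.Prime})

variable {S : Finset D.Aux} {B : Type} [CommRing B] [IsLocalRing B] [Algebra ℤ_[2] B]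
  [Module.Finite ℤ_[2] B] {u : ℕ → B} {r : Gal2 →* Mat2 B}

theorem eigenval_of_special {l : ℕ} (h : D.IsSpecial S l) : eigenval S u r l = u l := if_pos h

theorem eigenval_of_not_special (hr : D.IsDef S u r) {l : ℕ} (hl : l.Prime)
    (h : ¬ D.IsSpecial S l) {A : ValuationSubring (AlgebraicClosure ℚ)} (hA : A.LiesOverPrime l)
    {φ : Gal2} (hφ : A.IsFrobeniusAt φ l) : eigenval S u r l = (r φ).trace := by
  rw [eigenval, if_neg h, hr.frobTrace_eq hl h hA hφ]

theorem redN_tN (S : Finset D.Aux) {v : ℕ} (hv : D.IsSpecial S v) :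
    W.redN S (W.tN S v) = 1 := W.red_t S v hv

theorem gen_red (hr : D.IsDef S u r) (red : B →+* ZMod 2) {l : ℕ} (hl : l.Prime) :
    red (eigenval S u r l) = W.redN S (W.tN S l) := by
  by_cases h : D.IsSpecial S l
  · rw [eigenval_of_special h, redN_tN S h]
    have h1 : ∀ z : ZMod 2, z ^ 2 = 1 → z = 1 := by decide
    exact h1 _ (by rw [← map_pow, (hr.special l h).sq, map_one])
  · obtain ⟨A, hA, φ, hφ⟩ := GalCommon.exists_place_frobenius hl
    rw [eigenval_of_not_special hr hl h hA hφ, ← trace_map, hr.lifts,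
      ← trace_rN_frob (W := W) hl h hA hφ, ← trace_map, rN, mapRep_apply, Matrix.map_map]
    exact (congrArg Matrix.trace (W.lifts' S ((W.redN S).comp
      (Ideal.Quotient.mkₐ ℤ_[2] (W.newI S S)).toRingHom) φ)).symm

/-- Both reductions agree on the fibre algebra. -/
theorem red_fst_eq_red_snd (hr : D.IsDef S u r) (red : B →+* ZMod 2) (x : W.fibre S u r) :
    red (x : W.TN S × B).2 = W.redN S (x : W.TN S × B).1 := by
  obtain ⟨x, hx⟩ := x
  change red x.2 = W.redN S x.1
  induction hx using Algebra.adjoin_induction with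
  | mem y hy => obtain ⟨l, hl, rfl⟩ := hy; exact gen_red hr red hl
  | algebraMap c =>
    show red (algebraMap ℤ_[2] B c) = W.redN S (algebraMap ℤ_[2] (W.TN S) c)
    rw [map_padicInt_red, map_padicInt_red]
  | add a b _ _ ha hb => rw [Prod.snd_add, Prod.fst_add, map_add, map_add, ha, hb]
  | mul a b _ _ ha hb => rw [Prod.snd_mul, Prod.fst_mul, map_mul, map_mul, ha, hb]

variable (W) in
/-- The reduction of the fibre algebra. -/
def redFibre (S : Finset D.Aux) (u : ℕ → B) (r : Gal2 →* Mat2 B) :
    W.fibre S u r →+* ZMod 2 :=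
  (W.redN S).comp ((RingHom.fst (W.TN S) B).comp (W.fibre S u r).val.toRingHom)

theorem isUnit_fibre (hr : D.IsDef S u r) (red : B →+* ZMod 2) {x : W.fibre S u r}
    (hx : W.redFibre S u r x = 1) : IsUnit x := by
  refine isUnit_of_isUnit_coe _ (Prod.isUnit_iff.2 ⟨?_, ?_⟩)
  · exact (isUnit_iff_red (W.redN S)).2 hx
  · exact (isUnit_iff_red red).2 ((red_fst_eq_red_snd hr red x).trans hx)

theorem isLocalRing_fibre (hr : D.IsDef S u r) (red : B →+* ZMod 2) :
    IsLocalRing (W.fibre S u r) := by
  have : Nontrivial (W.fibre S u r) := (W.redFibre S u r).domain_nontrivial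
  refine IsLocalRing.of_nonunits_add fun {a b} ha hb hab => ?_
  have h1 : ∀ z : ZMod 2, z ≠ 1 → z = 0 := by decide
  have ha' : W.redFibre S u r a = 0 := h1 _ fun h => ha (isUnit_fibre hr red h)
  have hb' : W.redFibre S u r b = 0 := h1 _ fun h => hb (isUnit_fibre hr red h)
  have := hab.map (W.redFibre S u r)
  rw [map_add, ha', hb', add_zero] at this
  exact not_isUnit_zero this

variable (hW : W.IsNormalized)

include hW in
theorem trace_pair_mem (hr : D.IsDef S u r) (σ : Gal2) :
    (pairRep (W.rN S) r σ).trace ∈ W.fibre S u r := by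
  have hdet : ∀ τ, (pairRep (W.rN S) r τ).det = algebraMap ℤ_[2] (W.TN S × B) (chi2 τ) := fun τ => by
    have e : (pairRep (W.rN S) r τ).det = ((W.rN S τ).det, (r τ).det) := by
      simp [pairRep, Matrix.det_fin_two]
    rw [e, det_rN, hr.det]; rfl
  refine trace_mem_of_frobenius ((isDef_rN hW S).cont.pair hr.cont) _
    (fun τ => by rw [hdet]; exact Subalgebra.algebraMap_mem _ _) (D.badPrimes S)
    (fun l hl hlT A hA φ hφ => ?_) σ
  have hs := Setup.not_special_of_not_mem_bad hlT
  refine Algebra.subset_adjoin ⟨l, hl, ?_⟩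
  show (W.tN S l, eigenval S u r l) = _
  rw [eigenval_of_not_special hr hl hs hA hφ, ← trace_rN_frob hl hs hA hφ]
  simp [pairRep, Matrix.trace_fin_two]

include hW in
/-- The deformation over the fibre algebra. -/
theorem exists_fibre_def (hr : D.IsDef S u r) (hn : D.IsNormal r) (red : B →+* ZMod 2) :
    ∃ (u' : ℕ → W.fibre S u r) (r' : Gal2 →* Mat2 (W.fibre S u r)),
      D.IsDef S u' r' ∧ D.IsNormal r' ∧
      mapRep (W.fibre S u r).val.toRingHom r' = pairRep (W.rN S) r ∧
      ∀ v, D.IsSpecial S v → ((u' v : W.fibre S u r) : W.TN S × B) = (W.tN S v, u v) := by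
  classical
  have := isLocalRing_fibre (W := W) hr red
  set R := W.fibre S u r
  have hmem : ∀ σ i j, pairRep (W.rN S) r σ i j ∈ R := by
    refine ((isNormal_rN hW S).pair hn).entry_mem R (W.redFibre S u r)
      (fun x hx => isUnit_fibre hr red hx) (trace_pair_mem hW hr) (fun σ => ?_) fun σ => ?_
    · have e : (pairRep (W.rN S) r σ).det = algebraMap ℤ_[2] (W.TN S × B) (chi2 σ) := by
        have e : (pairRep (W.rN S) r σ).det = ((W.rN S σ).det, (r σ).det) := by
          simp [pairRep, Matrix.det_fin_two]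
        rw [e, det_rN, hr.det]; rfl
      rw [e]; exact Subalgebra.algebraMap_mem _ _
    · show W.redN S ((pairRep (W.rN S) r σ).trace).1 = _
      rw [show ((pairRep (W.rN S) r σ).trace).1 = (W.rN S σ).trace by
        simp [pairRep, Matrix.trace_fin_two], ← trace_map, (isDef_rN hW S).lifts (W.redN S) σ]
  let r' : Gal2 →* Mat2 R :=
    { toFun := fun σ => Matrix.of fun i j => ⟨_, hmem σ i j⟩
      map_one' := Matrix.ext fun i j => Subtype.ext <| by
        show pairRep (W.rN S) r 1 i j = ((1 : Mat2 R) i j : W.TN S × B)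
        rw [map_one, Matrix.one_apply, Matrix.one_apply]
        split <;> rfl
      map_mul' := fun σ τ => Matrix.ext fun i j => Subtype.ext <| by
        simp only [Matrix.mul_apply, Fin.sum_univ_two, Matrix.of_apply]
        show pairRep (W.rN S) r (σ * τ) i j = pairRep (W.rN S) r σ i 0 * pairRep (W.rN S) r τ 0 j +
          pairRep (W.rN S) r σ i 1 * pairRep (W.rN S) r τ 1 j
        rw [map_mul, Matrix.mul_apply, Fin.sum_univ_two] }
  have hval : mapRep R.val.toRingHom r' = pairRep (W.rN S) r := by ext σ i j <;> rfl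
  let u' : ℕ → R := fun v =>
    if h : v.Prime ∧ D.IsSpecial S v then
      ⟨(W.tN S v, u v), by
        rw [← eigenval_of_special (u := u) (r := r) h.2]
        exact Algebra.subset_adjoin ⟨v, h.1, rfl⟩⟩
    else 0
  have hu' : ∀ v, D.IsSpecial S v → ((u' v : R) : W.TN S × B) = (W.tN S v, u v) := fun v hv => by
    simp [u', hv, hv.1]
  refine ⟨u', r', ⟨?_, ?_, ?_, ?_, ?_⟩, ?_, hval, hu'⟩
  · intro n
    obtain ⟨k, hk⟩ := exists_shift_dvd R
    obtain ⟨L, hL, h⟩ := ((isDef_rN hW S).cont.pair hr.cont) (n + k)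
    refine ⟨L, hL, fun σ hσ i j => hk n _ ?_⟩
    have e : (((r' σ - 1) i j : R) : W.TN S × B) = (pairRep (W.rN S) r σ - 1) i j := by
      rw [Matrix.sub_apply, Matrix.sub_apply, AddSubgroupClass.coe_sub, Matrix.one_apply,
        Matrix.one_apply]
      refine congrArg₂ (· - ·) rfl ?_
      split <;> rfl
    rw [e]
    exact h σ hσ i j
  · intro f σ
    rw [ringHom_two_ext f (W.redFibre S u r)]
    exact (isDef_rN hW S).lifts (W.redN S) σ
  · intro σ
    apply Subtype.val_injective
    have e := det_map R.val.toRingHom (r' σ)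
    rw [← mapRep_apply, hval] at e
    change ((r' σ).det : W.TN S × B) = _
    refine e.symm.trans ?_
    have e2 : (pairRep (W.rN S) r σ).det = ((W.rN S σ).det, (r σ).det) := by
      simp [pairRep, Matrix.det_fin_two]
    rw [e2, det_rN, hr.det]; rfl
  · intro v hv
    refine SpecialAt.of_injective R.val Subtype.val_injective ?_
    rw [hval, show R.val (u' v) = (W.tN S v, u v) from hu' v hv]
    exact ((isDef_rN hW S).special v hv).pair (hr.special v hv)
  · intro q hq h A hA σ hσ
    ext i j
    · show (W.rN S σ i j) = _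
      rw [(isDef_rN hW S).unram q hq h A hA σ hσ, Matrix.one_apply, Matrix.one_apply]
      split <;> simp
    · show (r σ i j) = _
      rw [hr.unram q hq h A hA σ hσ, Matrix.one_apply, Matrix.one_apply]
      split <;> simp
  · refine ⟨Subtype.ext ?_, Subtype.ext ?_, Subtype.ext ?_, Subtype.ext ?_⟩
    · exact ((isNormal_rN hW S).pair hn).s00
    · exact ((isNormal_rN hW S).pair hn).s10
    · exact ((isNormal_rN hW S).pair hn).g00
    · exact ((isNormal_rN hW S).pair hn).g10

end Tower

end FLTAgent.Mod2
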