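import Fermat.Agent.Mod2.RT.Normal

/-!
# Finite local algebras over `ℤ_[2]`: saturated ideals

`IsSat I` says that the quotient by `I` has no `2`-torsion. An element outside every prime above
`I` not containing `2` is regular modulo a saturated `I` (`regular_mod`), and `I` is the
intersection of the `I + (2 ^ n)` (`mem_of_forall_sup_pow`).
-/

set_option autoImplicit false

noncomputable section

namespace FLTAgent.Mod2

variable {R : Type} [CommRing R] [Algebra ℤ_[2] R]

/-- `I` is saturated if `R ⧸ I` has no `2`-torsion. -/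
def IsSat (I : Ideal R) : Prop := ∀ y : R, 2 * y ∈ I → y ∈ I

theorem isSat_bot [Module.Free ℤ_[2] R] : IsSat (⊥ : Ideal R) := fun y hy => by
  rw [Ideal.mem_bot] at hy ⊢
  have : (2 : ℤ_[2]) • y = 0 := by rwa [Algebra.smul_def, map_ofNat]
  rcases smul_eq_zero.1 this with h | h
  · exact absurd h two_ne_zero
  · exact h

theorem IsSat.pow {I : Ideal R} (h : IsSat I) : ∀ (n : ℕ) (y : R), 2 ^ n * y ∈ I → y ∈ I
  | 0, y, hy => by simpa using hy
  | n + 1, y, hy => h y (IsSat.pow h n (2 * y) (by rwa [pow_succ, mul_assoc] at hy))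

theorem natCast_eq_unit_mul_two_pow {n : ℕ} (hn : n ≠ 0) :
    ∃ (k : ℕ) (u : R), IsUnit u ∧ (n : R) = u * 2 ^ k := by
  have h0 : (n : ℤ_[2]) ≠ 0 := Nat.cast_ne_zero.2 hn
  refine ⟨(n : ℤ_[2]).valuation, algebraMap ℤ_[2] R (PadicInt.unitCoeff h0 : ℤ_[2]),
    (Units.isUnit _).map _, ?_⟩
  have := congrArg (algebraMap ℤ_[2] R) (PadicInt.unitCoeff_spec h0)
  rwa [map_natCast, map_mul, map_pow, map_natCast, Nat.cast_ofNat] at this

/-- The fraction field of the quotient by a prime not containing `2` has characteristic zero. -/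
theorem charZero_quotient {P : Ideal R} [P.IsPrime] (h2 : (2 : R) ∉ P) : CharZero (R ⧸ P) := by
  refine charZero_of_inj_zero fun n hn => ?_
  by_contra h
  obtain ⟨k, u, hu, e⟩ := natCast_eq_unit_mul_two_pow (R := R) h
  rw [← map_natCast (Ideal.Quotient.mk P), Ideal.Quotient.eq_zero_iff_mem, e] at hn
  rcases Ideal.IsPrime.mem_or_mem ‹_› hn with h1 | h1
  · exact Ideal.IsPrime.ne_top ‹_› (Ideal.eq_top_of_isUnit_mem _ h1 hu)
  · exact h2 (Ideal.IsPrime.mem_of_pow_mem ‹_› k h1)

variable [Module.Finite ℤ_[2] R]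

theorem isNoetherianRing_of_finite : IsNoetherianRing R :=
  isNoetherian_of_tower ℤ_[2] inferInstance

/-- An element outside every prime `P ⊇ I` with `2 ∉ P` is regular modulo a saturated `I`. -/
theorem regular_mod {I : Ideal R} (hI : IsSat I) {w : R}
    (h : ∀ P : Ideal R, P.IsPrime → I ≤ P → (2 : R) ∉ P → w ∉ P) {y : R} (hy : w * y ∈ I) :
    y ∈ I := by
  have := isNoetherianRing_of_finite (R := R)
  by_contra hyI
  -- a maximal annihilator of a multiple of `y` is a prime
  obtain ⟨J, ⟨⟨z, hz, rfl⟩, hwJ⟩, hmax⟩ := set_has_maximal_iff_noetherian.2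
    (inferInstance : IsNoetherian R R)
    {J : Ideal R | (∃ z, z ∉ I ∧ J = Submodule.colon I (Ideal.span {z})) ∧ w ∈ J}
    ⟨_, ⟨y, hyI, rfl⟩, Submodule.mem_colon.2 fun a ha => by
      obtain ⟨c, rfl⟩ := Ideal.mem_span_singleton'.1 ha
      rw [smul_eq_mul, mul_left_comm]
      exact I.mul_mem_left c hy⟩
  have hcol : ∀ (a b : R), b ∈ Submodule.colon I (Ideal.span {a} : Set R) ↔ b * a ∈ I := fun a b => by
    rw [Submodule.mem_colon]
    refine ⟨fun h => by simpa using h a (Ideal.mem_span_singleton_self a), fun h x hx => ?_⟩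
    obtain ⟨c, rfl⟩ := Ideal.mem_span_singleton'.1 hx
    rw [smul_eq_mul, mul_left_comm]
    exact I.mul_mem_left c h
  set J := Submodule.colon I (Ideal.span {z} : Set R)
  have hne : J ≠ ⊤ := fun ht => hz <| by
    simpa using (hcol z 1).1 (show (1 : R) ∈ J by rw [ht]; exact Submodule.mem_top)
  have hprime : J.IsPrime := by
    refine ⟨hne, fun {a b} hab => ?_⟩
    by_contra hc
    rw [not_or] at hc
    have hbz : b * z ∉ I := fun h => hc.2 ((hcol z b).2 h)
    refine hmax (Submodule.colon I (Ideal.span {b * z} : Set R)) ⟨⟨_, hbz, rfl⟩, ?_⟩ ?_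
    · refine (hcol _ w).2 ?_
      rw [mul_left_comm]
      exact I.mul_mem_left b ((hcol z w).1 hwJ)
    · refine lt_of_le_of_ne (fun x hx => (hcol _ x).2 ?_) fun he => hc.1 ?_
      · rw [mul_left_comm]
        exact I.mul_mem_left b ((hcol z x).1 hx)
      · rw [he]
        refine (hcol _ a).2 ?_
        rw [← mul_assoc]
        exact (hcol z _).1 hab
  refine h J hprime (fun x hx => (hcol z x).2 (I.mul_mem_right z hx)) (fun h2 => ?_) hwJ
  exact hz (hI z ((hcol z 2).1 h2))

theorem mem_of_forall_sup_pow [IsLocalRing R] (h2 : ¬ IsUnit (2 : R)) (I : Ideal R) {y : R}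
    (h : ∀ n : ℕ, y ∈ I ⊔ Ideal.span {(2 : R) ^ n}) : y ∈ I := by
  have := isNoetherianRing_of_finite (R := R)
  have key : Ideal.Quotient.mk I y ∈
      ⨅ n : ℕ, (Ideal.span {(2 : R)}) ^ n • (⊤ : Submodule R (R ⧸ I)) := by
    rw [Submodule.mem_iInf]
    intro n
    obtain ⟨a, ha, b, hb, hab⟩ := Submodule.mem_sup.1 (h n)
    obtain ⟨c, rfl⟩ := Ideal.mem_span_singleton'.1 hb
    rw [Ideal.span_singleton_pow, ← hab, map_add, Ideal.Quotient.eq_zero_iff_mem.2 ha, zero_add,
      mul_comm, show Ideal.Quotient.mk I (2 ^ n * c) = (2 : R) ^ n • Ideal.Quotient.mk I c from rfl]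
    exact Submodule.smul_mem_smul (Ideal.mem_span_singleton_self _) Submodule.mem_top
  rw [Ideal.iInf_pow_smul_eq_bot_of_isLocalRing _ (Ideal.span_singleton_eq_top.not.2 h2)] at key
  exact Ideal.Quotient.eq_zero_iff_mem.1 ((Submodule.mem_bot _).1 key)

end FLTAgent.Mod2
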