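import Fermat.Agent.Mod2.RT.Base

/-!
# R = T for the minimal problem

`exists_hom_minimal`: given `ThetaProp`, a set killing the Selmer group and a tower, a minimal
deformation comes from the Hecke algebra of level `2 m`. Modularity at that set
(`modularAt_of_selTrivial`) is pushed down to no auxiliary primes (`modularAt_empty`) in the
normalised tower.
-/

set_option autoImplicit false

noncomputable section

namespace FLTAgent.Mod2

open Matrix IsLocalRing

namespace Tower

variable {D : Setup}

/-- Minimal deformations are modular of level `2 m`. -/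
theorem exists_hom_minimal (W : Tower D) (hθ : D.ThetaProp) {S : Finset D.Aux}
    (hS : D.SelTrivial S) (B : Type) [CommRing B] [IsLocalRing B] [Algebra ℤ_[2] B]
    [Module.Finite ℤ_[2] B] (hres : Nonempty (B →+* ZMod 2)) (u : ℕ → B) (r : Gal2 →* Mat2 B)
    (hr : D.IsDef ∅ u r) :
    ∃ f : CuspForm.heckeAlgebra (2 * D.m) 2 ∅ →+* B,
      ∀ (l : ℕ) (hl : l.Prime) (hlN : ¬ l ∣ 2 * D.m)
        (A : ValuationSubring (AlgebraicClosure ℚ)), A.LiesOverPrime l →
          ∀ φ : Gal2, A.IsFrobeniusAt φ l →
            f (CuspForm.heckeAlgebra.T hl hlN (Set.notMem_empty l)) = (r φ).trace := by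
  have hW := W.isNormalized_normalize
  obtain ⟨g, hg⟩ := modularAt_empty hW S (modularAt_of_selTrivial hθ hS hW) B hres u r hr
  refine ⟨(g.toRingHom.comp (Ideal.Quotient.mk (W.normalize.newI ∅ ∅))).comp W.normalize.hecke,
    fun l hl hlN A hA φ hφ => ?_⟩
  have hn : ¬ D.IsSpecial ∅ l := by
    rintro ⟨-, h | ⟨s, hs, -⟩⟩
    · exact hlN h
    · exact Finset.notMem_empty s hs
  rw [RingHom.comp_apply, RingHom.comp_apply, W.normalize.hecke_T l hl hlN]
  exact (hg l hl).trans (eigenval_of_not_special hr hl hn hA hφ)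

end Tower

end FLTAgent.Mod2
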