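import Fermat.Agent.Mod2.RT.Modular
import Fermat.Agent.LocP.Place

/-!
# Deformations in characteristic 2: the shape on a decomposition group

`IsModTwo` is a deformation over a local ring of characteristic two with any residue field; it is
obtained from `IsDef` (`IsDef.isModTwo`) and stable under quotients (`IsModTwo.quot`). At a
standard place of a special prime the decomposition group lands in `C + C Z` for a nilpotent `Z`
of rank one (`exists_local`).
-/

set_option autoImplicit false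

noncomputable section

namespace FLTAgent.Mod2

open Matrix IsLocalRing
open scoped Pointwise

section Residual

variable (C : Type) [CommRing C] [CharP C 2]

/-- `𝔽₂ → C`. -/
def castTwo : ZMod 2 →+* C := ZMod.castHom dvd_rfl C

end Residual

namespace Setup

variable {D : Setup}

theorem det_rho (σ : Gal2) : (D.rho σ).det = 1 := by
  have h1 : ∀ z : ZMod 2, IsUnit z → z = 1 := by decide
  exact h1 _ (((Group.isUnit σ).map D.rho).map Matrix.detMonoidHom)

theorem mat2_sign : ∀ a b : Mat2 (ZMod 2), a.det = 1 → b.det = 1 →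
    ((a * b) ^ 3 = 1 ↔ (a ^ 3 = 1 ↔ b ^ 3 = 1)) := by
  decide +kernel

theorem inK_mul (σ τ : Gal2) : D.InK (σ * τ) ↔ (D.InK σ ↔ D.InK τ) := by
  unfold InK
  rw [map_mul]
  exact mat2_sign _ _ (det_rho σ) (det_rho τ)

theorem inK_conj (g σ : Gal2) : D.InK (g * σ * g⁻¹) ↔ D.InK σ := by
  unfold InK
  rw [← map_pow, conj_pow, map_mul, map_mul, map_pow]
  constructor <;> intro h
  · have := congrArg (fun M => D.rho g⁻¹ * M * D.rho g) h
    simp only [← mul_assoc, mul_one, ← map_mul, inv_mul_cancel, map_one, one_mul] at this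
    rwa [mul_assoc, ← map_mul, inv_mul_cancel, map_one, mul_one] at this
  · rw [h, mul_one, ← map_mul, mul_inv_cancel, map_one]

/-- A place with a standard transposition: in inertia, or a Frobenius element. -/
def IsStdPlace (D : Setup) (v : ℕ) (A : ValuationSubring (AlgebraicClosure ℚ)) : Prop :=
  A.LiesOverPrime v ∧ ((∃ σ ∈ A.inertiaSubgroupIn ℚ, D.rho σ = !![1, 1; 0, 1]) ∨
    ∃ φ : Gal2, A.IsFrobeniusAt φ v ∧ D.rho φ = !![1, 1; 0, 1])

theorem exists_isStdPlace {S : Finset D.Aux} {v : ℕ} (hv : D.IsSpecial S v) :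
    ∃ A, D.IsStdPlace v A := by
  obtain ⟨hp, h | ⟨s, -, rfl⟩⟩ := hv
  · obtain ⟨A, hA, σ, hσ, e⟩ := D.exists_inertia_standard hp h
    exact ⟨A, hA, .inl ⟨σ, hσ, e⟩⟩
  · obtain ⟨A, hA, φ, hφ, e⟩ := D.exists_frobenius_standard s
    exact ⟨A, hA, .inr ⟨φ, hφ, e⟩⟩

variable (D) {C : Type} [CommRing C] [IsLocalRing C] [CharP C 2]

/-- A deformation over a local ring of characteristic `2`, with arbitrary residue field. -/
structure IsModTwo (S : Finset D.Aux) (u : ℕ → C) (r : Gal2 →* Mat2 C) : Prop where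
  cont : ∃ L : IntermediateField ℚ (AlgebraicClosure ℚ), FiniteDimensional ℚ L ∧
    ∀ σ : Gal2, (∀ x ∈ L, σ x = x) → r σ = 1
  res : ∀ σ i j, r σ i j - castTwo C (D.rho σ i j) ∈ maximalIdeal C
  det : ∀ σ, (r σ).det = 1
  unram : ∀ q : ℕ, q.Prime → ¬ D.IsSpecial S q → IsUnram r q
  sq : ∀ v, D.IsSpecial S v → u v ^ 2 = 1
  inertia : ∀ v, D.IsSpecial S v → ∀ A : ValuationSubring (AlgebraicClosure ℚ), A.LiesOverPrime v →
    ∀ σ ∈ A.inertiaSubgroupIn ℚ, ∀ τ ∈ A.inertiaSubgroupIn ℚ, (r σ - 1) * (r τ - 1) = 0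
  quotient : ∀ v, D.IsSpecial S v → ∀ A : ValuationSubring (AlgebraicClosure ℚ),
    A.LiesOverPrime v → ∀ σ ∈ A.inertiaSubgroupIn ℚ, ∀ φ : Gal2, A.IsFrobeniusAt φ v →
      (r σ - 1) * (r φ - u v • 1) = 0
  line : ∀ v, D.IsSpecial S v → ∀ A : ValuationSubring (AlgebraicClosure ℚ),
    A.LiesOverPrime v → ∀ σ ∈ A.inertiaSubgroupIn ℚ, ∀ φ : Gal2, A.IsFrobeniusAt φ v →
      (r φ - u v • 1) * (r σ - 1) = 0
  trace_inertia : ∀ v, D.IsSpecial S v → ∀ A : ValuationSubring (AlgebraicClosure ℚ),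
    A.LiesOverPrime v → ∀ σ ∈ A.inertiaSubgroupIn ℚ, (r σ).trace = 0
  trace_frob : ∀ v, D.IsSpecial S v → ∀ A : ValuationSubring (AlgebraicClosure ℚ),
    A.LiesOverPrime v → ∀ φ : Gal2, A.IsFrobeniusAt φ v → (r φ).trace = 0

variable {D}

theorem algebraMap_chi2_eq_one [Algebra ℤ_[2] C] (σ : Gal2) :
    algebraMap ℤ_[2] C (chi2 σ) = 1 := by
  have h0 : PadicInt.toZMod (chi2 σ - 1) = 0 := by
    rw [map_sub, map_one, chi2_ne_zero_mod_two, sub_self]
  rw [← RingHom.mem_ker, PadicInt.ker_toZMod, PadicInt.maximalIdeal_eq_span_p,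
    Ideal.mem_span_singleton] at h0
  obtain ⟨c, hc⟩ := h0
  rw [← sub_eq_zero, ← map_one (algebraMap ℤ_[2] C), ← map_sub, hc, map_mul, map_natCast,
    show ((2 : ℕ) : C) = 0 from CharP.cast_eq_zero C 2, zero_mul]

/-- Deformations over an algebra of characteristic 2 give mod two data after any extension. -/
theorem IsDef.isModTwo {B : Type} [CommRing B] [Algebra ℤ_[2] B] {S : Finset D.Aux} {u : ℕ → B}
    {r : Gal2 →* Mat2 B} (h : D.IsDef S u r) (red : B →+* ZMod 2) [IsLocalRing B] [CharP B 2]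
    (f : B →+* C) [IsLocalHom f] : D.IsModTwo S (fun v => f (u v)) (mapRep f r) := by
  have key : ∀ (σ : Gal2) (c : B), mapRep f r σ - f c • 1 = f.mapMatrix (r σ - c • 1) := fun σ c =>
    (map_sub_smul f (r σ) c).symm
  have key1 : ∀ σ : Gal2, mapRep f r σ - 1 = f.mapMatrix (r σ - 1) := fun σ => by
    rw [map_sub, map_one]; rfl
  refine ⟨?_, ?_, ?_, fun q hq hs => (h.unram q hq hs).map f, ?_, ?_, ?_, ?_, ?_, ?_⟩
  · obtain ⟨L, hL, hl⟩ := h.cont 1
    refine ⟨L, hL, fun σ hσ => ?_⟩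
    have h0 : r σ - 1 = 0 := by
      ext i j
      obtain ⟨c, hc⟩ := hl σ hσ i j
      rw [hc, pow_one, CharTwo.two_eq_zero, zero_mul, Matrix.zero_apply]
    show f.mapMatrix (r σ) = 1
    rw [sub_eq_zero.1 h0, map_one]
  · intro σ i j
    have h1 : red (r σ i j - castTwo B (D.rho σ i j)) = 0 := by
      rw [map_sub, ← RingHom.comp_apply red (castTwo B),
        show red.comp (castTwo B) = RingHom.id (ZMod 2) from RingHom.ext_zmod _ _, RingHom.id_apply,
        sub_eq_zero, ← h.lifts red σ]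
      rfl
    have h2 : r σ i j - castTwo B (D.rho σ i j) ∈ maximalIdeal B := fun hu =>
      (hu.map red).ne_zero h1
    have e : f (castTwo B (D.rho σ i j)) = castTwo C (D.rho σ i j) :=
      RingHom.congr_fun (RingHom.ext_zmod (f.comp (castTwo B)) (castTwo C)) _
    rw [mapRep_apply, Matrix.map_apply, ← e, ← map_sub]
    exact fun hu => h2 (isUnit_of_map_unit f _ hu)
  · intro σ
    rw [mapRep_apply, det_map, h.det, algebraMap_chi2_eq_one (C := B), map_one]
  · intro v hv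
    rw [← map_pow, (h.special v hv).sq, map_one]
  · intro v hv A hA σ hσ τ hτ
    have h1 := (h.special v hv).inertia A hA σ hσ τ hτ
    rw [algebraMap_chi2_eq_one (C := B), one_smul] at h1
    rw [key1, key1, ← map_mul, h1, map_zero]
  · intro v hv A hA σ hσ φ hφ
    have h1 := (h.special v hv).quotient A hA σ hσ φ hφ
    rw [algebraMap_chi2_eq_one (C := B), one_smul] at h1
    rw [key1, key, ← map_mul, h1, map_zero]
  · intro v hv A hA σ hσ φ hφ
    have h1 := (h.special v hv).line A hA σ hσ φ hφ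
    rw [algebraMap_chi2_eq_one (C := B), one_mul] at h1
    rw [key1, key, ← map_mul, h1, map_zero]
  · intro v hv A hA σ hσ
    rw [mapRep_apply, trace_map, (h.special v hv).trace_inertia A hA σ hσ,
      algebraMap_chi2_eq_one (C := B), CharTwo.add_self_eq_zero, map_zero]
  · intro v hv A hA φ hφ
    rw [mapRep_apply, trace_map, (h.special v hv).trace_frob A hA φ hφ,
      algebraMap_chi2_eq_one (C := B), CharTwo.add_self_eq_zero, mul_zero, map_zero]

variable {S : Finset D.Aux} {u : ℕ → C} {r : Gal2 →* Mat2 C}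

/-- Reduction modulo a proper ideal. -/
theorem IsModTwo.quot (h : D.IsModTwo S u r) (J : Ideal C) [CharP (C ⧸ J) 2] [IsLocalRing (C ⧸ J)] :
    D.IsModTwo S (fun v => Ideal.Quotient.mk J (u v)) (mapRep (Ideal.Quotient.mk J) r) := by
  set f := Ideal.Quotient.mk J
  have key : ∀ (σ : Gal2) (c : C), mapRep f r σ - f c • 1 = f.mapMatrix (r σ - c • 1) := fun σ c =>
    (map_sub_smul f (r σ) c).symm
  have key1 : ∀ σ : Gal2, mapRep f r σ - 1 = f.mapMatrix (r σ - 1) := fun σ => by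
    rw [map_sub, map_one]; rfl
  have : IsLocalHom f := IsLocalHom.of_surjective _ Ideal.Quotient.mk_surjective
  refine ⟨?_, ?_, ?_, fun q hq hs A hA σ hσ => by
    show f.mapMatrix (r σ) = 1
    rw [h.unram q hq hs A hA σ hσ, map_one], ?_, ?_, ?_, ?_, ?_, ?_⟩
  · obtain ⟨L, hL, hl⟩ := h.cont
    exact ⟨L, hL, fun σ hσ => by show f.mapMatrix (r σ) = 1; rw [hl σ hσ, map_one]⟩
  · intro σ i j
    have e : f (castTwo C (D.rho σ i j)) = castTwo (C ⧸ J) (D.rho σ i j) :=
      RingHom.congr_fun (RingHom.ext_zmod (f.comp (castTwo C)) (castTwo (C ⧸ J))) _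
    rw [mapRep_apply, Matrix.map_apply, ← e, ← map_sub]
    exact fun hu => h.res σ i j (isUnit_of_map_unit f _ hu)
  · intro σ; rw [mapRep_apply, det_map, h.det, map_one]
  · intro v hv; rw [← map_pow, h.sq v hv, map_one]
  · intro v hv A hA σ hσ τ hτ
    rw [key1, key1, ← map_mul, h.inertia v hv A hA σ hσ τ hτ, map_zero]
  · intro v hv A hA σ hσ φ hφ
    rw [key1, key, ← map_mul, h.quotient v hv A hA σ hσ φ hφ, map_zero]
  · intro v hv A hA σ hσ φ hφ
    rw [key1, key, ← map_mul, h.line v hv A hA σ hσ φ hφ, map_zero]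
  · intro v hv A hA σ hσ
    rw [mapRep_apply, trace_map, h.trace_inertia v hv A hA σ hσ, map_zero]
  · intro v hv A hA φ hφ
    rw [mapRep_apply, trace_map, h.trace_frob v hv A hA φ hφ, map_zero]

/-- The common centraliser of a nilpotent of rank one is its span. -/
theorem eq_smul_of_mul_eq_zero {Z M : Mat2 C} (h01 : IsUnit (Z 0 1)) (htr : Z.trace = 0)
    (h1 : M * Z = 0) (h2 : Z * M = 0) (hZ : Z * Z = 0) : ∃ β : C, M = β • Z := by
  obtain ⟨z, hz⟩ := h01
  refine ⟨M 0 1 * ((z⁻¹ : Cˣ) : C), ?_⟩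
  rw [Matrix.trace_fin_two] at htr
  have hz' : Z 0 1 * ((z⁻¹ : Cˣ) : C) = 1 := by rw [← hz, Units.mul_inv]
  have a := congrFun (congrFun h1 0) 1
  have b := congrFun (congrFun h2 0) 1
  have c := congrFun (congrFun h2 0) 0
  have d := congrFun (congrFun hZ 0) 0
  simp only [Matrix.mul_apply, Fin.sum_univ_two, Matrix.zero_apply] at a b c d
  have e00 : M 0 0 = M 0 1 * ((z⁻¹ : Cˣ) : C) * Z 0 0 := by
    linear_combination ((z⁻¹ : Cˣ) : C) * a - M 0 0 * hz' - M 0 1 * ((z⁻¹ : Cˣ) : C) * htr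
  have e11 : M 1 1 = M 0 1 * ((z⁻¹ : Cˣ) : C) * Z 1 1 := by
    linear_combination ((z⁻¹ : Cˣ) : C) * b - M 1 1 * hz' - M 0 1 * ((z⁻¹ : Cˣ) : C) * htr
  ext i j
  fin_cases i <;> fin_cases j
  · simpa using e00
  · show M 0 1 = M 0 1 * ((z⁻¹ : Cˣ) : C) * Z 0 1
    linear_combination -(M 0 1) * hz'
  · show M 1 0 = M 0 1 * ((z⁻¹ : Cˣ) : C) * Z 1 0
    linear_combination ((z⁻¹ : Cˣ) : C) * c - M 1 0 * hz' - ((z⁻¹ : Cˣ) : C) * Z 0 0 * e00 -
      M 0 1 * ((z⁻¹ : Cˣ) : C) * ((z⁻¹ : Cˣ) : C) * d +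
      M 0 1 * ((z⁻¹ : Cˣ) : C) * Z 1 0 * hz'
  · simpa using e11

/-- At a standard place the decomposition group maps into `C + C Z`. -/
theorem IsModTwo.exists_local (h : D.IsModTwo S u r) {v : ℕ} (hv : D.IsSpecial S v)
    {A : ValuationSubring (AlgebraicClosure ℚ)} (hA : D.IsStdPlace v A) :
    ∃ Z : Mat2 C, (∀ i j, Z i j - castTwo C ((!![0, 1; 0, 0] : Mat2 (ZMod 2)) i j) ∈ maximalIdeal C)
      ∧ Z.trace = 0 ∧ Z * Z = 0 ∧
      (∀ σ ∈ A.inertiaSubgroupIn ℚ, ∃ β : C, r σ = 1 + β • Z) ∧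
      (∀ φ : Gal2, A.IsFrobeniusAt φ v → ∃ β : C, r φ = u v • 1 + β • Z) ∧
      ∀ g ∈ A.decompositionSubgroup ℚ, ∃ α β : C, r g = α • 1 + β • Z := by
  obtain ⟨hAv, hstd⟩ := hA
  obtain ⟨w, hw, hwred, hwtr, hwI, hwF⟩ : ∃ w : Mat2 C, w * w = 0 ∧
      (∀ i j, w i j - castTwo C ((!![0, 1; 0, 0] : Mat2 (ZMod 2)) i j) ∈ maximalIdeal C) ∧
      w.trace = 0 ∧ (∀ τ ∈ A.inertiaSubgroupIn ℚ, (r τ - 1) * w = 0 ∧ w * (r τ - 1) = 0) ∧
      (∀ φ : Gal2, A.IsFrobeniusAt φ v → (r φ - u v • 1) * w = 0 ∧ w * (r φ - u v • 1) = 0) := by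
    have hu1 : u v - 1 ∈ maximalIdeal C := by
      have e : (u v - 1) ^ 2 = 0 := by
        linear_combination h.sq v hv - (u v - 1) * (CharTwo.two_eq_zero (R := C))
      exact (maximalIdeal.isMaximal C).isPrime.mem_of_pow_mem 2 (e ▸ zero_mem _)
    rcases hstd with ⟨σ, hσ, e⟩ | ⟨φ, hφ, e⟩
    · refine ⟨r σ - 1, h.inertia v hv A hAv σ hσ σ hσ, fun i j => ?_, ?_,
        fun τ hτ => ⟨h.inertia v hv A hAv τ hτ σ hσ, h.inertia v hv A hAv σ hσ τ hτ⟩,
        fun φ hφ => ⟨h.line v hv A hAv σ hσ φ hφ, h.quotient v hv A hAv σ hσ φ hφ⟩⟩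
      · have := h.res σ i j
        rw [e] at this
        fin_cases i <;> fin_cases j <;> simpa using this
      · rw [Matrix.trace_sub, h.trace_inertia v hv A hAv σ hσ, Matrix.trace_one]
        simp [CharTwo.two_eq_zero]
    · have htr : (r φ - u v • 1).trace = 0 := by
        rw [Matrix.trace_sub, h.trace_frob v hv A hAv φ hφ, Matrix.trace_smul, Matrix.trace_one]
        simp [CharTwo.two_eq_zero]
      have hdet : (r φ - u v • (1 : Mat2 C)).det = 0 := by
        have h1 := h.det φ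
        have h2 := h.trace_frob v hv A hAv φ hφ
        rw [Matrix.det_fin_two] at h1
        rw [Matrix.trace_fin_two] at h2
        rw [Matrix.det_fin_two]
        simp only [Matrix.sub_apply, Matrix.smul_apply, Matrix.one_apply_eq, ne_eq, zero_ne_one,
          one_ne_zero, not_false_eq_true, Matrix.one_apply_ne, smul_eq_mul, mul_one, mul_zero,
          sub_zero]
        linear_combination h1 + h.sq v hv - u v * h2 + CharTwo.two_eq_zero (R := C)
      refine ⟨r φ - u v • 1, by rw [Mat2.mul_self_eq, htr, hdet, zero_smul, zero_smul, sub_self],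
        fun i j => ?_, htr, fun τ hτ => ⟨h.quotient v hv A hAv τ hτ φ hφ,
          h.line v hv A hAv τ hτ φ hφ⟩, fun φ' hφ' => ?_⟩
      · have := h.res φ i j
        rw [e] at this
        fin_cases i <;> fin_cases j
        · simpa using sub_mem this hu1
        · simpa using this
        · simpa using this
        · simpa using sub_mem this hu1
      · have hi := GalCommon.inv_mul_mem_inertia hφ hφ'
        set w := r φ - u v • (1 : Mat2 C)
        have hq : (r (φ⁻¹ * φ') - 1) * w = 0 := h.quotient v hv A hAv _ hi φ hφ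
        have hl : w * (r (φ⁻¹ * φ') - 1) = 0 := h.line v hv A hAv _ hi φ hφ
        have e' : r φ' - u v • (1 : Mat2 C) = r φ * (r (φ⁻¹ * φ') - 1) + w := by
          rw [mul_sub, ← map_mul, mul_inv_cancel_left, mul_one]
          simp [w]
        have hrφ : r φ = w + u v • (1 : Mat2 C) := (sub_add_cancel _ _).symm
        have hsq : w * w = 0 := by rw [Mat2.mul_self_eq, htr, hdet, zero_smul, zero_smul, sub_self]
        have hcomm : w * r φ = r φ * w := by
          rw [hrφ, mul_add, add_mul, Matrix.mul_smul, Matrix.smul_mul, mul_one, one_mul]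
        refine ⟨?_, ?_⟩
        · rw [e', add_mul, mul_assoc, hq, mul_zero, hsq, add_zero]
        · rw [e', mul_add, ← mul_assoc, hcomm, mul_assoc, hl, mul_zero, hsq, add_zero]
  have h01 : IsUnit (w 0 1) := by
    by_contra hc
    have h1 := sub_mem (show w 0 1 ∈ maximalIdeal C from hc) (hwred 0 1)
    exact (maximalIdeal.isMaximal C).ne_top (Ideal.eq_top_of_isUnit_mem _ h1 (by simp))
  have hI : ∀ τ ∈ A.inertiaSubgroupIn ℚ, ∃ β : C, r τ = 1 + β • w := fun τ hτ => by
    obtain ⟨β, hβ⟩ := eq_smul_of_mul_eq_zero h01 hwtr (hwI τ hτ).1 (hwI τ hτ).2 hw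
    exact ⟨β, by rw [← hβ]; exact (add_sub_cancel _ _).symm⟩
  have hF : ∀ φ : Gal2, A.IsFrobeniusAt φ v → ∃ β : C, r φ = u v • 1 + β • w := fun φ hφ => by
    obtain ⟨β, hβ⟩ := eq_smul_of_mul_eq_zero h01 hwtr (hwF φ hφ).1 (hwF φ hφ).2 hw
    exact ⟨β, by rw [← hβ]; exact (add_sub_cancel _ _).symm⟩
  refine ⟨w, hwred, hwtr, hw, hI, hF, fun g hg => ?_⟩
  have hmul : ∀ {a b a' b' : C}, (a • (1 : Mat2 C) + b • w) * (a' • 1 + b' • w) =
      (a * a') • 1 + (a * b' + b * a') • w := by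
    intro a b a' b'
    rw [add_mul, mul_add, mul_add, Matrix.smul_mul, Matrix.smul_mul, Matrix.smul_mul,
      Matrix.smul_mul, Matrix.mul_smul, Matrix.mul_smul, Matrix.mul_smul, Matrix.mul_smul,
      one_mul, one_mul, mul_one, hw, smul_zero, smul_zero, add_zero, smul_smul, smul_smul,
      smul_smul, add_smul, add_assoc]
  obtain ⟨φ, hφ⟩ := GalCommon.exists_isFrobeniusAt hv.1 hAv
  have : Fact v.Prime := ⟨hv.1⟩
  obtain ⟨L, hL, hl⟩ := h.cont
  obtain ⟨n, ι, hι, hag⟩ := LocP.exists_eq_frob_pow_mul hAv hφ hg L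
  have e1 : r g = r φ ^ n * r ι := by
    have h1 : r ((φ ^ n * ι)⁻¹ * g) = 1 := hl _ fun x hx => by
      rw [AlgEquiv.mul_apply, hag x hx, ← AlgEquiv.mul_apply, inv_mul_cancel, AlgEquiv.one_apply]
    rw [← map_pow, ← map_mul, show g = φ ^ n * ι * ((φ ^ n * ι)⁻¹ * g) by group, map_mul, h1,
      mul_one]
  have hpow : ∀ n : ℕ, ∃ α β : C, r φ ^ n = α • 1 + β • w := by
    intro n
    induction n with
    | zero => exact ⟨1, 0, by simp⟩
    | succ n ih =>
      obtain ⟨a, b, hab⟩ := ih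
      obtain ⟨b', hb'⟩ := hF φ hφ
      exact ⟨_, _, by rw [pow_succ, hab, hb', hmul]⟩
  obtain ⟨a, b, hab⟩ := hpow n
  obtain ⟨b', hb'⟩ := hI ι hι
  exact ⟨_, _, by rw [e1, hab, hb']; simpa using hmul (a := a) (b := b) (a' := 1) (b' := b')⟩

end Setup

end FLTAgent.Mod2
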