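import Fermat.Agent.Mod2.RT.Fibre

/-!
# Lifting modularity from a quotient, and removing auxiliary primes

`ModularAt W S`: every deformation at `S` comes from the quotient of the tower new at `S`.
Modularity of a fibre algebra modulo a regular element lifts (`exists_hom_of_mod`); with the
inertia entry at `q` as that element, modularity at `G` gives it at `G - q` (`modularAt_erase`),
hence at the empty set (`modularAt_empty`).
-/

set_option autoImplicit false

noncomputable section

namespace FLTAgent.Mod2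

open Matrix Polynomial

namespace Tower

variable {D : Setup}

/-- Every deformation at `S` comes from the quotient of the tower new at `S`. -/
def ModularAt (W : Tower D) (S : Finset D.Aux) : Prop :=
  ∀ (B : Type) [CommRing B] [IsLocalRing B] [Algebra ℤ_[2] B] [Module.Finite ℤ_[2] B],
    Nonempty (B →+* ZMod 2) → ∀ (u : ℕ → B) (r : Gal2 →* Mat2 B), D.IsDef S u r →
      ∃ f : W.TN S →ₐ[ℤ_[2]] B, ∀ l : ℕ, l.Prime → f (W.tN S l) = eigenval S u r l

variable {W : Tower D} {S : Finset D.Aux} {B : Type} [CommRing B] [IsLocalRing B]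
  [Algebra ℤ_[2] B] [Module.Finite ℤ_[2] B] {u : ℕ → B} {r : Gal2 →* Mat2 B}

instance finite_fibre : Module.Finite ℤ_[2] (W.fibre S u r) :=
  Module.Finite.of_injective (W.fibre S u r).val.toLinearMap Subtype.val_injective

/-- The generators of the fibre algebra. -/
def gen (W : Tower D) (S : Finset D.Aux) (u : ℕ → B) (r : Gal2 →* Mat2 B) (l : ℕ)
    (hl : l.Prime) : W.fibre S u r :=
  ⟨(W.tN S l, eigenval S u r l), Algebra.subset_adjoin ⟨l, hl, rfl⟩⟩

/-- The projection of the fibre algebra. -/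
def fibreFst (W : Tower D) (S : Finset D.Aux) (u : ℕ → B) (r : Gal2 →* Mat2 B) :
    W.fibre S u r →ₐ[ℤ_[2]] W.TN S :=
  (AlgHom.fst ℤ_[2] (W.TN S) B).comp (W.fibre S u r).val

theorem fibreFst_surjective : Function.Surjective (W.fibreFst S u r) := by
  intro x
  have hx : x ∈ Algebra.adjoin ℤ_[2] (W.tN S '' {l | l.Prime}) := by rw [adjoin_tN]; trivial
  induction hx using Algebra.adjoin_induction with
  | mem y hy =>
    obtain ⟨l, hl, rfl⟩ := hy
    exact ⟨gen W S u r l hl, rfl⟩
  | algebraMap c => exact ⟨algebraMap ℤ_[2] _ c, (W.fibreFst S u r).commutes c⟩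
  | add a b _ _ ha hb =>
    obtain ⟨a', rfl⟩ := ha; obtain ⟨b', rfl⟩ := hb; exact ⟨a' + b', map_add _ _ _⟩
  | mul a b _ _ ha hb =>
    obtain ⟨a', rfl⟩ := ha; obtain ⟨b', rfl⟩ := hb; exact ⟨a' * b', map_mul _ _ _⟩

/-- Modularity of the quotient of the fibre algebra by a regular element lifts. -/
theorem exists_hom_of_mod (hr : D.IsDef S u r) (red : B →+* ZMod 2) (w : W.fibre S u r)
    (hw : W.redFibre S u r w = 0) (hreg : ∀ y, y * W.fibreFst S u r w = 0 → y = 0)
    (g : W.TN S →ₐ[ℤ_[2]] W.fibre S u r ⧸ Ideal.span {w})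
    (hg : ∀ (l : ℕ) (hl : l.Prime), g (W.tN S l) = Ideal.Quotient.mk _ (gen W S u r l hl)) :
    ∃ f : W.TN S →ₐ[ℤ_[2]] B, ∀ l : ℕ, l.Prime → f (W.tN S l) = eigenval S u r l := by
  classical
  have := isLocalRing_fibre (W := W) hr red
  have : IsNoetherianRing (W.fibre S u r) := isNoetherianRing_of_finite
  have hcomp : ∀ b : (W.fibre S u r), g (W.fibreFst S u r b) = Ideal.Quotient.mk (Ideal.span {w}) b := by
    intro b
    obtain ⟨b, hb⟩ := b
    induction hb using Algebra.adjoin_induction with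
    | mem y hy =>
      obtain ⟨l, hl, rfl⟩ := hy
      exact hg l hl
    | algebraMap c => exact g.commutes c
    | add a b ha hb iha ihb =>
      have e : (⟨a + b, add_mem ha hb⟩ : (W.fibre S u r)) = ⟨a, ha⟩ + ⟨b, hb⟩ := rfl
      rw [e, map_add, map_add, iha, ihb, map_add]
    | mul a b ha hb iha ihb =>
      have e : (⟨a * b, mul_mem ha hb⟩ : (W.fibre S u r)) = ⟨a, ha⟩ * ⟨b, hb⟩ := rfl
      rw [e, map_mul, map_mul, iha, ihb, map_mul]
  let J := RingHom.ker (W.fibreFst S u r).toRingHom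
  have hJ : J = ⊥ := by
    refine Submodule.eq_bot_of_le_smul_of_le_jacobson_bot (Ideal.span {w}) J
      (IsNoetherian.noetherian J) (fun b hb => ?_) ?_
    · have h1 := hcomp b
      rw [show W.fibreFst S u r b = 0 from hb, map_zero, eq_comm,
        Ideal.Quotient.eq_zero_iff_mem] at h1
      obtain ⟨c, rfl⟩ := Ideal.mem_span_singleton'.1 h1
      have hc : c ∈ J := hreg _ ((map_mul (W.fibreFst S u r) c w).symm.trans hb)
      rw [mul_comm, ← smul_eq_mul]
      exact Submodule.smul_mem_smul (Ideal.mem_span_singleton_self w) hc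
    · rw [IsLocalRing.jacobson_eq_maximalIdeal ⊥ bot_ne_top, Ideal.span_le, Set.singleton_subset_iff]
      intro hu
      have := hu.map (W.redFibre S u r)
      rw [hw] at this
      exact not_isUnit_zero this
  have hbij : Function.Bijective (W.fibreFst S u r) :=
    ⟨(RingHom.injective_iff_ker_eq_bot (W.fibreFst S u r).toRingHom).2 hJ, fibreFst_surjective⟩
  refine ⟨((AlgHom.snd ℤ_[2] (W.TN S) B).comp (W.fibre S u r).val).comp
    (AlgEquiv.ofBijective _ hbij).symm.toAlgHom, fun l hl => ?_⟩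
  have e : (AlgEquiv.ofBijective _ hbij).symm (W.tN S l) = gen W S u r l hl :=
    (AlgEquiv.ofBijective _ hbij).injective (by rw [AlgEquiv.apply_symm_apply]; rfl)
  show ((AlgEquiv.ofBijective _ hbij).symm (W.tN S l) : W.TN S × B).2 = _
  rw [e]; rfl

variable (hW : W.IsNormalized)

include hW in
/-- Deformations at `G - q` whose Frobenius trace at `q` is `1 + q` come from `T (G - q)`. -/
theorem exists_hom_erase {G : Finset D.Aux} {q : D.Aux} (hq : q ∈ G) (h : W.ModularAt G)
    {C : Type} [CommRing C] [IsLocalRing C] [Algebra ℤ_[2] C] [Module.Finite ℤ_[2] C]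
    (redC : C →+* ZMod 2) {u : ℕ → C} {r : Gal2 →* Mat2 C} (hr : D.IsDef (G.erase q) u r)
    (hn : D.IsNormal r)
    (htr : ∀ (A : ValuationSubring (AlgebraicClosure ℚ)), A.LiesOverPrime q.1 →
      ∀ φ : Gal2, A.IsFrobeniusAt φ q.1 → (r φ).trace = 1 + ((q.1 : ℕ) : C)) :
    ∃ g : W.TN (G.erase q) →ₐ[ℤ_[2]] C,
      ∀ l : ℕ, l.Prime → g (W.tN (G.erase q) l) = eigenval (G.erase q) u r l := by
  have hqS : ¬ D.IsSpecial (G.erase q) q.1 := q.not_special_erase G
  have hspec : ∀ v, D.IsSpecial G v → v ≠ q.1 → D.IsSpecial (G.erase q) v := by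
    rintro v ⟨hv, h | ⟨s, hs, rfl⟩⟩ hne
    · exact ⟨hv, .inl h⟩
    · exact D.isSpecial_of_mem s (Finset.mem_erase.2 ⟨fun e => hne (e ▸ rfl), hs⟩)
  have hspec' : ∀ v, D.IsSpecial (G.erase q) v → D.IsSpecial G v := fun v ⟨hv, h⟩ =>
    ⟨hv, h.imp id fun ⟨s, hs, e⟩ => ⟨s, Finset.mem_of_mem_erase hs, e⟩⟩
  have hdefG : D.IsDef G (Function.update u q.1 1) r := by
    refine ⟨hr.cont, hr.lifts, hr.det, fun v hv => ?_,
      fun l hl hns => hr.unram l hl fun h' => hns (hspec' l h')⟩
    by_cases hvq : v = q.1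
    · subst hvq
      have hur := hr.unram q.1 q.2.1 hqS
      simp only [Function.update_self]
      refine ⟨one_pow 2, ?_, ?_, ?_, ?_, ?_⟩
      · intro A hA σ hσ τ hτ
        rw [hur A hA τ hτ, sub_self, mul_zero]
      · intro A hA σ hσ φ hφ
        rw [chi2_inertia q.2.1 q.ne_two hA hσ, map_one, one_smul, hur A hA σ hσ, sub_self, zero_mul]
      · intro A hA σ hσ φ hφ
        rw [hur A hA σ hσ, sub_self, mul_zero]
      · intro A hA σ hσ
        rw [chi2_inertia q.2.1 q.ne_two hA hσ, map_one, hur A hA σ hσ, Matrix.trace_one]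
        norm_num
      · intro A hA φ hφ
        rw [chi2_frobenius q.2.1 q.ne_two hA hφ, map_natCast, one_mul, htr A hA φ hφ]
    · rw [Function.update_of_ne hvq]
      exact hr.special v (hspec v hv hvq)
  obtain ⟨f, hf⟩ := h C ⟨redC⟩ _ r hdefG
  let F : W.T G →ₐ[ℤ_[2]] C := f.comp (Ideal.Quotient.mkₐ ℤ_[2] (W.newI G G))
  have hF : ∀ l : ℕ, l.Prime → F (W.t G l) = eigenval G (Function.update u q.1 1) r l := hf
  have hFq : F (W.t G q.1) = 1 := by
    rw [hF _ q.2.1, eigenval_of_special (D.isSpecial_of_mem q hq), Function.update_self]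
  -- the representations agree
  have hrep : mapRep f.toRingHom (W.rN G) = r := by
    refine ((isNormal_rN hW G).map f).eq_of_trace_eq redC hn
      (fun σ => ((isDef_rN hW G).map f).lifts redC σ) ?_
      (fun σ => (((isDef_rN hW G).map f).det σ).trans (hdefG.det σ).symm)
    refine trace_eq_of_frobenius ((isDef_rN hW G).map f).cont hdefG.cont
      (fun σ => (((isDef_rN hW G).map f).det σ).trans (hdefG.det σ).symm) (D.badPrimes G)
      fun l hl hlT A hA φ hφ => ?_
    have hs := Setup.not_special_of_not_mem_bad hlT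
    rw [mapRep_apply, trace_map, trace_rN_frob hl hs hA hφ]
    exact (hf l hl).trans (eigenval_of_not_special hdefG hl hs hA hφ)
  have hFx : F (W.xel G q) = 0 := by
    obtain ⟨σ, hσ, e⟩ := xel_mem_entries (W := W) hq
    have h1 : (mapRep f.toRingHom (W.rN G) σ - 1) 0 1 = F (W.xel G q) := by
      rw [e]; simp [rN, F]
    rw [← h1, hrep, hr.unram q.1 q.2.1 hqS _ (Setup.auxPlace_over q) σ hσ, sub_self,
      Matrix.zero_apply]
  -- factor through the old quotient
  have hker : RingHom.ker (W.piOld G q hq).toRingHom ≤ RingHom.ker F.toRingHom := by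
    intro y hy
    obtain ⟨c, rfl⟩ := (ker_piOld hW hq y).1 hy
    show F _ = 0
    rw [map_mul, hFx, zero_mul]
  let h₀ : W.Old G q →ₐ[ℤ_[2]] C :=
    (Ideal.Quotient.liftₐ _ F fun a ha => hker ha).comp
      (Ideal.quotientKerAlgEquivOfSurjective (piOld_surjective (W := W) hq)).symm.toAlgHom
  have hh : ∀ y, h₀ (W.piOld G q hq y) = F y := by
    intro y
    have e : (Ideal.quotientKerAlgEquivOfSurjective (piOld_surjective (W := W) hq)).symm
        (W.piOld G q hq y) = Ideal.Quotient.mk _ y :=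
      (Ideal.quotientKerAlgEquivOfSurjective (piOld_surjective (W := W) hq)).injective
        (by rw [AlgEquiv.apply_symm_apply]; rfl)
    exact (congrArg (Ideal.Quotient.liftₐ _ F fun a ha => hker ha) e).trans rfl
  let g₀ : W.T (G.erase q) →ₐ[ℤ_[2]] C := h₀.comp (W.ofOld G q)
  have hg₀ : ∀ a ∈ W.newI (G.erase q) (G.erase q), g₀ a = 0 := by
    intro a ha
    refine (Ideal.span_le (I := RingHom.ker g₀.toRingHom)).2 ?_ ha
    rintro _ ⟨s, hs, rfl⟩
    show h₀ (W.ofOld G q (W.dd (G.erase q) s)) = 0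
    rw [ofOld_apply, ← piOld_dd (W := W) hq (Finset.ne_of_mem_erase hs), hh]
    have h0 : Ideal.Quotient.mkₐ ℤ_[2] (W.newI G G) (W.dd G s) = 0 :=
      Ideal.Quotient.eq_zero_iff_mem.2
        (Ideal.subset_span ⟨s, Finset.mem_of_mem_erase hs, rfl⟩)
    exact (congrArg f h0).trans (map_zero f)
  refine ⟨Ideal.Quotient.liftₐ _ g₀ hg₀, fun l hl => ?_⟩
  show h₀ (W.ofOld G q (W.t (G.erase q) l)) = _
  rw [ofOld_apply]
  by_cases hlq : l = q.1
  · subst hlq
    have h1 := congrArg h₀ (Quad.root_sq (t := W.t (G.erase q) q.1)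
      (c := ((q.1 : ℕ) : W.T (G.erase q))))
    rw [map_sub, map_mul, map_pow, ← piOld_u (W := W) hq, hh, hFq, map_natCast, map_natCast] at h1
    obtain ⟨A, hA, φ, hφ⟩ := GalCommon.exists_place_frobenius hl
    rw [eigenval_of_not_special hr hl hqS hA hφ, htr A hA φ hφ]
    linear_combination -h1
  · rw [← piOld_t (W := W) hq hl hlq, hh, hF l hl]
    by_cases hs : D.IsSpecial (G.erase q) l
    · rw [eigenval_of_special (hspec' l hs), eigenval_of_special hs, Function.update_of_ne hlq]
    · have hsG : ¬ D.IsSpecial G l := fun h' => hs (hspec l h' hlq)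
      obtain ⟨A, hA, φ, hφ⟩ := GalCommon.exists_place_frobenius hl
      rw [eigenval_of_not_special hdefG hl hsG hA hφ, eigenval_of_not_special hr hl hs hA hφ]

omit [IsLocalRing B] [Module.Finite ℤ_[2] B] in
theorem trace_fibre {r' : Gal2 →* Mat2 (W.fibre S u r)}
    (hval : mapRep (W.fibre S u r).val.toRingHom r' = pairRep (W.rN S) r) (σ : Gal2) :
    ((r' σ).trace : W.TN S × B) = ((W.rN S σ).trace, (r σ).trace) := by
  have e := trace_map (W.fibre S u r).val.toRingHom (r' σ)
  rw [← mapRep_apply, hval] at e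
  refine e.symm.trans ?_
  simp [pairRep, Matrix.trace_fin_two]

theorem gen_eq_trace (hr : D.IsDef S u r) {r' : Gal2 →* Mat2 (W.fibre S u r)}
    (hval : mapRep (W.fibre S u r).val.toRingHom r' = pairRep (W.rN S) r) {l : ℕ} (hl : l.Prime)
    (hs : ¬ D.IsSpecial S l) {A : ValuationSubring (AlgebraicClosure ℚ)} (hA : A.LiesOverPrime l)
    {φ : Gal2} (hφ : A.IsFrobeniusAt φ l) : gen W S u r l hl = (r' φ).trace := by
  apply Subtype.val_injective
  rw [trace_fibre hval, trace_rN_frob hl hs hA hφ, ← eigenval_of_not_special hr hl hs hA hφ]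
  rfl

/-- The eigenvalues over the fibre algebra. -/
theorem eigenval_fibre (hr : D.IsDef S u r) {u' : ℕ → W.fibre S u r}
    {r' : Gal2 →* Mat2 (W.fibre S u r)}
    (hval : mapRep (W.fibre S u r).val.toRingHom r' = pairRep (W.rN S) r)
    (hu' : ∀ v, D.IsSpecial S v → ((u' v : W.fibre S u r) : W.TN S × B) = (W.tN S v, u v))
    (hr' : D.IsDef S u' r') {l : ℕ} (hl : l.Prime) :
    eigenval S u' r' l = gen W S u r l hl := by
  by_cases hs : D.IsSpecial S l
  · rw [eigenval, if_pos hs]
    apply Subtype.val_injective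
    rw [hu' l hs]
    show _ = (W.tN S l, eigenval S u r l)
    rw [eigenval_of_special hs]
  · obtain ⟨A, hA, φ, hφ⟩ := GalCommon.exists_place_frobenius hl
    rw [eigenval, if_neg hs, hr'.frobTrace_eq hl hs hA hφ, gen_eq_trace hr hval hl hs hA hφ]

include hW in
/-- `exists_hom_erase` over a quotient `R ⧸ w`. -/
theorem exists_hom_erase_quot {G : Finset D.Aux} {q : D.Aux} (hq : q ∈ G) (h : W.ModularAt G)
    {R : Type} [CommRing R] [IsLocalRing R] [Algebra ℤ_[2] R] [Module.Finite ℤ_[2] R]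
    (red : R →+* ZMod 2) {u : ℕ → R} {r : Gal2 →* Mat2 R} (hr : D.IsDef (G.erase q) u r)
    (hn : D.IsNormal r) (w : R) (hw : red w = 0)
    (hwq : ∀ (A : ValuationSubring (AlgebraicClosure ℚ)), A.LiesOverPrime q.1 →
      ∀ φ : Gal2, A.IsFrobeniusAt φ q.1 → (r φ).trace = w + (1 + ((q.1 : ℕ) : R))) :
    ∃ g : W.TN (G.erase q) →ₐ[ℤ_[2]] R ⧸ Ideal.span {w}, ∀ l : ℕ, l.Prime →
      g (W.tN (G.erase q) l) = Ideal.Quotient.mk _ (eigenval (G.erase q) u r l) := by
  let mk : R →ₐ[ℤ_[2]] R ⧸ Ideal.span {w} := Ideal.Quotient.mkₐ ℤ_[2] (Ideal.span {w})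
  have : Module.Finite ℤ_[2] (R ⧸ Ideal.span {w}) :=
    Module.Finite.of_surjective mk.toLinearMap Ideal.Quotient.mk_surjective
  let redC : R ⧸ Ideal.span {w} →+* ZMod 2 := Ideal.Quotient.lift _ red fun a ha => by
    obtain ⟨c, rfl⟩ := Ideal.mem_span_singleton'.1 ha
    rw [map_mul, hw, mul_zero]
  have : Nontrivial (R ⧸ Ideal.span {w}) := redC.domain_nontrivial
  have : IsLocalRing (R ⧸ Ideal.span {w}) :=
    IsLocalRing.of_surjective' mk.toRingHom Ideal.Quotient.mk_surjective
  have hmw : mk w = 0 := Ideal.Quotient.eq_zero_iff_mem.2 (Ideal.mem_span_singleton_self w)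
  obtain ⟨g, hg⟩ := exists_hom_erase hW hq h redC (hr.map mk) (hn.map mk) fun A hA φ hφ => by
    rw [mapRep_apply, trace_map, hwq A hA φ hφ]
    show mk (w + (1 + ((q.1 : ℕ) : R))) = _
    rw [map_add, hmw, zero_add, map_add, map_one, map_natCast]
  refine ⟨g, fun l hl => (hg l hl).trans ?_⟩
  by_cases hs : D.IsSpecial (G.erase q) l
  · rw [eigenval, if_pos hs, eigenval, if_pos hs]; rfl
  · obtain ⟨A, hA, φ, hφ⟩ := GalCommon.exists_place_frobenius hl
    rw [eigenval, if_neg hs, eigenval, if_neg hs, (hr.map mk).frobTrace_eq hl hs hA hφ,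
      hr.frobTrace_eq hl hs hA hφ, mapRep_apply, trace_map]
    rfl

include hW in
/-- Removing an auxiliary prime. -/
theorem modularAt_erase {G : Finset D.Aux} {q : D.Aux} (hq : q ∈ G) (h : W.ModularAt G) :
    W.ModularAt (G.erase q) := by
  intro B _ _ _ _ hres u₀ r₀ hr₀
  obtain ⟨red⟩ := hres
  obtain ⟨P, hP, hn⟩ := Setup.exists_isNormal red (fun σ => hr₀.lifts red σ)
    (hr₀.special 2 (D.isSpecial_of_dvd Nat.prime_two (dvd_mul_right 2 D.m)))
  have hr : D.IsDef (G.erase q) u₀ (conjRep P r₀) := hr₀.conj P red hP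
  have hev : ∀ l, eigenval (G.erase q) u₀ (conjRep P r₀) l = eigenval (G.erase q) u₀ r₀ l := by
    intro l
    unfold eigenval frobTrace
    split
    · rfl
    · split
      · rw [trace_conjRep]
      · rfl
  simp only [← hev]
  have hqS : ¬ D.IsSpecial (G.erase q) q.1 := q.not_special_erase G
  have := isLocalRing_fibre (W := W) hr red
  obtain ⟨u', r', hr', hn', hval, hu'⟩ := exists_fibre_def (W := W) hW hr hn red
  let w : W.fibre (G.erase q) u₀ (conjRep P r₀) :=
    gen W (G.erase q) u₀ (conjRep P r₀) q.1 q.2.1 -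
      (((q.1 : ℕ) : W.fibre (G.erase q) u₀ (conjRep P r₀)) + 1)
  have hw : W.redFibre (G.erase q) u₀ (conjRep P r₀) w = 0 := by
    rw [map_sub, map_add, natCast_odd_red _ q.odd, map_one]
    show W.red (G.erase q) (W.t (G.erase q) q.1) - (1 + 1) = 0
    rw [red_t_erase]; decide
  have hreg : ∀ y, y * W.fibreFst (G.erase q) u₀ (conjRep P r₀) w = 0 → y = 0 := by
    intro y hy
    obtain ⟨z, rfl⟩ := Ideal.Quotient.mk_surjective y
    rw [show W.fibreFst (G.erase q) u₀ (conjRep P r₀) w =
      Ideal.Quotient.mk _ (W.t (G.erase q) q.1 - (((q.1 : ℕ) : W.T (G.erase q)) + 1)) by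
        simp only [w, map_sub, map_add, map_natCast, map_one]; rfl,
      ← map_mul, Ideal.Quotient.eq_zero_iff_mem] at hy
    refine Ideal.Quotient.eq_zero_iff_mem.2 (regular_mod (isSat_newI hW subset_rfl)
      (fun P hP' _ h2 hmem => ?_) (mul_comm z _ ▸ hy))
    have := hP'
    refine weil_prime (W := W) (Finset.notMem_erase q G) h2 ?_
    rw [sq_sub_sq]
    exact P.mul_mem_left _ hmem
  obtain ⟨g, hg⟩ := exists_hom_erase_quot hW hq h
    (R := W.fibre (G.erase q) u₀ (conjRep P r₀)) (W.redFibre (G.erase q) u₀ (conjRep P r₀))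
    hr' hn' w hw fun A hA φ hφ => by
      rw [← gen_eq_trace (W := W) hr hval q.2.1 hqS hA hφ]
      show _ = w + _
      simp only [w]; ring
  exact exists_hom_of_mod hr red w hw hreg g fun l hl =>
    (hg l hl).trans (congrArg _ (eigenval_fibre hr hval hu' hr' hl))

include hW in
/-- Modularity at a set of auxiliary primes gives modularity with no auxiliary primes. -/
theorem modularAt_empty : ∀ G : Finset D.Aux, W.ModularAt G → W.ModularAt ∅ := by
  intro G
  induction G using Finset.induction_on with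
  | empty => exact id
  | @insert q G hqG ih =>
    intro h
    apply ih
    have := modularAt_erase hW (Finset.mem_insert_self q G) h
    rwa [Finset.erase_insert hqG] at this

end Tower

end FLTAgent.Mod2
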