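import Fermat.Agent.Mod2.RT.NewQuotient

/-!
# The Hecke algebra new at all auxiliary primes of the level, as a deformation

`TN S` is the quotient of `T S` new at all primes of `S`, with generators `tN` and representation
`rN`. It is a deformation at `S` (`isDef_rN`): at an auxiliary prime `U_q² = 1`, inertia is
unipotent, and the trace of Frobenius `U_q (1 + q)` follows as the inertia entry is regular
(`rN_trace_frob`, `xN_regular`).
-/

set_option autoImplicit false

noncomputable section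

namespace FLTAgent.Mod2

open Matrix Polynomial
open Setup (auxPlace auxPlace_over auxFrob auxFrob_spec rho_auxFrob)

namespace Tower

variable {D : Setup} (W : Tower D)

/-- The quotient of `T S` new at all primes of `S`. -/
abbrev TN (S : Finset D.Aux) : Type := W.T S ⧸ W.newI S S

/-- Its generators. -/
def tN (S : Finset D.Aux) (l : ℕ) : W.TN S := Ideal.Quotient.mk _ (W.t S l)

/-- Its representation. -/
def rN (S : Finset D.Aux) : Gal2 →* Mat2 (W.TN S) :=
  mapRep (Ideal.Quotient.mkₐ ℤ_[2] (W.newI S S)).toRingHom (W.r S)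

variable {W}

theorem newI_le_ker (S : Finset D.Aux) : W.newI S S ≤ RingHom.ker (W.red S) := by
  rw [newI, Ideal.span_le]
  rintro _ ⟨s, hs, rfl⟩
  exact red_dd hs

variable (W) in
/-- Reduction. -/
def redN (S : Finset D.Aux) : W.TN S →+* ZMod 2 :=
  Ideal.Quotient.lift _ (W.red S) fun _ hx => newI_le_ker S hx

instance nontrivial_TN (S : Finset D.Aux) : Nontrivial (W.TN S) := (W.redN S).domain_nontrivial

instance isLocalRing_TN (S : Finset D.Aux) : IsLocalRing (W.TN S) :=
  IsLocalRing.of_surjective' (Ideal.Quotient.mk (W.newI S S)) Ideal.Quotient.mk_surjective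

instance finite_TN (S : Finset D.Aux) : Module.Finite ℤ_[2] (W.TN S) :=
  Module.Finite.of_surjective (Ideal.Quotient.mkₐ ℤ_[2] (W.newI S S)).toLinearMap
    Ideal.Quotient.mk_surjective

theorem adjoin_tN (S : Finset D.Aux) :
    Algebra.adjoin ℤ_[2] (W.tN S '' {l | l.Prime}) = ⊤ := by
  have h : W.tN S '' {l | l.Prime} =
      Ideal.Quotient.mkₐ ℤ_[2] (W.newI S S) '' (W.t S '' {l | l.Prime}) := by
    rw [← Set.image_comp]; rfl
  rw [h, Algebra.adjoin_image, W.adjoin_eq_top, Algebra.map_top, AlgHom.range_eq_top]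
  exact Ideal.Quotient.mk_surjective

theorem trace_rN_frob {S : Finset D.Aux} {l : ℕ} (hl : l.Prime) (hS : ¬ D.IsSpecial S l)
    {A : ValuationSubring (AlgebraicClosure ℚ)} (hA : A.LiesOverPrime l) {φ : Gal2}
    (hφ : A.IsFrobeniusAt φ l) : (W.rN S φ).trace = W.tN S l := by
  rw [rN, mapRep_apply, trace_map, W.trace_frob S l hl hS A hA φ hφ]; rfl

theorem det_rN (S : Finset D.Aux) (σ : Gal2) :
    (W.rN S σ).det = algebraMap ℤ_[2] (W.TN S) (chi2 σ) := by
  rw [rN, mapRep_apply, det_map, W.det]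
  exact (Ideal.Quotient.mkₐ ℤ_[2] (W.newI S S)).commutes _

theorem tN_sq {S : Finset D.Aux} {q : D.Aux} (hq : q ∈ S) : W.tN S q.1 ^ 2 = 1 := by
  rw [← sub_eq_zero, tN, ← map_pow, ← map_one (Ideal.Quotient.mk _), ← map_sub,
    Ideal.Quotient.eq_zero_iff_mem]
  exact Ideal.subset_span ⟨q, hq, rfl⟩

theorem rN_inertia_mul {S : Finset D.Aux} {q : D.Aux} (hq : q ∈ S)
    {A : ValuationSubring (AlgebraicClosure ℚ)} (hA : A.LiesOverPrime q.1) {σ τ : Gal2}
    (hσ : σ ∈ A.inertiaSubgroupIn ℚ) (hτ : τ ∈ A.inertiaSubgroupIn ℚ) :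
    (W.rN S σ - 1) * (W.rN S τ - 1) = 0 := by
  have h := congrArg (Ideal.Quotient.mkₐ ℤ_[2] (W.newI S S)).toRingHom.mapMatrix
    (W.aux_inertia S q hq A hA σ hσ τ hτ)
  rwa [map_mul, map_sub, map_sub, map_one, map_zero] at h

theorem rN_frob_mul {S : Finset D.Aux} {q : D.Aux} (hq : q ∈ S)
    {A : ValuationSubring (AlgebraicClosure ℚ)} (hA : A.LiesOverPrime q.1) {σ φ : Gal2}
    (hσ : σ ∈ A.inertiaSubgroupIn ℚ) (hφ : A.IsFrobeniusAt φ q.1) :
    (W.rN S φ - (((q.1 : ℕ) : W.TN S) * W.tN S q.1) • 1) * (W.rN S σ - 1) = 0 ∧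
      (W.rN S σ - 1) * (W.rN S φ - W.tN S q.1 • 1) = 0 := by
  obtain ⟨h1, h2⟩ := W.aux_frob S q hq A hA σ hσ φ hφ
  let g := (Ideal.Quotient.mkₐ ℤ_[2] (W.newI S S)).toRingHom
  have e : ∀ c : W.T S, g.mapMatrix (W.r S φ - c • 1) = W.rN S φ - g c • 1 := fun c =>
    map_sub_smul g (W.r S φ) c
  refine ⟨?_, ?_⟩
  · have h := congrArg g.mapMatrix h1
    rw [map_mul, e, map_sub, map_one, map_zero, map_mul, map_natCast] at h
    exact h
  · have h := congrArg g.mapMatrix h2
    rw [map_mul, e, map_sub, map_one, map_zero] at h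
    exact h

theorem rN_trace_inertia {S : Finset D.Aux} {q : D.Aux} (hq : q ∈ S)
    {A : ValuationSubring (AlgebraicClosure ℚ)} (hA : A.LiesOverPrime q.1) {σ : Gal2}
    (hσ : σ ∈ A.inertiaSubgroupIn ℚ) : (W.rN S σ).trace = 2 := by
  set M := W.rN S σ - 1
  have hsum : W.rN S σ = 1 + M := (add_sub_cancel _ _).symm
  have hd : (1 + M).det = 1 := by
    rw [← hsum, det_rN, chi2_inertia q.2.1 q.ne_two hA hσ, map_one]
  have hsq : M.trace • M - M.det • (1 : Mat2 (W.TN S)) = 0 := by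
    rw [← Mat2.mul_self_eq]; exact rN_inertia_mul hq hA hσ hσ
  have hdm : M.det = -M.trace := by
    have e : (1 + M).det = 1 + M.trace + M.det := by
      simp [Matrix.det_fin_two, Matrix.trace_fin_two]; ring
    rw [e] at hd; linear_combination hd
  have h0 : M.trace • W.rN S σ = 0 := by
    rw [hsum, smul_add, add_comm, ← hsq, hdm, neg_smul, sub_neg_eq_add]
  have h1 : M.trace • (1 : Mat2 (W.TN S)) = 0 := by
    have := congrArg (· * W.rN S σ⁻¹) h0
    simpa [Matrix.smul_mul, ← map_mul] using this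
  have h2 : M.trace = 0 := by simpa using congrFun (congrFun h1 0) 0
  rw [hsum, Matrix.trace_add, h2, add_zero, Matrix.trace_one]
  simp

variable (hW : W.IsNormalized)

include hW in
theorem xN_regular {S : Finset D.Aux} {q : D.Aux} (hq : q ∈ S) {y : W.TN S}
    (hy : y * Ideal.Quotient.mk _ (W.xel S q) = 0) : y = 0 := by
  obtain ⟨z, rfl⟩ := Ideal.Quotient.mk_surjective y
  rw [← map_mul, Ideal.Quotient.eq_zero_iff_mem] at hy
  exact Ideal.Quotient.eq_zero_iff_mem.2
    (xel_regular hW hq (isSat_newI hW subset_rfl) (Ideal.subset_span ⟨q, hq, rfl⟩) hy)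

include hW in
theorem rN_trace_frob {S : Finset D.Aux} {q : D.Aux} (hq : q ∈ S)
    {A : ValuationSubring (AlgebraicClosure ℚ)} (hA : A.LiesOverPrime q.1) {φ : Gal2}
    (hφ : A.IsFrobeniusAt φ q.1) :
    (W.rN S φ).trace = W.tN S q.1 * (1 + ((q.1 : ℕ) : W.TN S)) := by
  obtain ⟨g, hg⟩ := GalCommon.exists_smul_eq_of_liesOverPrime q.2.1 hA (auxPlace_over q)
  have hφ' := hg ▸ GalCommon.isFrobeniusAt_conj hφ g
  have htr : (W.rN S φ).trace = (W.rN S (g * φ * g⁻¹)).trace := by
    rw [map_mul, map_mul, Matrix.trace_mul_cycle, ← map_mul, inv_mul_cancel, map_one, one_mul]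
  rw [htr]
  set F := W.rN S (g * φ * g⁻¹)
  obtain ⟨σ, hσ, hx⟩ := xel_mem_entries (W := W) hq
  set M := W.rN S σ - 1
  set U := W.tN S q.1
  set Q : W.TN S := ((q.1 : ℕ) : W.TN S)
  obtain ⟨h1, -⟩ := rN_frob_mul (W := W) hq (auxPlace_over q) hσ hφ'
  rw [sub_mul, Matrix.smul_mul, one_mul, sub_eq_zero] at h1
  have hdet : F.det = Q := by
    rw [det_rN, chi2_frobenius q.2.1 q.ne_two (auxPlace_over q) hφ', map_natCast]
  have h2 : F * (F * M) = (F.trace • F - F.det • 1) * M := by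
    rw [← Mat2.mul_self_eq, mul_assoc]
  rw [h1, Matrix.mul_smul, h1, hdet, sub_mul, Matrix.smul_mul, Matrix.smul_mul, one_mul, h1,
    smul_smul, smul_smul, ← sub_smul] at h2
  have h3 : ((Q * U) * (Q * U) - (F.trace * (Q * U) - Q)) • M = 0 := by
    rw [sub_smul]; exact sub_eq_zero.2 h2
  have hxM : M 0 1 = Ideal.Quotient.mk _ (W.xel S q) := by
    rw [hx]; simp [M, rN]
  have h4 := xN_regular hW hq (y := (Q * U) * (Q * U) - (F.trace * (Q * U) - Q))
    (by simpa [hxM] using congrFun (congrFun h3 0) 1)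
  have hQ : IsUnit Q := (isUnit_iff_red (W.redN S)).2 (by
    rw [map_natCast]; exact ZMod.natCast_eq_one_iff_odd.2 q.odd)
  have hU : U ^ 2 = 1 := tN_sq hq
  have h5 : Q * (U * (U * (1 + Q) - F.trace)) = 0 := by
    linear_combination h4 + Q * hU
  rw [hQ.mul_right_eq_zero, (IsUnit.of_mul_eq_one U (by rw [← sq]; exact hU)).mul_right_eq_zero,
    sub_eq_zero] at h5
  exact h5.symm

include hW in
/-- The new quotient is a deformation at `S`. -/
theorem isDef_rN (S : Finset D.Aux) : D.IsDef S (W.tN S) (W.rN S) where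
  cont := (W.cont S).map _
  lifts f σ := by
    rw [rN, mapRep_apply, Matrix.map_map]
    exact W.lifts' S (f.comp (Ideal.Quotient.mkₐ ℤ_[2] (W.newI S S)).toRingHom) σ
  det := det_rN S
  unram q hq h := (W.unram S q hq h).map _
  special := by
    rintro v ⟨hv, h | ⟨q, hq, rfl⟩⟩
    · exact (W.special S v hv h).map (Ideal.Quotient.mkₐ ℤ_[2] (W.newI S S))
    · refine ⟨tN_sq hq, ?_, ?_, ?_, ?_, ?_⟩
      · intro A hA σ hσ τ hτ
        rw [chi2_inertia hv q.ne_two hA hσ, map_one, one_smul]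
        exact rN_inertia_mul hq hA hσ hτ
      · intro A hA σ hσ φ hφ
        rw [chi2_inertia hv q.ne_two hA hσ, map_one, one_smul]
        exact (rN_frob_mul hq hA hσ hφ).2
      · intro A hA σ hσ φ hφ
        rw [chi2_frobenius hv q.ne_two hA hφ, map_natCast]
        exact (rN_frob_mul hq hA hσ hφ).1
      · intro A hA σ hσ
        rw [rN_trace_inertia hq hA hσ, chi2_inertia hv q.ne_two hA hσ, map_one]
        norm_num
      · intro A hA φ hφ
        rw [rN_trace_frob hW hq hA hφ, chi2_frobenius hv q.ne_two hA hφ, map_natCast]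

/-- It is normalised if the tower is. -/
theorem isNormal_rN (hW : W.IsNormalized) (S : Finset D.Aux) : D.IsNormal (W.rN S) :=
  (hW S).map _

end Tower

end FLTAgent.Mod2
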