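import Fermat.Agent.Mod2.RT.TowerNormal

/-!
# The quotients of the tower that are new at a set of auxiliary primes

`T G ⧸ (U_s ^ 2 - 1 : s ∈ S)` is torsion-free (`isSat_newI`) and the inertia entry `x_s` is regular
on it (`xel_regular`). Both are proved by a recursion through the old quotients (`goodAt`), using
Ihara's lemma, Mazur's principle and the Weil bound; the kernel of `piOld` is generated by `x_q`
(`ker_piOld`).
-/

set_option autoImplicit false

noncomputable section

namespace FLTAgent.Mod2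

open Matrix Polynomial

namespace Setup

variable {D : Setup}

/-- A chosen place over an auxiliary prime. -/
def auxPlace (q : D.Aux) : ValuationSubring (AlgebraicClosure ℚ) :=
  (D.exists_frobenius_standard q).choose

theorem auxPlace_over (q : D.Aux) : (auxPlace q).LiesOverPrime q.1 :=
  (D.exists_frobenius_standard q).choose_spec.1

/-- A chosen Frobenius element with standard residual image. -/
def auxFrob (q : D.Aux) : Gal2 := (D.exists_frobenius_standard q).choose_spec.2.choose

theorem auxFrob_spec (q : D.Aux) : (auxPlace q).IsFrobeniusAt (auxFrob q) q.1 :=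
  (D.exists_frobenius_standard q).choose_spec.2.choose_spec.1

theorem rho_auxFrob (q : D.Aux) : D.rho (auxFrob q) = !![1, 1; 0, 1] :=
  (D.exists_frobenius_standard q).choose_spec.2.choose_spec.2

end Setup

open Setup (auxPlace auxPlace_over auxFrob auxFrob_spec rho_auxFrob)

theorem inertia_transfer {B : Type} [CommRing B] (r : Gal2 →* Mat2 B) {q : ℕ} (hq : q.Prime)
    {A : ValuationSubring (AlgebraicClosure ℚ)} (hA : A.LiesOverPrime q) (I : Ideal B)
    (h : ∀ σ ∈ A.inertiaSubgroupIn ℚ, ∀ i j, (r σ - 1) i j ∈ I)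
    (A' : ValuationSubring (AlgebraicClosure ℚ)) (hA' : A'.LiesOverPrime q) :
    ∀ σ ∈ A'.inertiaSubgroupIn ℚ, ∀ i j, (r σ - 1) i j ∈ I := by
  intro σ hσ i j
  obtain ⟨g, hg⟩ := GalCommon.exists_smul_eq_of_liesOverPrime hq hA' hA
  have hσ' := hg ▸ GalCommon.mem_inertia_conj hσ g
  let f := (Ideal.Quotient.mk I).mapMatrix (m := Fin 2)
  have h1 : f (r (g * σ * g⁻¹)) = 1 := by
    rw [← sub_eq_zero, ← map_one f, ← map_sub]
    ext k l
    exact Ideal.Quotient.eq_zero_iff_mem.2 (h _ hσ' k l)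
  have h2 : f (r σ) = 1 := by
    have e : σ = g⁻¹ * (g * σ * g⁻¹) * g := by group
    rw [e, map_mul, map_mul, map_mul, map_mul, h1, mul_one, ← map_mul, ← map_mul, inv_mul_cancel,
      map_one, map_one]
  have h3 : f (r σ - 1) = 0 := by rw [map_sub, h2, map_one, sub_self]
  exact Ideal.Quotient.eq_zero_iff_mem.1 (congrFun (congrFun h3 i) j)

namespace Tower

variable {D : Setup} (W : Tower D)

/-- The element cutting out the new quotient at `s`. -/
def dd (G : Finset D.Aux) (s : D.Aux) : W.T G := W.t G s.1 ^ 2 - 1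

/-- The ideal cutting out the quotient new at `S`. -/
def newI (G S : Finset D.Aux) : Ideal (W.T G) := Ideal.span (W.dd G '' S)

theorem newI_empty (G : Finset D.Aux) : W.newI G ∅ = ⊥ := by simp [newI]

theorem newI_insert (G S : Finset D.Aux) (q : D.Aux) :
    W.newI G (insert q S) = W.newI G S ⊔ Ideal.span {W.dd G q} := by
  rw [newI, Finset.coe_insert, Set.image_insert_eq, Ideal.span_insert, sup_comm]
  rfl

/-- The inertia entry at `q`. -/
def xel (G : Finset D.Aux) (q : D.Aux) : W.T G :=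
  if hq : q ∈ G then
    (W.r G (W.aux_cyclic G q hq (auxPlace q) (auxPlace_over q)).choose - 1) 0 1
  else 0

variable {W}

theorem red_xel (G : Finset D.Aux) (q : D.Aux) : W.red G (W.xel G q) = 0 := by
  unfold xel
  split
  · rename_i hq
    have h := (W.aux_cyclic G q hq (auxPlace q) (auxPlace_over q)).choose_spec.1
    have : D.rho (W.aux_cyclic G q hq (auxPlace q) (auxPlace_over q)).choose = 1 :=
      D.unram q.1 q.2.1 q.2.2.1 _ (auxPlace_over q) _ h
    rw [Matrix.sub_apply, map_sub]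
    have e := congrFun (congrFun ((W.lifts G _).trans this) 0) 1
    rw [Matrix.map_apply] at e
    rw [e]
    simp
  · exact map_zero _

theorem red_dd {G : Finset D.Aux} {q : D.Aux} (hq : q ∈ G) : W.red G (W.dd G q) = 0 := by
  rw [dd, map_sub, map_pow, W.red_t G q.1 (D.isSpecial_of_mem q hq), one_pow, map_one, sub_self]

/-- All inertia entries at `q` are multiples of `xel`. -/
theorem inertia_entry_dvd {G : Finset D.Aux} {q : D.Aux} (hq : q ∈ G) {σ : Gal2}
    (hσ : σ ∈ (auxPlace q).inertiaSubgroupIn ℚ) (i j : Fin 2) :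
    W.xel G q ∣ (W.r G σ - 1) i j := by
  have hspec := (W.aux_cyclic G q hq (auxPlace q) (auxPlace_over q)).choose_spec
  set σ₀ := (W.aux_cyclic G q hq (auxPlace q) (auxPlace_over q)).choose
  obtain ⟨c, hc⟩ := hspec.2 σ hσ
  rw [hc, Matrix.smul_apply, smul_eq_mul]
  refine Dvd.dvd.mul_left ?_ c
  obtain ⟨hN', hN⟩ := W.aux_frob G q hq (auxPlace q) (auxPlace_over q) σ₀ hspec.1 (auxFrob q)
    (auxFrob_spec q)
  set M := W.r G σ₀ - 1
  have hx : W.xel G q = M 0 1 := dif_pos hq
  set N := W.r G (auxFrob q) - W.t G q.1 • (1 : Mat2 (W.T G))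
  set N' := W.r G (auxFrob q) - (((q.1 : ℕ) : W.T G) * W.t G q.1) • (1 : Mat2 (W.T G))
  have hF : W.red G (W.r G (auxFrob q) 0 1) = 1 := by
    have e := congrFun (congrFun ((W.lifts G (auxFrob q)).trans (rho_auxFrob q)) 0) 1
    simpa using e
  obtain ⟨a, ha⟩ : IsUnit (N 0 1) := (isUnit_iff_red (W.red G)).2 (by simpa [N] using hF)
  obtain ⟨b, hb⟩ : IsUnit (N' 0 1) := (isUnit_iff_red (W.red G)).2 (by simpa [N'] using hF)
  have e1 : ∀ i : Fin 2, M i 0 = -(M i 1 * N 1 1) * ((a⁻¹ : (W.T G)ˣ) : W.T G) := fun i => by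
    have h := congrFun (congrFun hN i) 1
    rw [Matrix.mul_apply, Fin.sum_univ_two, Matrix.zero_apply, ← ha] at h
    linear_combination ((a⁻¹ : (W.T G)ˣ) : W.T G) * h - M i 0 * Units.mul_inv a
  have e2 : ∀ j : Fin 2, M 1 j = -(N' 0 0 * M 0 j) * ((b⁻¹ : (W.T G)ˣ) : W.T G) := fun j => by
    have h := congrFun (congrFun hN' 0) j
    rw [Matrix.mul_apply, Fin.sum_univ_two, Matrix.zero_apply, ← hb] at h
    linear_combination ((b⁻¹ : (W.T G)ˣ) : W.T G) * h - M 1 j * Units.mul_inv b
  have h00 : W.xel G q ∣ M 0 0 := by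
    rw [e1 0, hx]; exact dvd_mul_of_dvd_left (dvd_neg.2 (dvd_mul_right _ _)) _
  fin_cases i <;> fin_cases j
  · exact h00
  · exact hx ▸ dvd_rfl
  · show _ ∣ M 1 0
    rw [e2 0]; exact dvd_mul_of_dvd_left (dvd_neg.2 (h00.mul_left _)) _
  · show _ ∣ M 1 1
    rw [e2 1, hx]; exact dvd_mul_of_dvd_left (dvd_neg.2 (dvd_mul_left _ _)) _

theorem xel_mem_entries {G : Finset D.Aux} {q : D.Aux} (hq : q ∈ G) :
    ∃ σ ∈ (auxPlace q).inertiaSubgroupIn ℚ, W.xel G q = (W.r G σ - 1) 0 1 :=
  ⟨_, (W.aux_cyclic G q hq (auxPlace q) (auxPlace_over q)).choose_spec.1, dif_pos hq⟩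

variable (hW : W.IsNormalized)

include hW in
theorem piOld_entry {G : Finset D.Aux} {q : D.Aux} (hq : q ∈ G) (σ : Gal2) (i j : Fin 2) :
    W.piOld G q hq ((W.r G σ - 1) i j) = W.ofOld G q ((W.r (G.erase q) σ - 1) i j) := by
  have h := congrFun (congrFun (DFunLike.congr_fun (piOld_rep hW hq) σ) i) j
  simp only [mapRep_apply, Matrix.map_apply] at h
  rw [Matrix.sub_apply, Matrix.sub_apply, map_sub, map_sub, Matrix.one_apply, Matrix.one_apply]
  refine congrArg₂ (· - ·) h ?_
  split <;> simp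

include hW in
theorem piOld_xel {G : Finset D.Aux} {q : D.Aux} (hq : q ∈ G) :
    W.piOld G q hq (W.xel G q) = 0 := by
  obtain ⟨σ, hσ, e⟩ := xel_mem_entries (W := W) hq
  rw [e, piOld_entry hW hq, W.unram (G.erase q) q.1 q.2.1 (q.not_special_erase G) (auxPlace q)
    (auxPlace_over q) σ hσ, sub_self, Matrix.zero_apply, map_zero]

include hW in
theorem xel_mul_dd {G : Finset D.Aux} {q : D.Aux} (hq : q ∈ G) :
    W.xel G q * W.dd G q = 0 :=
  (W.ker_pi G q hq _).1 (piOld_xel hW hq)

theorem piOld_dd_self {G : Finset D.Aux} {q : D.Aux} (hq : q ∈ G) :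
    W.piOld G q hq (W.dd G q) = AdjoinRoot.root _ ^ 2 - 1 := by
  rw [dd, map_sub, map_pow, piOld_u, map_one]

theorem piOld_dd {G : Finset D.Aux} {q : D.Aux} (hq : q ∈ G) {s : D.Aux} (hs : s ≠ q) :
    W.piOld G q hq (W.dd G s) = AdjoinRoot.of _ (W.dd (G.erase q) s) := by
  rw [dd, dd, map_sub, map_pow, piOld_t hq s.2.1 fun h => hs (Subtype.ext h), map_one, map_sub,
    map_pow, map_one]

theorem piOld_eq_zero_iff {G : Finset D.Aux} {q : D.Aux} (hq : q ∈ G) (y : W.T G) :
    W.piOld G q hq y = 0 ↔ y * W.dd G q = 0 := W.ker_pi G q hq y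

theorem two_mem_span_two (G : Finset D.Aux) : ¬ IsUnit (2 : W.T G) := not_isUnit_two (W.red G)

/-- The Weil bound, for prime ideals. -/
theorem weil_prime {G : Finset D.Aux} {q : D.Aux} (hq : q ∉ G) {P : Ideal (W.T G)} [P.IsPrime]
    (h2 : (2 : W.T G) ∉ P) : W.t G q.1 ^ 2 - (((q.1 : ℕ) : W.T G) + 1) ^ 2 ∉ P := by
  intro h
  have := charZero_quotient (R := W.T G) h2
  have : CharZero (FractionRing (W.T G ⧸ P)) :=
    charZero_of_injective_ringHom (IsFractionRing.injective (W.T G ⧸ P) _)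
  let f : W.T G →+* FractionRing (W.T G ⧸ P) :=
    (algebraMap (W.T G ⧸ P) _).comp (Ideal.Quotient.mk P)
  obtain ⟨w1, w2⟩ := W.weil G q hq _ f
  have h0 : f (W.t G q.1 ^ 2 - (((q.1 : ℕ) : W.T G) + 1) ^ 2) = 0 := by
    simp only [f, RingHom.comp_apply, Ideal.Quotient.eq_zero_iff_mem.2 h, map_zero]
  rw [sq_sub_sq, map_mul, map_add, map_sub, map_add, map_natCast, map_one] at h0
  rcases mul_eq_zero.1 h0 with e | e
  · exact w2 (by linear_combination e)
  · exact w1 (by linear_combination e)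

/-- `U ^ 2 - 1` is regular on the old quotient modulo a saturated ideal. -/
theorem root_sq_sub_one_regular {G : Finset D.Aux} {q : D.Aux} (hq : q ∈ G)
    {I : Ideal (W.T (G.erase q))} (hI : IsSat I) {z : W.Old G q}
    (h : z * (AdjoinRoot.root _ ^ 2 - 1) ∈ I.map (AdjoinRoot.of _)) :
    z ∈ I.map (AdjoinRoot.of _) := by
  have : Nontrivial (W.T (G.erase q)) := (W.red (G.erase q)).domain_nontrivial
  obtain ⟨a, b, rfl⟩ := Quad.exists_eq z
  set w := W.t (G.erase q) q.1 ^ 2 - (((q.1 : ℕ) : W.T (G.erase q)) + 1) ^ 2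
  have h' := Ideal.mul_mem_right (AdjoinRoot.of _ (W.t (G.erase q) q.1) * AdjoinRoot.root _ +
    AdjoinRoot.of _ (((q.1 : ℕ) : W.T (G.erase q)) + 1) -
      AdjoinRoot.of _ (W.t (G.erase q) q.1) ^ 2) _ h
  rw [mul_assoc, Quad.root_sub_one_mul, add_mul, ← map_mul, mul_right_comm, ← map_mul] at h'
  obtain ⟨ha, hb⟩ := (Quad.mem_map_iff I).1 h'
  have key : ∀ y, y * w ∈ I → y ∈ I := fun y hy =>
    regular_mod hI (fun P hP _ h2 => by have := hP; exact weil_prime (Finset.notMem_erase q G) h2)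
      (mul_comm y w ▸ hy)
  exact (Quad.mem_map_iff I).2 ⟨key a ha, key b hb⟩

include hW in
/-- At a new prime `x` is nonzero in characteristic zero. -/
theorem xel_not_mem_prime {G : Finset D.Aux} {q : D.Aux} (hq : q ∈ G) {P : Ideal (W.T G)}
    [hP : P.IsPrime] (h2 : (2 : W.T G) ∉ P) (hd : W.dd G q ∈ P) : W.xel G q ∉ P := by
  intro hx
  have hker : RingHom.ker (W.piOld G q hq).toRingHom ≤ P := by
    intro y hy
    refine mem_of_forall_sup_pow (two_mem_span_two G) P fun n => ?_
    refine W.lower G q hq (P ⊔ Ideal.span {(2 : W.T G) ^ n}) n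
      (Ideal.mem_sup_right (Ideal.mem_span_singleton_self _)) (fun A hA σ hσ i j => ?_) y hy
    refine Ideal.mem_sup_left (inertia_transfer (W.r G) q.2.1 (auxPlace_over q) P
      (fun τ hτ k l => P.mem_of_dvd (inertia_entry_dvd hq hτ k l) hx) A hA σ hσ i j)
  let P' := P.map (W.piOld G q hq).toRingHom
  have hP' : P'.IsPrime := Ideal.map_isPrime_of_surjective (piOld_surjective hq) hker
  have hroot : AdjoinRoot.root _ ^ 2 - 1 ∈ P' := piOld_dd_self (W := W) hq ▸ Ideal.mem_map_of_mem _ hd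
  let P'' := P'.comap (AdjoinRoot.of (Quad.poly (W.t (G.erase q) q.1)
    ((q.1 : ℕ) : W.T (G.erase q))))
  have h2'' : (2 : W.T (G.erase q)) ∉ P'' := by
    intro h
    have h' : (W.piOld G q hq).toRingHom 2 ∈ P' := by
      rw [map_ofNat]
      have h0 := Ideal.mem_comap.1 h
      rwa [map_ofNat] at h0
    obtain ⟨y, hy, e⟩ := (Ideal.mem_map_iff_of_surjective _ (piOld_surjective hq)).1 h'
    refine h2 ?_
    have : 2 - y ∈ P := hker (by rw [RingHom.mem_ker, map_sub, ← e]; exact sub_self _)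
    simpa using add_mem this hy
  refine weil_prime (W := W) (Finset.notMem_erase q G) (P := P'') h2'' ?_
  show AdjoinRoot.of _ _ ∈ P'
  rw [← Quad.root_sub_one_mul]
  exact P'.mul_mem_right _ hroot

include hW in
theorem xel_regular {G : Finset D.Aux} {q : D.Aux} (hq : q ∈ G) {I : Ideal (W.T G)} (hI : IsSat I)
    (hd : W.dd G q ∈ I) {y : W.T G} (hy : y * W.xel G q ∈ I) : y ∈ I :=
  regular_mod hI (fun P hP hle h2 => by
    have := hP; exact xel_not_mem_prime hW hq h2 (hle hd)) (mul_comm y _ ▸ hy)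

include hW in
/-- The kernel of `pi` is generated by `x`. -/
theorem ker_piOld {G : Finset D.Aux} {q : D.Aux} (hq : q ∈ G) (y : W.T G) :
    W.piOld G q hq y = 0 ↔ W.xel G q ∣ y := by
  refine ⟨fun hy => ?_, fun ⟨c, hc⟩ => by rw [hc, map_mul, piOld_xel hW hq, zero_mul]⟩
  let J := Ideal.span {W.xel G q} ⊔ Ideal.span {W.dd G q}
  have hxJ : W.xel G q ∈ J := Ideal.mem_sup_left (Ideal.mem_span_singleton_self _)
  have hdJ : W.dd G q ∈ J := Ideal.mem_sup_right (Ideal.mem_span_singleton_self _)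
  obtain ⟨n, hn⟩ : (2 : W.T G) ∈ J.radical := by
    rw [Ideal.radical_eq_sInf, Submodule.mem_sInf]
    rintro P ⟨hle, hP⟩
    by_contra h2
    exact xel_not_mem_prime hW hq h2 (hle hdJ) (hle hxJ)
  have hyJ : y ∈ J := W.lower G q hq J n hn
    (fun A hA σ hσ i j => inertia_transfer (W.r G) q.2.1 (auxPlace_over q) J
      (fun τ hτ k l => J.mem_of_dvd (inertia_entry_dvd hq hτ k l) hxJ) A hA σ hσ i j) y hy
  obtain ⟨a, ha, b, hb, rfl⟩ := Submodule.mem_sup.1 hyJ
  obtain ⟨u, rfl⟩ := Ideal.mem_span_singleton'.1 ha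
  obtain ⟨z, rfl⟩ := Ideal.mem_span_singleton'.1 hb
  have hz : W.piOld G q hq z = 0 := by
    rw [map_add, map_mul, piOld_xel hW hq, mul_zero, zero_add, map_mul, piOld_dd_self hq] at hy
    have := root_sq_sub_one_regular hq (isSat_bot (R := W.T (G.erase q))) (z := W.piOld G q hq z)
      (by rw [hy]; exact zero_mem _)
    rwa [Ideal.map_bot, Ideal.mem_bot] at this
  rw [(piOld_eq_zero_iff hq z).1 hz, add_zero]
  exact dvd_mul_left _ _

include hW in
theorem xel_ne_zero {G : Finset D.Aux} {q : D.Aux} (hq : q ∈ G) : W.xel G q ≠ 0 := by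
  intro h
  have hsat : IsSat (Ideal.span {W.dd G q}) := fun y hy =>
    Ideal.mem_span_singleton.2 (W.saturated G q hq y (Ideal.mem_span_singleton.1 hy))
  have h1 := xel_regular hW hq hsat (Ideal.mem_span_singleton_self _) (y := 1)
    (by rw [h, mul_zero]; exact zero_mem _)
  have := (isUnit_of_dvd_one (Ideal.mem_span_singleton.1 h1)).map (W.red G)
  rw [red_dd hq] at this
  exact not_isUnit_zero this

include hW in
/-- `pi` respects the inertia entries at the other primes up to units. -/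
theorem piOld_xel_other {G : Finset D.Aux} {q s : D.Aux} (hq : q ∈ G) (hs : s ∈ G) (hne : s ≠ q) :
    ∃ c : W.Old G q, IsUnit c ∧
      W.piOld G q hq (W.xel G s) = c * AdjoinRoot.of _ (W.xel (G.erase q) s) := by
  have hs' : s ∈ G.erase q := Finset.mem_erase.2 ⟨hne, hs⟩
  have := isLocalRing_old (W := W) hq
  have : Nontrivial (W.T (G.erase q)) := (W.red (G.erase q)).domain_nontrivial
  obtain ⟨σ, hσ, e⟩ := xel_mem_entries (W := W) hs
  obtain ⟨σ', hσ', e'⟩ := xel_mem_entries (W := W) hs'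
  obtain ⟨c, hc⟩ := inertia_entry_dvd (W := W) hs' hσ 0 1
  obtain ⟨c', hc'⟩ := inertia_entry_dvd (W := W) hs hσ' 0 1
  set X := W.xel G s
  set X' := W.xel (G.erase q) s
  have h1 : W.piOld G q hq X = W.ofOld G q c * AdjoinRoot.of _ X' := by
    rw [e, piOld_entry hW hq, hc, map_mul, mul_comm]; rfl
  have h2 : (AdjoinRoot.of _ X' : W.Old G q) = W.piOld G q hq c' * W.piOld G q hq X := by
    rw [← map_mul, mul_comm, ← hc', piOld_entry hW hq, ← e']; rfl
  refine ⟨W.ofOld G q c, ?_, h1⟩
  by_contra hu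
  obtain ⟨a, b, hab⟩ := Quad.exists_eq (1 - W.piOld G q hq c' * W.ofOld G q c)
  have hz : (1 - W.piOld G q hq c' * W.ofOld G q c) * AdjoinRoot.of _ X' = 0 := by
    linear_combination h2 + W.piOld G q hq c' * h1
  rw [hab, add_mul, ← map_mul, mul_right_comm, ← map_mul] at hz
  have ha : W.red (G.erase q) a = 0 ∧ W.red (G.erase q) b = 0 := by
    obtain ⟨ha, hb⟩ := Quad.eq_zero hz
    have key : ∀ y, y * X' = 0 → W.red (G.erase q) y = 0 := fun y hy => by
      by_contra h
      have h1 : ∀ z : ZMod 2, z ≠ 0 → z = 1 := by decide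
      exact xel_ne_zero hW hs' (((isUnit_iff_red (W.red (G.erase q))).2 (h1 _ h)).mul_right_eq_zero.1 hy)
    exact ⟨key a ha, key b hb⟩
  have := congrArg (redOld (W := W) G q) hab
  rw [map_sub, map_one, map_mul, map_add, map_mul, redOld_of, redOld_of, ha.1, ha.2] at this
  have h0 : redOld (W := W) G q (W.ofOld G q c) = 0 := by
    have h1 : ∀ z : ZMod 2, z ≠ 1 → z = 0 := by decide
    exact h1 _ fun h => hu ((isUnit_iff_red (redOld G q)).2 h)
  rw [h0] at this
  simp at this

variable (W) in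
/-- The product of the inertia entries. -/
def xprod (G S : Finset D.Aux) : W.T G := ∏ s ∈ S, W.xel G s

include hW in
theorem xprod_mul_newI {G S : Finset D.Aux} (hS : S ⊆ G) {y : W.T G} (hy : y ∈ W.newI G S) :
    y * W.xprod G S = 0 := by
  induction hy using Submodule.span_induction with
  | mem z hz =>
    obtain ⟨s, hs, rfl⟩ := hz
    rw [xprod, ← Finset.mul_prod_erase S _ hs, ← mul_assoc, mul_comm (W.dd G s),
      xel_mul_dd hW (hS hs), zero_mul]
  | zero => exact zero_mul _
  | add a b _ _ ha hb => rw [add_mul, ha, hb, add_zero]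
  | smul a b _ hb => rw [smul_eq_mul, mul_assoc, hb, mul_zero]

/-- The invariant of the recursion. -/
def GoodAt (W : Tower D) (G S : Finset D.Aux) : Prop :=
  ∀ y : W.T G, 2 ∣ y * W.xprod G S → y ∈ W.newI G S ⊔ Ideal.span {2}

include hW in
theorem GoodAt.isSat {G S : Finset D.Aux} (hS : S ⊆ G) (h : W.GoodAt G S) :
    IsSat (W.newI G S) := by
  have hz : ∀ y : W.T G, y * W.xprod G S = 0 → y ∈ W.newI G S := by
    intro y hy
    refine mem_of_forall_sup_pow (two_mem_span_two G) _ fun n => ?_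
    induction n with
    | zero => simp
    | succ n ih =>
      obtain ⟨a, ha, b, hb, e⟩ := Submodule.mem_sup.1 ih
      obtain ⟨w, rfl⟩ := Ideal.mem_span_singleton'.1 hb
      rw [← e] at hy ⊢
      rw [add_mul, xprod_mul_newI hW hS ha, zero_add] at hy
      have hw : w * W.xprod G S = 0 := by
        have h0 : 2 ^ n * (w * W.xprod G S) ∈ (⊥ : Ideal (W.T G)) := by
          rw [Ideal.mem_bot, ← mul_assoc, mul_comm _ w, hy]
        simpa using isSat_bot.pow n _ h0
      obtain ⟨c, hc, d, hd, rfl⟩ := Submodule.mem_sup.1 (h w (hw ▸ dvd_zero 2))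
      obtain ⟨v, rfl⟩ := Ideal.mem_span_singleton'.1 hd
      rw [add_mul, ← add_assoc]
      refine Submodule.mem_sup.2 ⟨_, add_mem ha (Ideal.mul_mem_right _ _ hc), _,
        Ideal.mem_span_singleton'.2 ⟨v, ?_⟩, rfl⟩
      rw [pow_succ]; ring
  intro y hy
  apply hz
  have := xprod_mul_newI hW hS hy
  have h0 : 2 * (y * W.xprod G S) ∈ (⊥ : Ideal (W.T G)) := by
    rw [Ideal.mem_bot, ← mul_assoc, this]
  simpa using isSat_bot _ h0

theorem map_newI {G : Finset D.Aux} {q : D.Aux} (hq : q ∈ G) {S : Finset D.Aux} (hqS : q ∉ S) :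
    (W.newI G S).map (W.piOld G q hq).toRingHom = (W.newI (G.erase q) S).map (AdjoinRoot.of _) := by
  rw [newI, newI, Ideal.map_span, Ideal.map_span, ← Set.image_comp, ← Set.image_comp]
  congr 1
  exact Set.image_congr fun s hs => piOld_dd hq fun h => hqS (h ▸ hs)

include hW in
theorem goodAt : ∀ S G : Finset D.Aux, S ⊆ G → W.GoodAt G S := by
  intro S
  induction S using Finset.induction_on with
  | empty =>
    intro G _ y hy
    rw [xprod, Finset.prod_empty, mul_one] at hy
    exact Ideal.mem_sup_right (Ideal.mem_span_singleton.2 hy)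
  | @insert q S hqS ih =>
    intro G hG
    have hq : q ∈ G := hG (Finset.mem_insert_self q S)
    have hS : S ⊆ G := fun s hs => hG (Finset.mem_insert_of_mem hs)
    have hS' : S ⊆ G.erase q := fun s hs =>
      Finset.mem_erase.2 ⟨fun h => hqS (h ▸ hs), hS hs⟩
    have := isLocalRing_old (W := W) hq
    have : Nontrivial (W.T (G.erase q)) := (W.red (G.erase q)).domain_nontrivial
    set π := W.piOld G q hq
    set d := W.dd G q
    set I := W.newI G S
    have hI : IsSat I := (ih G hS).isSat hW hS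
    have hI' : IsSat (W.newI (G.erase q) S) := (ih _ hS').isSat hW hS'
    have hmap : I.map π.toRingHom = (W.newI (G.erase q) S).map (AdjoinRoot.of _) := map_newI hq hqS
    -- (b): multiplication by `d` modulo `2`
    have hb : ∀ y, y * d ∈ I ⊔ Ideal.span {2} →
        y ∈ I ⊔ Ideal.span {W.xel G q} ⊔ Ideal.span {2} := by
      intro y hy
      obtain ⟨a, ha, b, hb, e⟩ := Submodule.mem_sup.1 hy
      obtain ⟨v, rfl⟩ := Ideal.mem_span_singleton'.1 hb
      have h2 : d * (y * W.xprod G S) = 2 * (v * W.xprod G S) := by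
        have := congrArg (· * W.xprod G S) e
        simp only [add_mul, xprod_mul_newI hW hS ha, zero_add] at this
        linear_combination -this
      obtain ⟨w, hw⟩ := W.saturated G q hq (v * W.xprod G S) ⟨_, h2.symm⟩
      change v * W.xprod G S = d * w at hw
      have hk : π (y * W.xprod G S - 2 * w) = 0 :=
        (piOld_eq_zero_iff hq _).2 (by linear_combination h2 + 2 * hw)
      rw [map_sub, map_mul, map_mul, map_ofNat, sub_eq_zero] at hk
      have hc : ∃ c : W.Old G q, IsUnit c ∧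
          π (W.xprod G S) = c * AdjoinRoot.of _ (W.xprod (G.erase q) S) := by
        choose! c hcu hce using fun s (hs : s ∈ S) =>
          piOld_xel_other hW hq (hS hs) fun h => hqS (h ▸ hs)
        refine ⟨∏ s ∈ S, c s, IsUnit.prod_iff.2 hcu, ?_⟩
        rw [xprod, xprod, map_prod, map_prod, ← Finset.prod_mul_distrib]
        exact Finset.prod_congr rfl fun s hs => hce s hs
      obtain ⟨c, ⟨cu, rfl⟩, hc⟩ := hc
      obtain ⟨p₀, p₁, hp⟩ := Quad.exists_eq (π y * (cu : W.Old G q))
      obtain ⟨r₀, r₁, hr⟩ := Quad.exists_eq (π w)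
      rw [hc, ← mul_assoc, hp, hr, add_mul, mul_add, ← map_ofNat (AdjoinRoot.of (Quad.poly
        (W.t (G.erase q) q.1) ((q.1 : ℕ) : W.T (G.erase q)))) 2, ← map_mul, mul_right_comm,
        ← map_mul, ← mul_assoc, ← map_mul, ← map_mul] at hk
      obtain ⟨e0, e1⟩ := Quad.coord_eq hk
      have m0 := ih _ hS' p₀ ⟨r₀, e0⟩
      have m1 := ih _ hS' p₁ ⟨r₁, e1⟩
      have hmem : π y ∈ (I ⊔ Ideal.span {2}).map π.toRingHom := by
        rw [Ideal.map_sup, hmap, Ideal.map_span, Set.image_singleton, map_ofNat]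
        have : π y * (cu : W.Old G q) ∈
            (W.newI (G.erase q) S ⊔ Ideal.span {2}).map (AdjoinRoot.of _) := by
          rw [hp]; exact (Quad.mem_map_iff _).2 ⟨m0, m1⟩
        rw [Ideal.map_sup, Ideal.map_span, Set.image_singleton, map_ofNat] at this
        simpa using Ideal.mul_mem_right ((cu⁻¹ : (W.Old G q)ˣ) : W.Old G q) _ this
      obtain ⟨y', hy', he⟩ := (Ideal.mem_map_iff_of_surjective _ (piOld_surjective hq)).1 hmem
      obtain ⟨z, hz⟩ := (ker_piOld hW hq (y - y')).1 (by rw [map_sub]; exact sub_eq_zero.2 he.symm)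
      rw [sup_right_comm, show y = y' + (y - y') by ring, hz]
      exact add_mem (Ideal.mem_sup_left hy')
        (Ideal.mem_sup_right (Ideal.mem_span_singleton'.2 ⟨z, mul_comm _ _⟩))
    -- (a): multiplication by `d`
    have ha : ∀ y, y * d ∈ I → y ∈ I ⊔ Ideal.span {W.xel G q} := by
      intro y hy
      have h1 : π.toRingHom (y * d) ∈ I.map π.toRingHom := Ideal.mem_map_of_mem _ hy
      rw [hmap, map_mul] at h1
      have h2 := root_sq_sub_one_regular hq hI' (z := π y) (piOld_dd_self (W := W) hq ▸ h1)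
      rw [← hmap] at h2
      obtain ⟨y', hy', he⟩ := (Ideal.mem_map_iff_of_surjective _ (piOld_surjective hq)).1 h2
      obtain ⟨z, hz⟩ := (ker_piOld hW hq (y - y')).1 (by rw [map_sub]; exact sub_eq_zero.2 he.symm)
      rw [show y = y' + (y - y') by ring, hz]
      exact add_mem (Ideal.mem_sup_left hy')
        (Ideal.mem_sup_right (Ideal.mem_span_singleton'.2 ⟨z, mul_comm _ _⟩))
    -- the new ideal is saturated
    have hI'' : IsSat (I ⊔ Ideal.span {d}) := by
      intro y hy
      obtain ⟨a, ha', b, hb', e⟩ := Submodule.mem_sup.1 hy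
      obtain ⟨z, rfl⟩ := Ideal.mem_span_singleton'.1 hb'
      have hz : z * d ∈ I ⊔ Ideal.span {2} := Submodule.mem_sup.2
        ⟨-a, neg_mem ha', 2 * y, Ideal.mem_span_singleton'.2 ⟨y, mul_comm _ _⟩,
          by linear_combination -e⟩
      obtain ⟨k, hk, l, hl, rfl⟩ := Submodule.mem_sup.1 (hb z hz)
      obtain ⟨w, rfl⟩ := Ideal.mem_span_singleton'.1 hl
      have hkd : k * d ∈ I := by
        obtain ⟨k1, hk1, k2, hk2, rfl⟩ := Submodule.mem_sup.1 hk
        obtain ⟨z', rfl⟩ := Ideal.mem_span_singleton'.1 hk2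
        rw [add_mul, mul_assoc, xel_mul_dd hW hq, mul_zero, add_zero]
        exact Ideal.mul_mem_right _ _ hk1
      have h2 : 2 * (y - w * d) ∈ I := by
        have : 2 * (y - w * d) = a + k * d := by linear_combination -e
        rw [this]; exact add_mem ha' hkd
      rw [show y = (y - w * d) + w * d by ring]
      exact add_mem (Ideal.mem_sup_left (hI _ h2))
        (Ideal.mem_sup_right (Ideal.mem_span_singleton'.2 ⟨w, rfl⟩))
    intro y hy
    rw [xprod, Finset.prod_insert hqS, ← mul_assoc] at hy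
    obtain ⟨a, ha', b, hb', e⟩ := Submodule.mem_sup.1 (ih G hS (y * W.xel G q) hy)
    obtain ⟨v, rfl⟩ := Ideal.mem_span_singleton'.1 hb'
    have hvd : v * d ∈ I := by
      refine hI _ ?_
      have : 2 * (v * d) = -(a * d) := by
        linear_combination d * e + y * xel_mul_dd hW hq
      rw [this]; exact neg_mem (Ideal.mul_mem_right _ _ ha')
    obtain ⟨v1, hv1, v2, hv2, rfl⟩ := Submodule.mem_sup.1 (ha v hvd)
    obtain ⟨z, rfl⟩ := Ideal.mem_span_singleton'.1 hv2
    have hy' : (y - 2 * z) * W.xel G q ∈ I ⊔ Ideal.span {d} := by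
      refine Ideal.mem_sup_left ?_
      have : (y - 2 * z) * W.xel G q = a + v1 * 2 := by linear_combination -e
      rw [this]; exact add_mem ha' (Ideal.mul_mem_right _ _ hv1)
    have := xel_regular hW hq hI'' (Ideal.mem_sup_right (Ideal.mem_span_singleton_self _)) hy'
    rw [newI_insert, show y = (y - 2 * z) + 2 * z by ring]
    exact add_mem (Ideal.mem_sup_left this)
      (Ideal.mem_sup_right (Ideal.mem_span_singleton'.2 ⟨z, mul_comm _ _⟩))

include hW in
/-- The new quotients are torsion-free. -/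
theorem isSat_newI {G S : Finset D.Aux} (hS : S ⊆ G) : IsSat (W.newI G S) :=
  (goodAt hW S G hS).isSat hW hS

end Tower

end FLTAgent.Mod2
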