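import Fermat.Agent.Mod2.RT.Basic

/-!
# R = T at p = 2: normalised representations

A representation lifting `ρ̄` is normalised with respect to an inertia element `s` at `2` with
`ρ̄ s = !![1,1;0,1]` and an element `g` with `ρ̄ g = !![0,1;1,1]` if `e₀` spans the line of `s` and
`e₁ = g e₀`. One exists in every conjugacy class (`exists_isNormal`); normalised representations
are determined by their traces (`IsNormal.eq_of_trace_eq`) and have their entries in any
subalgebra with the traces and determinants (`IsNormal.entry_mem`).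
-/

set_option autoImplicit false

noncomputable section

namespace FLTAgent.Mod2

open Matrix
open scoped Pointwise

section Local

variable {B : Type} [CommRing B]

theorem map_sub_smul {C : Type} [CommRing C] (f : B →+* C) (M : Mat2 B) (c : B) :
    (M - c • 1).map f = M.map f - f c • (1 : Mat2 C) := by
  ext i j
  simp [Matrix.sub_apply, Matrix.one_apply]
  split <;> simp

theorem isUnit_iff_red [IsLocalRing B] (f : B →+* ZMod 2) {x : B} : IsUnit x ↔ f x = 1 := by
  have h1 : ∀ z : ZMod 2, z ≠ 0 ↔ z = 1 := by decide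
  constructor
  · intro h
    have := h.map f
    exact (h1 _).1 this.ne_zero
  · intro h
    by_contra hx
    have hk : RingHom.ker f = IsLocalRing.maximalIdeal B := IsLocalRing.eq_maximalIdeal
      (RingHom.ker_isMaximal_of_surjective f (ZMod.ringHom_surjective f))
    have : x ∈ RingHom.ker f := hk ▸ hx
    rw [RingHom.mem_ker, h] at this
    exact one_ne_zero this

variable [Algebra ℤ_[2] B]

theorem map_padicInt_red (f : B →+* ZMod 2) (x : ℤ_[2]) :
    f (algebraMap ℤ_[2] B x) = PadicInt.toZMod x := by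
  have : f.comp (algebraMap ℤ_[2] B) = PadicInt.toZMod := by
    have hk : RingHom.ker (f.comp (algebraMap ℤ_[2] B)) = RingHom.ker (PadicInt.toZMod (p := 2)) := by
      rw [PadicInt.ker_toZMod]
      exact IsLocalRing.eq_maximalIdeal
        (RingHom.ker_isMaximal_of_surjective _ (ZMod.ringHom_surjective _))
    refine RingHom.ext fun y => ?_
    have h1 : ∀ a b : ZMod 2, (a = 0 ↔ b = 0) → a = b := by decide
    refine h1 _ _ ?_
    rw [← RingHom.mem_ker, ← RingHom.mem_ker, hk]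
  exact RingHom.congr_fun this x

theorem red_chi2 (f : B →+* ZMod 2) (σ : Gal2) : f (algebraMap ℤ_[2] B (chi2 σ)) = 1 := by
  rw [map_padicInt_red, chi2_ne_zero_mod_two]

theorem SpecialAt.map {C : Type} [CommRing C] [Algebra ℤ_[2] C] (f : B →ₐ[ℤ_[2]] C) {v : ℕ} {u : B}
    {r : Gal2 →* Mat2 B} (h : SpecialAt v u r) : SpecialAt v (f u) (mapRep f.toRingHom r) := by
  have key : ∀ (σ : Gal2) (c : B),
      (mapRep f.toRingHom r σ - f c • 1) = f.toRingHom.mapMatrix (r σ - c • 1) := fun σ c =>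
    (map_sub_smul f.toRingHom (r σ) c).symm
  have key1 : ∀ σ : Gal2, mapRep f.toRingHom r σ - 1 = f.toRingHom.mapMatrix (r σ - 1) := fun σ => by
    rw [map_sub, map_one]; rfl
  refine ⟨by rw [← map_pow, h.sq, map_one], ?_, ?_, ?_, ?_, ?_⟩
  · intro A hA σ hσ τ hτ
    rw [← f.commutes, key, key1, ← map_mul, h.inertia A hA σ hσ τ hτ, map_zero]
  · intro A hA σ hσ φ hφ
    rw [← f.commutes, key, key, ← map_mul, h.quotient A hA σ hσ φ hφ, map_zero]
  · intro A hA σ hσ φ hφ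
    rw [← f.commutes, ← map_mul, key, key1, ← map_mul, h.line A hA σ hσ φ hφ, map_zero]
  · intro A hA σ hσ
    rw [mapRep_apply, trace_map, h.trace_inertia A hA σ hσ]
    simp
  · intro A hA φ hφ
    rw [mapRep_apply, trace_map, h.trace_frob A hA φ hφ]
    simp

theorem SpecialAt.conj (P : (Mat2 B)ˣ) {v : ℕ} {u : B} {r : Gal2 →* Mat2 B}
    (h : SpecialAt v u r) : SpecialAt v u (conjRep P r) := by
  have key : ∀ (σ : Gal2) (c : B),
      conjRep P r σ - c • 1 = (P⁻¹ : (Mat2 B)ˣ) * (r σ - c • 1) * P := fun σ c => by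
    rw [mul_sub, sub_mul, conjRep_apply, Matrix.mul_smul, Matrix.smul_mul, mul_one, Units.inv_mul]
  have key1 : ∀ σ : Gal2, conjRep P r σ - 1 = (P⁻¹ : (Mat2 B)ˣ) * (r σ - 1) * P := fun σ => by
    rw [mul_sub, sub_mul, mul_one, Units.inv_mul, conjRep_apply]
  have e : ∀ X Y : Mat2 B, X * Y = 0 →
      ((P⁻¹ : (Mat2 B)ˣ) * X * P) * ((P⁻¹ : (Mat2 B)ˣ) * Y * P) = 0 := fun X Y hXY => by
    simp only [mul_assoc, Units.mul_inv_cancel_left]
    rw [← mul_assoc X, hXY, zero_mul, mul_zero]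
  refine ⟨h.sq, ?_, ?_, ?_, ?_, ?_⟩
  · intro A hA σ hσ τ hτ
    rw [key, key1]; exact e _ _ (h.inertia A hA σ hσ τ hτ)
  · intro A hA σ hσ φ hφ
    rw [key, key]; exact e _ _ (h.quotient A hA σ hσ φ hφ)
  · intro A hA σ hσ φ hφ
    rw [key, key1]; exact e _ _ (h.line A hA σ hσ φ hφ)
  · intro A hA σ hσ
    rw [trace_conjRep, h.trace_inertia A hA σ hσ]
  · intro A hA φ hφ
    rw [trace_conjRep, h.trace_frob A hA φ hφ]

theorem IsUnram.map {C : Type} [CommRing C] (f : B →+* C) {q : ℕ} {r : Gal2 →* Mat2 B}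
    (h : IsUnram r q) : IsUnram (mapRep f r) q := fun A hA σ hσ => by
  show f.mapMatrix (r σ) = 1
  rw [h A hA σ hσ, map_one]

theorem IsUnram.conj (P : (Mat2 B)ˣ) {q : ℕ} {r : Gal2 →* Mat2 B}
    (h : IsUnram r q) : IsUnram (conjRep P r) q := fun A hA σ hσ => by
  rw [conjRep_apply, h A hA σ hσ, mul_one, Units.inv_mul]

end Local

namespace Setup

variable (D : Setup)

theorem transposition_conj : ∀ M : Mat2 (ZMod 2), M ≠ 1 → M * M = 1 →
    ∃ N : Mat2 (ZMod 2), N.det ≠ 0 ∧ N * M = !![1, 1; 0, 1] * N := by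
  decide +kernel

theorem exists_conj_standard {M : Mat2 (ZMod 2)} (h1 : M ≠ 1) (h2 : M * M = 1) :
    ∃ τ : Gal2, D.rho τ * M * D.rho τ⁻¹ = !![1, 1; 0, 1] := by
  obtain ⟨N, hN, hNM⟩ := transposition_conj M h1 h2
  obtain ⟨τ, hτ⟩ := D.surj N hN
  refine ⟨τ, ?_⟩
  rw [hτ, hNM, mul_assoc, ← hτ, ← map_mul, mul_inv_cancel, map_one, mul_one]

theorem exists_inertia_standard {v : ℕ} (hv : v.Prime) (hvm : v ∣ 2 * D.m) :
    ∃ A : ValuationSubring (AlgebraicClosure ℚ), A.LiesOverPrime v ∧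
      ∃ σ ∈ A.inertiaSubgroupIn ℚ, D.rho σ = !![1, 1; 0, 1] := by
  obtain ⟨A, hA⟩ := GalCommon.exists_liesOverPrime hv
  obtain ⟨h2, σ, hσ, hne⟩ := D.ram v hv hvm A hA
  obtain ⟨τ, hτ⟩ := D.exists_conj_standard hne (h2 σ hσ)
  exact ⟨τ • A, GalCommon.liesOverPrime_smul hA, τ * σ * τ⁻¹, GalCommon.mem_inertia_conj hσ τ,
    by rw [map_mul, map_mul, hτ]⟩

theorem exists_frobenius_standard (q : D.Aux) :
    ∃ A : ValuationSubring (AlgebraicClosure ℚ), A.LiesOverPrime q.1 ∧
      ∃ φ : Gal2, A.IsFrobeniusAt φ q.1 ∧ D.rho φ = !![1, 1; 0, 1] := by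
  obtain ⟨A, hA, φ, hφ⟩ := GalCommon.exists_place_frobenius q.2.1
  obtain ⟨hne, h2⟩ := q.2.2.2 A hA φ hφ
  obtain ⟨τ, hτ⟩ := D.exists_conj_standard hne h2
  exact ⟨τ • A, GalCommon.liesOverPrime_smul hA, τ * φ * τ⁻¹, GalCommon.isFrobeniusAt_conj hφ τ,
    by rw [map_mul, map_mul, hτ]⟩

/-- A chosen inertia element at `2` with standard residual image. -/
def frameS : Gal2 :=
  (D.exists_inertia_standard Nat.prime_two (dvd_mul_right 2 D.m)).choose_spec.2.choose

theorem frameS_spec : ∃ A : ValuationSubring (AlgebraicClosure ℚ), A.LiesOverPrime 2 ∧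
    D.frameS ∈ A.inertiaSubgroupIn ℚ :=
  have h := (D.exists_inertia_standard Nat.prime_two (dvd_mul_right 2 D.m)).choose_spec
  ⟨_, h.1, h.2.choose_spec.1⟩

theorem rho_frameS : D.rho D.frameS = !![1, 1; 0, 1] :=
  (D.exists_inertia_standard Nat.prime_two (dvd_mul_right 2 D.m)).choose_spec.2.choose_spec.2

/-- A chosen element of residual order `3`. -/
def frameG : Gal2 := (D.surj !![0, 1; 1, 1] (by decide)).choose

theorem rho_frameG : D.rho D.frameG = !![0, 1; 1, 1] :=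
  (D.surj !![0, 1; 1, 1] (by decide)).choose_spec

variable {B : Type} [CommRing B] [Algebra ℤ_[2] B]

/-- Normalised representations. -/
structure IsNormal (r : Gal2 →* Mat2 B) : Prop where
  s00 : r D.frameS 0 0 = algebraMap ℤ_[2] B (chi2 D.frameS)
  s10 : r D.frameS 1 0 = 0
  g00 : r D.frameG 0 0 = 0
  g10 : r D.frameG 1 0 = 1

variable {D}

theorem IsNormal.map {C : Type} [CommRing C] [Algebra ℤ_[2] C] {r : Gal2 →* Mat2 B}
    (h : D.IsNormal r) (f : B →ₐ[ℤ_[2]] C) : D.IsNormal (mapRep f.toRingHom r) := by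
  refine ⟨?_, ?_, ?_, ?_⟩ <;> simp [h.s00, h.s10, h.g00, h.g10]

theorem IsNormal.pair {C : Type} [CommRing C] [Algebra ℤ_[2] C] {r : Gal2 →* Mat2 B}
    {s : Gal2 →* Mat2 C} (h : D.IsNormal r) (h' : D.IsNormal s) : D.IsNormal (pairRep r s) := by
  refine ⟨?_, ?_, ?_, ?_⟩ <;>
    simp [pairRep, h.s00, h.s10, h.g00, h.g10, h'.s00, h'.s10, h'.g00, h'.g10, Prod.ext_iff,
      Prod.algebraMap_apply]

theorem IsNormal.entry_mem {r : Gal2 →* Mat2 B} (hn : D.IsNormal r)
    (R : Subalgebra ℤ_[2] B) (f : R →+* ZMod 2) (hR : ∀ x : R, f x = 1 → IsUnit x)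
    (htr : ∀ σ, (r σ).trace ∈ R) (hdet : ∀ σ, (r σ).det ∈ R)
    (hf : ∀ σ, f ⟨(r σ).trace, htr σ⟩ = (D.rho σ).trace) (σ : Gal2) (i j : Fin 2) :
    r σ i j ∈ R := by
  set χ := algebraMap ℤ_[2] B (chi2 D.frameS) with hχ
  set y := r D.frameS 0 1
  set z := r D.frameS 1 1
  set h01 := r D.frameG 0 1
  set h11 := r D.frameG 1 1
  have eS : r D.frameS = !![χ, y; 0, z] := by
    ext a b; fin_cases a <;> fin_cases b <;> simp [hn.s00, hn.s10, χ, y, z]
  have eG : r D.frameG = !![0, h01; 1, h11] := by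
    ext a b; fin_cases a <;> fin_cases b <;> simp [hn.g00, hn.g10, h01, h11]
  -- the residual values
  let t : Gal2 → R := fun σ => ⟨(r σ).trace, htr σ⟩
  have hχR : χ ∈ R := R.algebraMap_mem _
  have hh11 : h11 = (t D.frameG : B) := by simp [t, eG, Matrix.trace_fin_two]
  have hz : z = (t D.frameS : B) - χ := by simp [t, eS, Matrix.trace_fin_two]
  have hy : y = (t (D.frameS * D.frameG) : B) - z * h11 := by
    simp [t, map_mul, eS, eG, Matrix.trace_fin_two]
  have hh01R : h01 ∈ R := by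
    have := neg_mem (hdet D.frameG)
    rw [eG, Matrix.det_fin_two] at this
    simpa using this
  have hh11R : h11 ∈ R := hh11 ▸ (t D.frameG).2
  have hzR : z ∈ R := hz ▸ sub_mem (t D.frameS).2 hχR
  have hyR : y ∈ R := hy ▸ sub_mem (t _).2 (mul_mem hzR hh11R)
  have fχ : f ⟨χ, hχR⟩ = 1 := by
    rw [show (⟨χ, hχR⟩ : R) = algebraMap ℤ_[2] R (chi2 D.frameS) from Subtype.ext rfl]
    exact red_chi2 f _
  have fh11 : f ⟨h11, hh11R⟩ = 1 := by
    rw [show (⟨h11, hh11R⟩ : R) = t D.frameG from Subtype.ext hh11, hf, rho_frameG]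
    decide
  have fz : f ⟨z, hzR⟩ = 1 := by
    rw [show (⟨z, hzR⟩ : R) = t D.frameS - ⟨χ, hχR⟩ from Subtype.ext hz, map_sub, hf, fχ,
      rho_frameS]
    decide
  have fy : f ⟨y, hyR⟩ = 1 := by
    rw [show (⟨y, hyR⟩ : R) = t (D.frameS * D.frameG) - ⟨z, hzR⟩ * ⟨h11, hh11R⟩ from
      Subtype.ext hy, map_sub, map_mul, hf, fz, fh11, map_mul, rho_frameS, rho_frameG]
    decide
  let k : B := χ * h01 + y * h11 - z * h01
  have hkR : k ∈ R := sub_mem (add_mem (mul_mem hχR hh01R) (mul_mem hyR hh11R)) (mul_mem hzR hh01R)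
  let Δ : R := ⟨y, hyR⟩ * ⟨y, hyR⟩ - (⟨χ, hχR⟩ - ⟨z, hzR⟩) * ⟨k, hkR⟩
  have fΔ : f Δ = 1 := by
    simp only [Δ, map_sub, map_mul, fy, fχ, fz]
    ring
  obtain ⟨Δ', hΔ'⟩ := (hR Δ fΔ).exists_left_inv
  have hΔB : (Δ' : B) * (y * y - (χ - z) * k) = 1 := by
    have := congrArg (Subalgebra.val R) hΔ'
    simpa [Δ] using this
  -- the four traces
  set a := r σ 0 0
  set b := r σ 0 1
  set c := r σ 1 0
  set e := r σ 1 1
  have s1 : a + e ∈ R := by
    have := htr σ
    rwa [Matrix.trace_fin_two] at this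
  have s2 : b + c * h01 + e * h11 ∈ R := by
    have := htr (σ * D.frameG)
    rw [map_mul, eG, Matrix.trace_fin_two] at this
    simpa [Matrix.mul_apply, Fin.sum_univ_two, a, b, c, e, add_assoc] using this
  have s3 : χ * a + c * y + e * z ∈ R := by
    have := htr (σ * D.frameS)
    rw [map_mul, eS, Matrix.trace_fin_two] at this
    simpa [Matrix.mul_apply, Fin.sum_univ_two, a, b, c, e, add_assoc, mul_comm χ] using this
  have s4 : a * y + b * z + (c * (χ * h01 + y * h11) + e * (z * h11)) ∈ R := by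
    have := htr (σ * (D.frameS * D.frameG))
    rw [map_mul, map_mul, eS, eG, Matrix.trace_fin_two] at this
    simpa [Matrix.mul_apply, Fin.sum_univ_two, a, b, c, e] using this
  have hP : a * y + c * k ∈ R := by
    have := sub_mem s4 (mul_mem hzR s2)
    convert this using 1
    simp only [k]; ring
  have hQ : a * (χ - z) + c * y ∈ R := by
    have := sub_mem s3 (mul_mem hzR s1)
    convert this using 1
    ring
  have haR : a ∈ R := by
    have := mul_mem Δ'.2 (sub_mem (mul_mem hP hyR) (mul_mem hQ hkR))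
    convert this using 1
    linear_combination (-a) * hΔB
  have hcR : c ∈ R := by
    have := mul_mem Δ'.2 (sub_mem (mul_mem hQ hyR) (mul_mem hP (sub_mem hχR hzR)))
    convert this using 1
    linear_combination (-c) * hΔB
  have heR : e ∈ R := by simpa using sub_mem s1 haR
  have hbR : b ∈ R := by
    have := sub_mem s2 (add_mem (mul_mem hcR hh01R) (mul_mem heR hh11R))
    convert this using 1
    ring
  fin_cases i <;> fin_cases j <;> assumption

/-- Normalised representations with equal traces and determinants are equal. -/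
theorem IsNormal.eq_of_trace_eq [IsLocalRing B] (red : B →+* ZMod 2) {r s : Gal2 →* Mat2 B}
    (hr : D.IsNormal r) (hs : D.IsNormal s) (hl : ∀ σ, (r σ).map red = D.rho σ)
    (ht : ∀ σ, (r σ).trace = (s σ).trace) (hd : ∀ σ, (r σ).det = (s σ).det) : r = s := by
  let R : Subalgebra ℤ_[2] (B × B) := ((AlgHom.id ℤ_[2] B).prod (AlgHom.id ℤ_[2] B)).range
  have hR : ∀ p : B × B, p ∈ R ↔ p.1 = p.2 := fun p =>
    ⟨fun ⟨y, hy⟩ => by rw [← hy]; rfl, fun h => ⟨p.1, Prod.ext rfl h⟩⟩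
  refine MonoidHom.ext fun σ => ?_
  ext i j
  refine (hR (r σ i j, s σ i j)).1 ((hr.pair hs).entry_mem R
    (red.comp ((RingHom.fst B B).comp R.val.toRingHom)) (fun x hx => ?_) (fun σ => (hR _).2 ?_)
    (fun σ => (hR _).2 ?_) (fun σ => ?_) σ i j)
  · obtain ⟨y, hy⟩ := (isUnit_iff_red red).2 hx
    refine IsUnit.of_mul_eq_one (⟨((↑y⁻¹ : B), (↑y⁻¹ : B)), (hR _).2 rfl⟩ : R) ?_
    apply Subtype.ext
    have h2 : (x : B × B).1 = (x : B × B).2 := (hR _).1 x.2
    have hy' : (y : B) = (x : B × B).1 := hy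
    ext
    · show (x : B × B).1 * _ = 1
      rw [← hy', Units.mul_inv]
    · show (x : B × B).2 * _ = 1
      rw [← h2, ← hy', Units.mul_inv]
  · simpa [pairRep, Matrix.trace_fin_two] using ht σ
  · simpa [pairRep, Matrix.det_fin_two] using hd σ
  · show red ((pairRep r s σ).trace).1 = _
    rw [show ((pairRep r s σ).trace).1 = (r σ).trace by simp [pairRep, Matrix.trace_fin_two],
      ← trace_map, hl]

/-- Normalisation by a conjugation with trivial reduction. -/
theorem exists_isNormal [IsLocalRing B] (red : B →+* ZMod 2) {r : Gal2 →* Mat2 B}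
    (hl : ∀ σ, (r σ).map red = D.rho σ) {u : B} (h2 : SpecialAt 2 u r) :
    ∃ P : (Mat2 B)ˣ, (P : Mat2 B).map red = 1 ∧ D.IsNormal (conjRep P r) := by
  obtain ⟨A, hA, hS⟩ := D.frameS_spec
  let X := r D.frameS - 1
  let P : Mat2 B := !![X 0 1, (r D.frameG * X) 0 1; X 1 1, (r D.frameG * X) 1 1]
  have hX : X.map red = !![0, 1; 0, 0] := by
    rw [show X = r D.frameS - (1 : B) • 1 by rw [one_smul], map_sub_smul, hl, rho_frameS, map_one,
      one_smul]
    decide
  have hP : P.map red = 1 := by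
    have hGX : (r D.frameG * X).map red = !![0, 1; 1, 1] * !![0, 1; 0, 0] := by
      rw [Matrix.map_mul, hl, rho_frameG, hX]
    have e1 : ∀ a b, red (X a b) = (!![0, 1; 0, 0] : Mat2 (ZMod 2)) a b := fun a b => by
      rw [← hX]; rfl
    have e2 : ∀ a b, red ((r D.frameG * X) a b) =
        (!![0, 1; 1, 1] * !![0, 1; 0, 0] : Mat2 (ZMod 2)) a b := fun a b => by rw [← hGX]; rfl
    ext a b
    fin_cases a <;> fin_cases b <;> simp [P, e1, e2]
  have hu : IsUnit P := by
    rw [Matrix.isUnit_iff_isUnit_det, isUnit_iff_red red, ← det_map, hP, Matrix.det_one]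
  obtain ⟨P', hP'⟩ := hu
  refine ⟨P', by rw [hP']; exact hP, ?_⟩
  have hSX : r D.frameS * X = algebraMap ℤ_[2] B (chi2 D.frameS) • X := by
    have := h2.inertia A hA _ hS _ hS
    rwa [sub_mul, Matrix.smul_mul, one_mul, sub_eq_zero] at this
  have e1 : ((P'⁻¹ : (Mat2 B)ˣ) : Mat2 B) * P = 1 := by rw [← hP', Units.inv_mul]
  -- images of the first basis vector
  have col : ∀ (M : Mat2 B) (i : Fin 2), ((P'⁻¹ : (Mat2 B)ˣ) * M * P : Mat2 B) i 0 =
      (((P'⁻¹ : (Mat2 B)ˣ) : Mat2 B) * (M * X)) i 1 := fun M i => by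
    simp [Matrix.mul_apply, Fin.sum_univ_two, P]; ring
  have hcX : ∀ i : Fin 2, ((P'⁻¹ : (Mat2 B)ˣ) : Mat2 B) i 0 * X 0 1 +
      ((P'⁻¹ : (Mat2 B)ˣ) : Mat2 B) i 1 * X 1 1 = (1 : Mat2 B) i 0 := fun i => by
    rw [← e1]
    simp [Matrix.mul_apply, Fin.sum_univ_two, P]
  have hcG : ∀ i : Fin 2, (((P'⁻¹ : (Mat2 B)ˣ) : Mat2 B) * (r D.frameG * X)) i 1 =
      (1 : Mat2 B) i 1 := fun i => by
    rw [← e1]
    simp [Matrix.mul_apply, Fin.sum_univ_two, P]
  have hs : ∀ i : Fin 2, conjRep P' r D.frameS i 0 =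
      algebraMap ℤ_[2] B (chi2 D.frameS) * (1 : Mat2 B) i 0 := fun i => by
    rw [conjRep_apply, hP', col, hSX, Matrix.mul_smul, Matrix.smul_apply, smul_eq_mul,
      Matrix.mul_apply, Fin.sum_univ_two, hcX]
  have hg : ∀ i : Fin 2, conjRep P' r D.frameG i 0 = (1 : Mat2 B) i 1 := fun i => by
    rw [conjRep_apply, hP', col, hcG]
  exact ⟨by rw [hs]; simp, by rw [hs]; simp, by rw [hg]; simp, by rw [hg]; simp⟩

theorem map_conjRep_of_red_one (red : B →+* ZMod 2) {r : Gal2 →* Mat2 B} (P : (Mat2 B)ˣ)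
    (hP : (P : Mat2 B).map red = 1) (σ : Gal2) : (conjRep P r σ).map red = (r σ).map red := by
  have h1 : red.mapMatrix (P : Mat2 B) = 1 := hP
  have h2 : red.mapMatrix ((P⁻¹ : (Mat2 B)ˣ) : Mat2 B) = 1 := by
    have := congrArg red.mapMatrix P.inv_mul
    rwa [map_mul, map_one, h1, mul_one] at this
  show red.mapMatrix _ = red.mapMatrix _
  rw [conjRep_apply, map_mul, map_mul, h1, h2, mul_one, one_mul]

end Setup

end FLTAgent.Mod2
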