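import Mathlib

/-!
# Monic quadratic extensions `R[X]/(X² - t X + c)`

Every element is `a + b ρ` for the root `ρ` (`exists_eq`), uniquely (`coord_eq`), and lies in an
extended ideal exactly when both coordinates lie in the ideal (`mem_map_iff`).
-/

set_option autoImplicit false

noncomputable section

namespace FLTAgent.Mod2.Quad

open Polynomial

variable {R : Type} [CommRing R]

/-- The polynomial. -/
abbrev poly (t c : R) : R[X] := X ^ 2 - C t * X + C c

theorem poly_monic (t c : R) : (poly t c).Monic := by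
  unfold poly
  monicity!

theorem poly_natDegree [Nontrivial R] (t c : R) : (poly t c).natDegree = 2 := by
  unfold poly
  compute_degree!

variable {t c : R}

local notation "ι" => AdjoinRoot.of (poly t c)
local notation "ρ" => AdjoinRoot.root (poly t c)

theorem root_sq : ρ ^ 2 = ι t * ρ - ι c := by
  have h : (poly t c).eval₂ ι ρ = 0 := AdjoinRoot.eval₂_root (poly t c)
  simp only [poly, eval₂_add, eval₂_sub, eval₂_pow, eval₂_X, eval₂_mul, eval₂_C] at h
  linear_combination h

theorem root_sub_one_mul : (ρ ^ 2 - 1) * (ι t * ρ + ι (c + 1) - ι t ^ 2) =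
    ι (t ^ 2 - (c + 1) ^ 2) := by
  simp only [map_add, map_sub, map_pow, map_one]
  linear_combination (ι t * ρ + ι c + 1 - ι t ^ 2 + ι t ^ 2) * root_sq (t := t) (c := c)

theorem exists_eq (x : AdjoinRoot (poly t c)) : ∃ a b : R, x = ι a + ι b * ρ := by
  induction x using AdjoinRoot.induction_on with
  | ih p =>
    induction p using Polynomial.induction_on' with
    | add p q hp hq =>
      obtain ⟨a, b, hp⟩ := hp
      obtain ⟨a', b', hq⟩ := hq
      exact ⟨a + a', b + b', by rw [map_add, hp, hq, map_add, map_add]; ring⟩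
    | monomial n r =>
      induction n with
      | zero =>
        exact ⟨r, 0, by rw [Polynomial.monomial_zero_left, AdjoinRoot.mk_C, map_zero, zero_mul, add_zero]⟩
      | succ n ih =>
        obtain ⟨a, b, h⟩ := ih
        refine ⟨-(b * c), a + b * t, ?_⟩
        rw [show (monomial (n + 1)) r = monomial n r * X by rw [monomial_mul_X], map_mul, h,
          AdjoinRoot.mk_X, map_neg, map_mul, map_add, map_mul]
        linear_combination ι b * root_sq (t := t) (c := c)

theorem eq_zero [Nontrivial R] {a b : R} (h : ι a + ι b * ρ = 0) : a = 0 ∧ b = 0 := by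
  have hm : AdjoinRoot.mk (poly t c) (C a + C b * X) = 0 := by
    rw [map_add, map_mul, AdjoinRoot.mk_C, AdjoinRoot.mk_C, AdjoinRoot.mk_X]
    exact h
  rw [AdjoinRoot.mk_eq_zero] at hm
  have hd : (C a + C b * X).degree < (poly t c).degree := by
    rw [Polynomial.degree_eq_natDegree (poly_monic t c).ne_zero, poly_natDegree]
    refine lt_of_le_of_lt (Polynomial.degree_le_of_natDegree_le (n := 1) ?_) ?_
    · compute_degree
    · exact_mod_cast one_lt_two
  have hz : C a + C b * X = 0 := by
    by_contra hne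
    exact (poly_monic t c).not_dvd_of_degree_lt hne hd hm
  exact ⟨by simpa using congrArg (coeff · 0) hz, by simpa using congrArg (coeff · 1) hz⟩

theorem coord_eq [Nontrivial R] {a b a' b' : R} (h : ι a + ι b * ρ = ι a' + ι b' * ρ) :
    a = a' ∧ b = b' := by
  have := eq_zero (a := a - a') (b := b - b') (by rw [map_sub, map_sub]; linear_combination h)
  exact ⟨sub_eq_zero.1 this.1, sub_eq_zero.1 this.2⟩

theorem mem_map_iff [Nontrivial R] (I : Ideal R) {a b : R} :
    ι a + ι b * ρ ∈ I.map ι ↔ a ∈ I ∧ b ∈ I := by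
  refine ⟨fun h => ?_, fun h => add_mem (Ideal.mem_map_of_mem _ h.1)
    (Ideal.mul_mem_right _ _ (Ideal.mem_map_of_mem _ h.2))⟩
  suffices key : ∀ x ∈ I.map ι, ∃ a b : R, a ∈ I ∧ b ∈ I ∧ x = ι a + ι b * ρ by
    obtain ⟨a', b', ha, hb, he⟩ := key _ h
    obtain ⟨rfl, rfl⟩ := coord_eq he
    exact ⟨ha, hb⟩
  intro x hx
  refine Submodule.span_induction ?_ ⟨0, 0, zero_mem _, zero_mem _, by simp⟩ ?_ ?_ hx
  · rintro _ ⟨a, ha, rfl⟩
    exact ⟨a, 0, ha, zero_mem _, by simp⟩
  · rintro y z - - ⟨a, b, ha, hb, rfl⟩ ⟨a', b', ha', hb', rfl⟩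
    exact ⟨a + a', b + b', add_mem ha ha', add_mem hb hb', by simp [map_add]; ring⟩
  · rintro y z - ⟨a, b, ha, hb, rfl⟩
    obtain ⟨p, q, rfl⟩ := exists_eq y
    refine ⟨p * a - c * (q * b), p * b + q * a + t * (q * b), ?_, ?_, ?_⟩
    · exact sub_mem (I.mul_mem_left _ ha) (I.mul_mem_left _ (I.mul_mem_left _ hb))
    · exact add_mem (add_mem (I.mul_mem_left _ hb) (I.mul_mem_left _ ha))
        (I.mul_mem_left _ (I.mul_mem_left _ hb))
    · simp only [smul_eq_mul, map_add, map_sub, map_mul]
      linear_combination (ι q * ι b) * root_sq (t := t) (c := c)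

end FLTAgent.Mod2.Quad
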