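import Fermat.Agent.Mod2.RT.ModTwo

/-!
# The residual representation in a basis diagonalising the cubic subgroup

For a cube root of unity `w`, `splitMat w` diagonalises the elements of order three; in that
basis `ρ̄` (`hbar`) is diagonal on `G_K` and antidiagonal elsewhere (`hbar_shape`).
-/

set_option autoImplicit false

noncomputable section

namespace FLTAgent.Mod2

open Matrix IsLocalRing

variable {C : Type} [CommRing C] [CharP C 2]

/-- Eigenvectors of the elements of order three, for a cube root of unity `w`. -/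
def splitMat (w : C) : Mat2 C := !![1, w ^ 2; w, w]

/-- The inverse of `splitMat`. -/
def splitInv (w : C) : Mat2 C := !![w ^ 2, 1; w ^ 2, w]

variable {w : C} (hw : w ^ 2 + w + 1 = 0)

include hw in
theorem splitInv_mul : splitInv w * splitMat w = 1 := by
  have h2 : (2 : C) = 0 := CharTwo.two_eq_zero
  ext i j
  fin_cases i <;> fin_cases j <;>
    simp [splitInv, splitMat, Matrix.mul_apply, Fin.sum_univ_two] <;> grind

include hw in
theorem splitMat_mul : splitMat w * splitInv w = 1 := by
  have h2 : (2 : C) = 0 := CharTwo.two_eq_zero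
  ext i j
  fin_cases i <;> fin_cases j <;>
    simp [splitInv, splitMat, Matrix.mul_apply, Fin.sum_univ_two] <;> grind

theorem mat2_cases : ∀ M : Mat2 (ZMod 2), M.det = 1 →
    (M = 1 ∨ M = !![0, 1; 1, 1] ∨ M = !![1, 1; 1, 0] ∨ M = !![1, 1; 0, 1] ∨ M = !![1, 0; 1, 1] ∨
      M = !![0, 1; 1, 0]) := by
  decide +kernel

namespace Setup

variable (D : Setup)

/-- `ρ̄` in the new basis. -/
def hbar (w : C) (σ : Gal2) : Mat2 C := splitInv w * (D.rho σ).map (castTwo C) * splitMat w

include hw in
theorem splitMat_mul_hbar (σ : Gal2) :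
    splitMat w * D.hbar w σ = (D.rho σ).map (castTwo C) * splitMat w := by
  rw [hbar, ← mul_assoc, ← mul_assoc, splitMat_mul hw, one_mul]

include hw in
/-- Diagonal or antidiagonal, with nonzero entries cube roots of unity of product one. -/
theorem hbar_shape (σ : Gal2) :
    (D.InK σ → D.hbar w σ 0 1 = 0 ∧ D.hbar w σ 1 0 = 0 ∧ D.hbar w σ 0 0 * D.hbar w σ 1 1 = 1 ∧
        D.hbar w σ 0 0 ^ 2 = D.hbar w σ 1 1 ∧ D.hbar w σ 1 1 ^ 2 = D.hbar w σ 0 0) ∧
    (¬ D.InK σ → D.hbar w σ 0 0 = 0 ∧ D.hbar w σ 1 1 = 0 ∧ D.hbar w σ 0 1 * D.hbar w σ 1 0 = 1 ∧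
        D.hbar w σ 0 1 ^ 2 = D.hbar w σ 1 0 ∧ D.hbar w σ 1 0 ^ 2 = D.hbar w σ 0 1) := by
  have h2 : (2 : C) = 0 := CharTwo.two_eq_zero
  unfold InK hbar
  rcases mat2_cases _ (D.det_rho σ) with e | e | e | e | e | e <;> rw [e]
  all_goals refine ⟨fun h => ?_, fun h => ?_⟩
  all_goals first
    | exact absurd (by decide +kernel) h
    | exact absurd h (by decide +kernel)
    | (simp [splitInv, splitMat, Matrix.mul_apply, Fin.sum_univ_two, castTwo, Matrix.vecMul, dotProduct, Matrix.map_apply]
       grind)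

end Setup

end FLTAgent.Mod2
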