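import Fermat.Agent.Mod2.RT.Finite
import Fermat.Agent.Mod2.RT.Quad

/-!
# The Hecke tower: normalisation and compatibility of the representations

`normalize` conjugates the representations of a tower so that all are normalised
(`isNormalized_normalize`). Then the old quotient `piOld` at `q ∈ G` carries the representation
of level `G` to that of level `G - q` (`piOld_rep`); it is surjective onto a local ring
(`piOld_surjective`, `isLocalRing_old`).
-/

set_option autoImplicit false

noncomputable section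

namespace FLTAgent.Mod2

open Matrix Polynomial

theorem ringHom_two_ext {B : Type} [CommRing B] [IsLocalRing B] (f g : B →+* ZMod 2) : f = g := by
  refine RingHom.ext fun x => ?_
  have h : ∀ a b : ZMod 2, (a = 1 ↔ b = 1) → a = b := by decide
  exact h _ _ ((isUnit_iff_red f).symm.trans (isUnit_iff_red g))

theorem not_isUnit_two {B : Type} [CommRing B] (f : B →+* ZMod 2) : ¬ IsUnit (2 : B) := fun h =>
  (h.map f).ne_zero (by rw [map_ofNat]; rfl)

theorem natCast_odd_red {B : Type} [CommRing B] (f : B →+* ZMod 2) {n : ℕ} (h : Odd n) :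
    f (n : B) = 1 := by
  rw [map_natCast]
  exact ZMod.natCast_eq_one_iff_odd.2 h

namespace Setup

variable {D : Setup}

theorem Aux.odd (q : D.Aux) : Odd q.1 :=
  q.2.1.odd_of_ne_two fun h => q.2.2.1 (h ▸ dvd_mul_right 2 D.m)

theorem Aux.ne_two (q : D.Aux) : q.1 ≠ 2 := fun h => q.2.2.1 (h ▸ dvd_mul_right 2 D.m)

theorem Aux.not_special_erase (q : D.Aux) (G : Finset D.Aux) :
    ¬ D.IsSpecial (G.erase q) q.1 := by
  rintro ⟨-, h | ⟨s, hs, he⟩⟩
  · exact q.2.2.1 h
  · exact (Finset.mem_erase.1 hs).1 (Subtype.ext he)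

theorem not_special_of_not_mem (q : D.Aux) {G : Finset D.Aux} (h : q ∉ G) :
    ¬ D.IsSpecial G q.1 := by
  rintro ⟨-, h' | ⟨s, hs, he⟩⟩
  · exact q.2.2.1 h'
  · exact h ((Subtype.ext he : s = q) ▸ hs)

theorem isSpecial_of_mem (q : D.Aux) {G : Finset D.Aux} (h : q ∈ G) : D.IsSpecial G q.1 :=
  ⟨q.2.1, .inr ⟨q, h, rfl⟩⟩

theorem isSpecial_of_dvd {G : Finset D.Aux} {v : ℕ} (hv : v.Prime) (h : v ∣ 2 * D.m) :
    D.IsSpecial G v := ⟨hv, .inl h⟩

/-- A finite set containing all special primes. -/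
def badPrimes (D : Setup) (G : Finset D.Aux) : Finset ℕ :=
  (2 * D.m).primeFactors ∪ G.image fun s => (s.1 : ℕ)

theorem not_special_of_not_mem_bad {G : Finset D.Aux} {l : ℕ} (hl : l ∉ badPrimes D G) :
    ¬ D.IsSpecial G l := by
  rintro ⟨hp, h | ⟨s, hs, he⟩⟩
  · exact hl (Finset.mem_union_left _
      (Nat.mem_primeFactors.2 ⟨hp, h, (NeZero.ne (2 * D.m))⟩))
  · exact hl (Finset.mem_union_right _ (Finset.mem_image.2 ⟨s, hs, he⟩))

end Setup

namespace Tower

variable {D : Setup} (W : Tower D)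

theorem lifts' (G : Finset D.Aux) (f : W.T G →+* ZMod 2) (σ : Gal2) :
    (W.r G σ).map f = D.rho σ := by
  rw [ringHom_two_ext f (W.red G)]; exact W.lifts G σ

theorem exists_frame (G : Finset D.Aux) : ∃ P : (Mat2 (W.T G))ˣ,
    (P : Mat2 (W.T G)).map (W.red G) = 1 ∧ D.IsNormal (conjRep P (W.r G)) :=
  Setup.exists_isNormal (W.red G) (W.lifts G)
    (W.special G 2 Nat.prime_two (dvd_mul_right 2 D.m))

/-- The chosen normalising matrices. -/
def frame (G : Finset D.Aux) : (Mat2 (W.T G))ˣ := (W.exists_frame G).choose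

theorem conj_sub_smul {B : Type} [CommRing B] (P : (Mat2 B)ˣ) (r : Gal2 →* Mat2 B) (σ : Gal2)
    (c : B) : conjRep P r σ - c • 1 = (P⁻¹ : (Mat2 B)ˣ) * (r σ - c • 1) * P := by
  rw [mul_sub, sub_mul, conjRep_apply, Matrix.mul_smul, Matrix.smul_mul, mul_one, Units.inv_mul]

theorem conj_mul_zero {B : Type} [CommRing B] (P : (Mat2 B)ˣ) {X Y : Mat2 B} (h : X * Y = 0) :
    ((P⁻¹ : (Mat2 B)ˣ) * X * P) * ((P⁻¹ : (Mat2 B)ˣ) * Y * P) = 0 := by
  simp only [mul_assoc, Units.mul_inv_cancel_left]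
  rw [← mul_assoc X, h, zero_mul, mul_zero]

theorem conj_sub_one {B : Type} [CommRing B] (P : (Mat2 B)ˣ) (r : Gal2 →* Mat2 B) (σ : Gal2) :
    conjRep P r σ - 1 = (P⁻¹ : (Mat2 B)ˣ) * (r σ - 1) * P := by
  simpa using conj_sub_smul P r σ 1

/-- The tower with normalised representations. -/
def normalize : Tower D :=
  { W with
    r := fun G => conjRep (W.frame G) (W.r G)
    cont := fun G => (W.cont G).conj _
    lifts := fun G σ => by
      rw [Setup.map_conjRep_of_red_one (W.red G) (W.frame G) (W.exists_frame G).choose_spec.1,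
        W.lifts]
    det := fun G σ => by rw [det_conjRep, W.det]
    unram := fun G q hq h => (W.unram G q hq h).conj _
    trace_frob := fun G q hq h A hA φ hφ => by rw [trace_conjRep, W.trace_frob G q hq h A hA φ hφ]
    special := fun G v hv h => (W.special G v hv h).conj _
    aux_inertia := fun G q hq A hA σ hσ τ hτ => by
      rw [conj_sub_one, conj_sub_one]
      exact conj_mul_zero _ (W.aux_inertia G q hq A hA σ hσ τ hτ)
    aux_frob := fun G q hq A hA σ hσ φ hφ => by
      obtain ⟨h1, h2⟩ := W.aux_frob G q hq A hA σ hσ φ hφ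
      rw [conj_sub_one, conj_sub_smul, conj_sub_smul]
      exact ⟨conj_mul_zero _ h1, conj_mul_zero _ h2⟩
    aux_cyclic := fun G q hq A hA => by
      obtain ⟨σ₀, hσ₀, h⟩ := W.aux_cyclic G q hq A hA
      refine ⟨σ₀, hσ₀, fun σ hσ => ?_⟩
      obtain ⟨c, hc⟩ := h σ hσ
      exact ⟨c, by rw [conj_sub_one, conj_sub_one, hc, Matrix.mul_smul, Matrix.smul_mul]⟩
    lower := fun G q hq I n hn hI => W.lower G q hq I n hn fun A hA σ hσ i j => by
      have e : ∀ k l, Ideal.Quotient.mk I ((conjRep (W.frame G) (W.r G) σ - 1) k l) = 0 :=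
        fun k l => Ideal.Quotient.eq_zero_iff_mem.2 (hI A hA σ hσ k l)
      let f := (Ideal.Quotient.mk I).mapMatrix (m := Fin 2)
      have h0 : f (conjRep (W.frame G) (W.r G) σ - 1) = 0 := by ext k l; exact e k l
      have h1 : f (W.r G σ - 1) = 0 := by
        rw [conj_sub_one, map_mul, map_mul] at h0
        have := congrArg (fun M => f (W.frame G : Mat2 (W.T G)) * M *
          f ((W.frame G)⁻¹ : (Mat2 (W.T G))ˣ)) h0
        simp only [mul_zero, zero_mul, ← mul_assoc, ← map_mul, Units.mul_inv, one_mul]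
          at this
        rwa [Units.mul_inv_cancel_right] at this
      exact Ideal.Quotient.eq_zero_iff_mem.1 (congrFun (congrFun h1 i) j) }

/-- All representations of the tower are normalised. -/
def IsNormalized : Prop := ∀ G, D.IsNormal (W.r G)

theorem isNormalized_normalize : W.normalize.IsNormalized := fun G =>
  (W.exists_frame G).choose_spec.2

/-- The quadratic extension receiving `pi`. -/
abbrev Old (G : Finset D.Aux) (q : D.Aux) : Type :=
  AdjoinRoot (Quad.poly (W.t (G.erase q) q.1) ((q.1 : ℕ) : W.T (G.erase q)))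

/-- `W.pi` with its abbreviated target. -/
def piOld (G : Finset D.Aux) (q : D.Aux) (hq : q ∈ G) : W.T G →ₐ[ℤ_[2]] W.Old G q := W.pi G q hq

variable {W}

theorem red_t_erase (G : Finset D.Aux) (q : D.Aux) : W.red (G.erase q) (W.t (G.erase q) q.1) = 0 := by
  obtain ⟨A, hA, φ, hφ, hρ⟩ := D.exists_frobenius_standard q
  rw [← W.trace_frob (G.erase q) q.1 q.2.1 (q.not_special_erase G) A hA φ hφ, ← trace_map,
    W.lifts, hρ]
  decide

/-- The reduction of the old quotient. -/
def redOld (G : Finset D.Aux) (q : D.Aux) : W.Old G q →+* ZMod 2 :=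
  AdjoinRoot.lift (W.red (G.erase q)) 1 (by
    simp [Quad.poly, W.red_t_erase, ZMod.natCast_eq_one_iff_odd.2 q.odd]
    decide)

theorem redOld_of (G : Finset D.Aux) (q : D.Aux) (a : W.T (G.erase q)) :
    redOld (W := W) G q (AdjoinRoot.of _ a) = W.red (G.erase q) a := AdjoinRoot.lift_of _

theorem piOld_t {G : Finset D.Aux} {q : D.Aux} (hq : q ∈ G) {l : ℕ} (hl : l.Prime) (hne : l ≠ q.1) :
    W.piOld G q hq (W.t G l) = AdjoinRoot.of _ (W.t (G.erase q) l) := W.pi_t G q hq l hl hne

theorem piOld_u {G : Finset D.Aux} {q : D.Aux} (hq : q ∈ G) :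
    W.piOld G q hq (W.t G q.1) = AdjoinRoot.root _ := W.pi_u G q hq

theorem piOld_surjective {G : Finset D.Aux} {q : D.Aux} (hq : q ∈ G) :
    Function.Surjective (W.piOld G q hq) := by
  set π := W.piOld G q hq
  obtain ⟨U, hU⟩ : IsUnit (W.t G q.1) :=
    (isUnit_iff_red (W.red G)).2 (W.red_t G q.1 (D.isSpecial_of_mem q hq))
  have ht : ∀ l : ℕ, l.Prime → AdjoinRoot.of _ (W.t (G.erase q) l) ∈ π.range := by
    intro l hl
    by_cases hne : l = q.1
    · subst hne
      refine ⟨W.t G q.1 + ((q.1 : ℕ) : W.T G) * ((U⁻¹ : (W.T G)ˣ) : W.T G), ?_⟩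
      have hr : π (W.t G q.1) * π ((U⁻¹ : (W.T G)ˣ) : W.T G) = 1 := by
        rw [← map_mul, ← hU, Units.mul_inv, map_one]
      rw [piOld_u] at hr
      show π (W.t G q.1 + ((q.1 : ℕ) : W.T G) * _) = _
      rw [map_add, map_mul, map_natCast, piOld_u]
      have := Quad.root_sq (t := W.t (G.erase q) q.1) (c := ((q.1 : ℕ) : W.T (G.erase q)))
      rw [map_natCast] at this
      linear_combination π ((U⁻¹ : (W.T G)ˣ) : W.T G) * this +
        (AdjoinRoot.of (Quad.poly (W.t (G.erase q) q.1) ((q.1 : ℕ) : W.T (G.erase q)))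
          (W.t (G.erase q) q.1) - AdjoinRoot.root _) * hr
    · exact ⟨W.t G l, piOld_t hq hl hne⟩
  have hof : ∀ a, AdjoinRoot.of _ a ∈ π.range := by
    intro a
    have ha : a ∈ Algebra.adjoin ℤ_[2] (W.t (G.erase q) '' {l | l.Prime}) := by
      rw [W.adjoin_eq_top]; trivial
    induction ha using Algebra.adjoin_induction with
    | mem x hx => obtain ⟨l, hl, rfl⟩ := hx; exact ht l hl
    | algebraMap c => exact ⟨algebraMap ℤ_[2] _ c, π.commutes c⟩
    | add x y _ _ hx hy => rw [map_add]; exact add_mem hx hy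
    | mul x y _ _ hx hy => rw [map_mul]; exact mul_mem hx hy
  intro x
  obtain ⟨a, b, rfl⟩ := Quad.exists_eq x
  obtain ⟨a', ha⟩ := hof a
  obtain ⟨b', hb⟩ := hof b
  refine ⟨a' + b' * W.t G q.1, ?_⟩
  rw [map_add, map_mul, piOld_u]
  exact congrArg₂ (· + ·) ha (congrArg (· * _) hb)

theorem redOld_piOld {G : Finset D.Aux} {q : D.Aux} (hq : q ∈ G) (x : W.T G) :
    redOld (W := W) G q (W.piOld G q hq x) = W.red G x :=
  RingHom.congr_fun (ringHom_two_ext ((redOld G q).comp (W.piOld G q hq).toRingHom) (W.red G)) x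

theorem isLocalRing_old {G : Finset D.Aux} {q : D.Aux} (hq : q ∈ G) : IsLocalRing (W.Old G q) := by
  have : Nontrivial (W.Old G q) := (redOld (W := W) G q).domain_nontrivial
  exact IsLocalRing.of_surjective' (W.piOld G q hq).toRingHom (piOld_surjective hq)

/-- The inclusion `T (G - q) → Old`. -/
def ofOld (W : Tower D) (G : Finset D.Aux) (q : D.Aux) : W.T (G.erase q) →ₐ[ℤ_[2]] W.Old G q :=
  IsScalarTower.toAlgHom ℤ_[2] _ _

theorem ofOld_apply (W : Tower D) (G : Finset D.Aux) (q : D.Aux) (a : W.T (G.erase q)) :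
    W.ofOld G q a = AdjoinRoot.of _ a := rfl

variable (hW : W.IsNormalized)

include hW in
/-- `pi` carries the representation to that of level `G - q`. -/
theorem piOld_rep {G : Finset D.Aux} {q : D.Aux} (hq : q ∈ G) :
    mapRep (W.piOld G q hq).toRingHom (W.r G) =
      mapRep (W.ofOld G q).toRingHom (W.r (G.erase q)) := by
  have := isLocalRing_old (W := W) hq
  have : Module.Finite ℤ_[2] (W.Old G q) :=
    Module.Finite.of_surjective (W.piOld G q hq).toLinearMap (piOld_surjective hq)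
  have hdet : ∀ σ, (mapRep (W.piOld G q hq).toRingHom (W.r G) σ).det =
      (mapRep (W.ofOld G q).toRingHom (W.r (G.erase q)) σ).det := fun σ => by
    rw [mapRep_apply, mapRep_apply, det_map, det_map, W.det, W.det]
    exact ((W.piOld G q hq).commutes _).trans ((W.ofOld G q).commutes _).symm
  refine ((hW G).map _).eq_of_trace_eq (redOld G q) ((hW (G.erase q)).map _) (fun σ => ?_) ?_ hdet
  · ext i j
    simp [redOld_piOld, ← W.lifts G σ]
  · refine trace_eq_of_frobenius ((W.cont G).map _) ((W.cont _).map _) hdet (D.badPrimes G)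
      fun l hl hlT A hA φ hφ => ?_
    have hs := Setup.not_special_of_not_mem_bad hlT
    have hs' : ¬ D.IsSpecial (G.erase q) l := fun ⟨h1, h2⟩ => hs ⟨h1, h2.imp id
      fun ⟨s, hs, he⟩ => ⟨s, Finset.mem_of_mem_erase hs, he⟩⟩
    rw [mapRep_apply, mapRep_apply, trace_map, trace_map, W.trace_frob G l hl hs A hA φ hφ,
      W.trace_frob _ l hl hs' A hA φ hφ]
    exact piOld_t hq hl fun e => hs (e ▸ D.isSpecial_of_mem q hq)

end Tower

end FLTAgent.Mod2
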